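/-
S58 squad, brick (a2)/(R2) (helper27): the COMPOSITION LAW for heights of rational functions.
Mathlib only.

`k` a field.  For `A : k[X]`, `n : ℕ` and a pair `U V : k[X]`, the homogenised substitution
`homog A n U V = ∑_{i ≤ n} a_i U^i V^(n-i)`  (`= V^n · A(U/V)` when `deg A ≤ n`).
If `(A, B)` and `(U, V)` are coprime pairs and `n = max (deg A) (deg B)`, then
* `isCoprime_homog` : `homog A n U V` and `homog B n U V` are coprime,
* `ht_homog`        : `max (deg (homog A n U V)) (deg (homog B n U V)) = n * max (deg U) (deg V)`,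
* `rel_homog`       : in any field `L ⊇ k`: `z · V(ξ) = U(ξ)` and `w · B(z) = A(z)` imply
                      `w · (homog B n U V)(ξ) = (homog A n U V)(ξ)`,
i.e. if `z = (U/V)(ξ)` and `w = (A/B)(z)` then `w = (A*/B*)(ξ)` with `(A*, B*)` a coprime pair of
height `ht (A, B) · ht (U, V)`:  `deg (f ∘ g) = deg f · deg g` for rational functions.
-/
import Mathlib

set_option autoImplicit false

namespace Fermat.Agent.FrobRel.CompDeg27

open Polynomial

variable {k : Type*} [Field k]

/-- homogenised substitution `∑_{i ≤ n} a_i U^i V^(n-i)`. -/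
noncomputable def homog (A : k[X]) (n : ℕ) (U V : k[X]) : k[X] :=
  ∑ i ∈ Finset.range (n + 1), C (A.coeff i) * U ^ i * V ^ (n - i)

/-- the homogenisation of `A` as a function of two variables in a commutative `k`-algebra. -/
noncomputable def homogEval {L : Type*} [CommRing L] [Algebra k L] (A : k[X]) (n : ℕ) (u v : L) : L :=
  ∑ i ∈ Finset.range (n + 1), algebraMap k L (A.coeff i) * u ^ i * v ^ (n - i)

theorem aeval_homog {L : Type*} [CommRing L] [Algebra k L] (A : k[X]) (n : ℕ) (U V : k[X]) (ξ : L) :
    aeval ξ (homog A n U V) = homogEval A n (aeval ξ U) (aeval ξ V) := by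
  simp only [homog, homogEval, map_sum, map_mul, map_pow, aeval_C]

theorem homogEval_of_rel {L : Type*} [CommRing L] [Algebra k L] {A : k[X]} {n : ℕ}
    (hA : A.natDegree ≤ n) {u v z : L} (h : z * v = u) :
    homogEval A n u v = v ^ n * aeval z A := by
  rw [aeval_eq_sum_range' (Nat.lt_succ_of_le hA), Finset.mul_sum, homogEval]
  refine Finset.sum_congr rfl fun i hi => ?_
  have hi' : i ≤ n := Nat.lt_succ_iff.mp (Finset.mem_range.mp hi)
  rw [← h, Algebra.smul_def, mul_pow]
  have : v ^ n = v ^ i * v ^ (n - i) := by rw [← pow_add, Nat.add_sub_cancel' hi']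
  rw [this]
  ring

theorem homogEval_zero_right {L : Type*} [CommRing L] [Algebra k L] (A : k[X]) (n : ℕ) (u : L) :
    homogEval A n u 0 = algebraMap k L (A.coeff n) * u ^ n := by
  rw [homogEval, Finset.sum_range_succ]
  rw [Finset.sum_eq_zero, zero_add, Nat.sub_self, pow_zero, mul_one]
  intro i hi
  have : n - i ≠ 0 := Nat.sub_ne_zero_of_lt (Finset.mem_range.mp hi)
  rw [zero_pow this, mul_zero]

/-- **the substitution relation.** -/
theorem rel_homog {L : Type*} [CommRing L] [Algebra k L] {A B U V : k[X]} {n : ℕ}
    (hA : A.natDegree ≤ n) (hB : B.natDegree ≤ n) {ξ z w : L}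
    (hz : z * aeval ξ V = aeval ξ U) (hw : w * aeval z B = aeval z A) :
    w * aeval ξ (homog B n U V) = aeval ξ (homog A n U V) := by
  rw [aeval_homog, aeval_homog, homogEval_of_rel hA hz, homogEval_of_rel hB hz, ← hw]
  ring

/-- A coprime pair of height `n` has no common zero on the projective line over any field
extension: affine part. -/
theorem not_both_zero_of_isCoprime {L : Type*} [Field L] [Algebra k L] {A B : k[X]}
    (hAB : IsCoprime A B) (t : L) : ¬ (aeval t A = 0 ∧ aeval t B = 0) := by
  rintro ⟨h1, h2⟩
  obtain ⟨a, b, hab⟩ := hAB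
  have := congrArg (aeval t) hab
  rw [map_add, map_mul, map_mul, h1, h2, mul_zero, mul_zero, add_zero, map_one] at this
  exact zero_ne_one this

/-- The top coefficients (at `n = max (deg A) (deg B)`) of a coprime pair are not both zero. -/
theorem top_not_both_zero {A B : k[X]} (hAB : IsCoprime A B) :
    ¬ (A.coeff (max A.natDegree B.natDegree) = 0 ∧ B.coeff (max A.natDegree B.natDegree) = 0) := by
  rintro ⟨h1, h2⟩
  rcases le_total A.natDegree B.natDegree with hle | hle
  · rw [max_eq_right hle] at h2
    have hB : B = 0 := leadingCoeff_eq_zero.mp h2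
    rw [hB, natDegree_zero, Nat.le_zero] at hle
    rw [hB, natDegree_zero, hle, max_self] at h1
    have hA : A = 0 := by
      rw [eq_C_of_natDegree_eq_zero hle, h1, map_zero]
    rw [hA, hB] at hAB
    exact not_isCoprime_zero_zero hAB
  · rw [max_eq_left hle] at h1
    have hA : A = 0 := leadingCoeff_eq_zero.mp h1
    rw [hA, natDegree_zero, Nat.le_zero] at hle
    rw [hA, natDegree_zero, hle, max_self] at h2
    have hB : B = 0 := by
      rw [eq_C_of_natDegree_eq_zero hle, h2, map_zero]
    rw [hA, hB] at hAB
    exact not_isCoprime_zero_zero hAB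

/-- **No common projective zero**: for a coprime pair `(A, B)` of height `n` and `(u, v) ≠ (0, 0)`
in a field extension, the two homogenisations do not both vanish at `(u, v)`. -/
theorem homogEval_not_both_zero {L : Type*} [Field L] [Algebra k L] {A B : k[X]}
    (hAB : IsCoprime A B) {u v : L} (huv : u ≠ 0 ∨ v ≠ 0) :
    ¬ (homogEval A (max A.natDegree B.natDegree) u v = 0 ∧
        homogEval B (max A.natDegree B.natDegree) u v = 0) := by
  set n := max A.natDegree B.natDegree with hn
  rintro ⟨h1, h2⟩
  by_cases hv : v = 0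
  · subst hv
    have hu : u ≠ 0 := by simpa using huv
    rw [homogEval_zero_right] at h1 h2
    have hun : u ^ n ≠ 0 := pow_ne_zero _ hu
    have h1' := (mul_eq_zero.mp h1).resolve_right hun
    have h2' := (mul_eq_zero.mp h2).resolve_right hun
    rw [map_eq_zero_iff _ (algebraMap k L).injective] at h1' h2'
    exact top_not_both_zero hAB ⟨h1', h2'⟩
  · have hz : (u / v) * v = u := div_mul_cancel₀ u hv
    rw [homogEval_of_rel (le_max_left _ _) hz] at h1
    rw [homogEval_of_rel (le_max_right _ _) hz] at h2
    have hvn : v ^ n ≠ 0 := pow_ne_zero _ hv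
    exact not_both_zero_of_isCoprime hAB (u / v)
      ⟨(mul_eq_zero.mp h1).resolve_left hvn, (mul_eq_zero.mp h2).resolve_left hvn⟩

/-- **coprimality of the composed pair.** -/
theorem isCoprime_homog {A B U V : k[X]} (hAB : IsCoprime A B) (hUV : IsCoprime U V) :
    IsCoprime (homog A (max A.natDegree B.natDegree) U V)
      (homog B (max A.natDegree B.natDegree) U V) := by
  set n := max A.natDegree B.natDegree with hn
  have key : ∀ π : k[X], Prime π → π ∣ homog A n U V → ¬ π ∣ homog B n U V := by
    intro π hπ h1 h2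
    have hirr : Irreducible π := hπ.irreducible
    have : Fact (Irreducible π) := ⟨hirr⟩
    -- the field `F = k[X]/(π)` and the images of `U`, `V`
    have e : ∀ P : k[X], aeval (AdjoinRoot.root π) P = AdjoinRoot.mk π P := fun P =>
      AdjoinRoot.aeval_eq P
    have huv : aeval (AdjoinRoot.root π) U ≠ 0 ∨ aeval (AdjoinRoot.root π) V ≠ 0 := by
      by_contra hcon
      push Not at hcon
      rw [e, e, AdjoinRoot.mk_eq_zero, AdjoinRoot.mk_eq_zero] at hcon
      exact hπ.not_isUnit (hUV.isUnit_of_dvd' hcon.1 hcon.2)
    refine homogEval_not_both_zero (L := AdjoinRoot π) hAB huv ⟨?_, ?_⟩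
    · rw [← hn, ← aeval_homog, e, AdjoinRoot.mk_eq_zero]; exact h1
    · rw [← hn, ← aeval_homog, e, AdjoinRoot.mk_eq_zero]; exact h2
  refine isCoprime_of_prime_dvd ?_ key
  -- the pair is not `(0, 0)`: look at `X` (or any prime) — use a direct argument
  rintro ⟨h1, h2⟩
  have hne : U ≠ 0 ∨ V ≠ 0 := by
    by_contra hcon
    push Not at hcon
    rw [hcon.1, hcon.2] at hUV
    exact not_isCoprime_zero_zero hUV
  -- evaluate in the fraction field
  have huv : aeval (algebraMap k[X] (RatFunc k) X) U ≠ 0 ∨
      aeval (algebraMap k[X] (RatFunc k) X) V ≠ 0 := by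
    have e : ∀ P : k[X], aeval (algebraMap k[X] (RatFunc k) X) P = algebraMap k[X] (RatFunc k) P := by
      intro P
      rw [aeval_algebraMap_apply, aeval_X_left_apply]
    rw [e, e]
    rcases hne with h | h
    · left; exact (map_ne_zero_iff _ (IsFractionRing.injective k[X] (RatFunc k))).mpr h
    · right; exact (map_ne_zero_iff _ (IsFractionRing.injective k[X] (RatFunc k))).mpr h
  refine homogEval_not_both_zero (L := RatFunc k) hAB huv ⟨?_, ?_⟩
  · rw [← hn, ← aeval_homog, h1, map_zero]
  · rw [← hn, ← aeval_homog, h2, map_zero]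

theorem natDegree_homog_le (A : k[X]) (n : ℕ) (U V : k[X]) :
    (homog A n U V).natDegree ≤ n * max U.natDegree V.natDegree := by
  set m := max U.natDegree V.natDegree with hm
  refine natDegree_sum_le_of_forall_le _ _ fun i hi => ?_
  have hi' : i ≤ n := Nat.lt_succ_iff.mp (Finset.mem_range.mp hi)
  calc (C (A.coeff i) * U ^ i * V ^ (n - i)).natDegree
      ≤ (C (A.coeff i) * U ^ i).natDegree + (V ^ (n - i)).natDegree := natDegree_mul_le
    _ ≤ ((C (A.coeff i)).natDegree + (U ^ i).natDegree) + (V ^ (n - i)).natDegree :=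
        Nat.add_le_add_right natDegree_mul_le _
    _ ≤ (0 + i * m) + (n - i) * m := by
        refine Nat.add_le_add (Nat.add_le_add (by simp) ?_) ?_
        · exact natDegree_pow_le.trans (Nat.mul_le_mul_left _ (le_max_left _ _))
        · exact natDegree_pow_le.trans (Nat.mul_le_mul_left _ (le_max_right _ _))
    _ = n * m := by
        rw [zero_add, ← Nat.add_mul, Nat.add_sub_cancel' hi']

/-- the coefficient of `homog A n U V` in degree `n * m`, `m = max (deg U) (deg V)`. -/
theorem coeff_homog_top (A : k[X]) (n : ℕ) (U V : k[X]) :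
    (homog A n U V).coeff (n * max U.natDegree V.natDegree) =
      homogEval (L := k) A n (U.coeff (max U.natDegree V.natDegree))
        (V.coeff (max U.natDegree V.natDegree)) := by
  set m := max U.natDegree V.natDegree with hm
  rw [homog, homogEval, finsetSum_coeff]
  refine Finset.sum_congr rfl fun i hi => ?_
  have hi' : i ≤ n := Nat.lt_succ_iff.mp (Finset.mem_range.mp hi)
  have hnm : n * m = i * m + (n - i) * m := by rw [← Nat.add_mul, Nat.add_sub_cancel' hi']
  rw [mul_assoc, coeff_C_mul, hnm,
    coeff_mul_add_eq_of_natDegree_le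
      (natDegree_pow_le.trans (Nat.mul_le_mul_left _ (le_max_left _ _)))
      (natDegree_pow_le.trans (Nat.mul_le_mul_left _ (le_max_right _ _))),
    coeff_pow_of_natDegree_le (le_max_left _ _), coeff_pow_of_natDegree_le (le_max_right _ _)]
  simp [mul_assoc, hm]

/-- **the height of the composed pair.** -/
theorem ht_homog {A B U V : k[X]} (hAB : IsCoprime A B) (hUV : IsCoprime U V) :
    max (homog A (max A.natDegree B.natDegree) U V).natDegree
        (homog B (max A.natDegree B.natDegree) U V).natDegree
      = max A.natDegree B.natDegree * max U.natDegree V.natDegree := by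
  set n := max A.natDegree B.natDegree with hn
  set m := max U.natDegree V.natDegree with hm
  refine le_antisymm (max_le (natDegree_homog_le _ _ _ _) (natDegree_homog_le _ _ _ _)) ?_
  have huv : U.coeff m ≠ 0 ∨ V.coeff m ≠ 0 := by
    by_contra hcon
    push Not at hcon
    exact top_not_both_zero hUV hcon
  have h := homogEval_not_both_zero (L := k) hAB huv
  rw [← hn, ← coeff_homog_top, ← coeff_homog_top, ← hm] at h
  by_cases h1 : (homog A n U V).coeff (n * m) = 0
  · have h2 : (homog B n U V).coeff (n * m) ≠ 0 := fun h2 => h ⟨h1, h2⟩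
    exact (le_natDegree_of_ne_zero h2).trans (le_max_right _ _)
  · exact (le_natDegree_of_ne_zero h1).trans (le_max_left _ _)

end Fermat.Agent.FrobRel.CompDeg27
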