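/-
S58 squad, brick (a2) glue (helper27): multiplicativity of the height of the `x`-coordinate along
substitution embeddings of the function field of a Weierstrass curve.

`k` a field, `W` a Weierstrass curve over `k`, `K = W.FunctionField`, `c = algebraMap k[X] K`.
If `(xR, yR) ∈ W(K)` with `xR` transcendental, `xR · c B = c A`, and `z ∈ K` with `z · c V = c U`,
then `σ_R z · c V* = c U*` where `σ_R = SubstEmb17.substHom` (`x ↦ xR`, `y ↦ yR`) and
`(U*, V*) = (homog U n A B, homog V n A B)`, `n = max (deg U) (deg V)`; if `(A, B)` and `(U, V)` are
coprime pairs then so is `(U*, V*)` and its height is the product of the heights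
(`CompDeg27.isCoprime_homog`, `CompDeg27.ht_homog`).
-/
import Fermat.Agent.ES.Q58.SubstEmb17
import Fermat.Agent.FrobRel.CompDeg27

set_option autoImplicit false

namespace Fermat.Agent.FrobRel.CompSubst27

open WeierstrassCurve WeierstrassCurve.Affine Polynomial
open Fermat.Agent.ES.Q58.IotaDescent23 Fermat.Agent.ES.Q58.SubstEmb17
open Fermat.Agent.FrobRel.CompDeg27

variable {k : Type*} [Field k] (W : Affine k)

/-- **the `x`-relation of a substituted element.** -/
theorem substHom_rel {xR yR : W.FunctionField} (h : (W⁄W.FunctionField).Equation xR yR)
    (hX : Transcendental k xR) {A B U V : k[X]}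
    (hR : xR * algebraMap k[X] W.FunctionField B = algebraMap k[X] W.FunctionField A)
    {z : W.FunctionField}
    (hz : z * algebraMap k[X] W.FunctionField V = algebraMap k[X] W.FunctionField U) :
    substHom W h hX z *
        algebraMap k[X] W.FunctionField (homog V (max U.natDegree V.natDegree) A B) =
      algebraMap k[X] W.FunctionField (homog U (max U.natDegree V.natDegree) A B) := by
  have hz' : substHom W h hX z * aeval xR V = aeval xR U := by
    have := congrArg (substHom W h hX) hz
    rwa [map_mul, substHom_algebraMap_polynomial, substHom_algebraMap_polynomial] at this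
  have hR' : xR * aeval (xK W) B = aeval (xK W) A := by
    rw [aeval_xK, aeval_xK]; exact hR
  have := rel_homog (A := U) (B := V) (U := A) (V := B) (n := max U.natDegree V.natDegree)
    (le_max_left _ _) (le_max_right _ _) (ξ := xK W) (z := xR) (w := substHom W h hX z) hR' hz'
  rwa [aeval_xK, aeval_xK] at this

/-- **multiplicativity of the height along a substitution embedding**, packaged: the substituted
element is again a quotient of a coprime pair, of height the product of the heights. -/
theorem exists_coprime_substHom {xR yR : W.FunctionField}
    (h : (W⁄W.FunctionField).Equation xR yR)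
    (hX : Transcendental k xR) {A B U V : k[X]} (hAB : IsCoprime A B) (hUV : IsCoprime U V)
    (hR : xR * algebraMap k[X] W.FunctionField B = algebraMap k[X] W.FunctionField A)
    {z : W.FunctionField}
    (hz : z * algebraMap k[X] W.FunctionField V = algebraMap k[X] W.FunctionField U) :
    ∃ U' V' : k[X], IsCoprime U' V' ∧
      max U'.natDegree V'.natDegree =
        max U.natDegree V.natDegree * max A.natDegree B.natDegree ∧
      substHom W h hX z * algebraMap k[X] W.FunctionField V' =
        algebraMap k[X] W.FunctionField U' :=
  ⟨_, _, isCoprime_homog hUV hAB, ht_homog hUV hAB, substHom_rel W h hX hR hz⟩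

end Fermat.Agent.FrobRel.CompSubst27
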