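/-
S58 squad, brick (a2)/(R2) (helper27): **multiplicativity of the degree `Q58R.Deg.deg` along
substitution embeddings**.

`k` a field, `W` a Weierstrass curve over `k`, `K = W.FunctionField`, `R = (xR, yR) ∈ W(K)` with `xR`
transcendental over `k`, `σ_R = SubstEmb17.substHom : K →ₐ[k] K` (`x ↦ xR`, `y ↦ yR`).  If `(A, B)` is
an `x`-ratio of `R` and `(U, V)` an `x`-ratio of `S`, then
`(homog U n A B, homog V n A B)`, `n = max (deg U) (deg V)`, is an `x`-ratio of `σ_R S`, hence
  `deg (σ_R S) = deg S * deg R`.
-/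
import Fermat.Agent.Q58R.Deg
import Fermat.Agent.FrobRel.CompSubst27

set_option autoImplicit false
set_option linter.unusedSectionVars false

namespace Fermat.Agent.FrobRel.DegSubst27

open WeierstrassCurve WeierstrassCurve.Affine Polynomial
open Fermat.Agent.ES.Q58.IotaDescent23 Fermat.Agent.ES.Q58.SubstEmb17
open Fermat.Agent.ES.Q58.PLPoly2
open Fermat.Agent.FrobRel.CompDeg27 Fermat.Agent.FrobRel.CompSubst27
open Fermat.Agent.Q58R.Deg

variable {k : Type*} [Field k] {W : Affine k} [DecidableEq W.FunctionField]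

/-- the `x`-ratio of a substituted point. -/
theorem IsXRatio.map_substHom {xR yR : W.FunctionField}
    (hR : (W⁄W.FunctionField).Nonsingular xR yR) (hX : Transcendental k xR) {A B : k[X]}
    (hAB : IsXRatio W (Point.some xR yR hR) A B) {S : (W⁄W.FunctionField).Point} {U V : k[X]}
    (hUV : IsXRatio W S U V) :
    IsXRatio W (Point.map (W' := W) (substHom W hR.1 hX) S)
      (homog U (max U.natDegree V.natDegree) A B) (homog V (max U.natDegree V.natDegree) A B) := by
  obtain ⟨hcAB, eAB⟩ := (isXRatio_some_iff hR).mp hAB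
  rcases S with _ | ⟨x, y, hxy⟩
  · -- `S = 0`: `V = 0`, `U` a unit
    have e := hUV.2
    rw [← Point.zero_def] at e ⊢
    simp only [Point.xRep_zero, Matrix.cons_val_zero, Matrix.cons_val_one, one_mul, zero_mul] at e
    have hV : V = 0 := cK_injective W (by rw [e, map_zero])
    refine ⟨isCoprime_homog hUV.1 hcAB, ?_⟩
    rw [Point.map_zero]
    simp only [Point.xRep_zero, Matrix.cons_val_zero, Matrix.cons_val_one, one_mul, zero_mul]
    -- `homog 0 n A B = 0`
    rw [hV]
    simp [homog]
  · obtain ⟨hc, e⟩ := (isXRatio_some_iff hxy).mp hUV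
    rw [Point.map_some, isXRatio_some_iff]
    exact ⟨isCoprime_homog hc hcAB, substHom_rel W hR.1 hX eAB e⟩

/-- **multiplicativity of the degree along a substitution embedding.** -/
theorem deg_map_substHom {xR yR : W.FunctionField}
    (hR : (W⁄W.FunctionField).Nonsingular xR yR) (hX : Transcendental k xR) {A B : k[X]}
    (hAB : IsXRatio W (Point.some xR yR hR) A B) {S : (W⁄W.FunctionField).Point} {U V : k[X]}
    (hUV : IsXRatio W S U V) :
    deg W (Point.map (W' := W) (substHom W hR.1 hX) S) =
      deg W S * deg W (Point.some xR yR hR) := by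
  rw [deg_eq_of_isXRatio (IsXRatio.map_substHom hR hX hAB hUV), deg_eq_of_isXRatio hUV,
    deg_eq_of_isXRatio hAB]
  exact ht_homog hUV.1 hAB.1

/-- the same for odd points (which always have `x`-ratios). -/
theorem deg_map_substHom_of_mem_oddPoints (hΔ : W.Δ ≠ 0) {xR yR : W.FunctionField}
    (hR : (W⁄W.FunctionField).Nonsingular xR yR) (hX : Transcendental k xR)
    (hRodd : Point.some xR yR hR ∈ oddPoints W) {S : (W⁄W.FunctionField).Point}
    (hS : S ∈ oddPoints W) :
    deg W (Point.map (W' := W) (substHom W hR.1 hX) S) =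
      deg W S * deg W (Point.some xR yR hR) := by
  obtain ⟨A, B, hAB⟩ := exists_isXRatio hΔ hRodd
  obtain ⟨U, V, hUV⟩ := exists_isXRatio hΔ hS
  exact deg_map_substHom hR hX hAB hUV

/-- an affine odd point of positive degree has a transcendental `x`-coordinate. -/
theorem transcendental_of_deg_ne_zero {xR yR : W.FunctionField}
    (hR : (W⁄W.FunctionField).Nonsingular xR yR) {A B : k[X]}
    (hAB : IsXRatio W (Point.some xR yR hR) A B) (hd : deg W (Point.some xR yR hR) ≠ 0) :
    Transcendental k xR := by
  obtain ⟨hc, e⟩ := (isXRatio_some_iff hR).mp hAB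
  rw [deg_eq_of_isXRatio hAB] at hd
  exact transcendental_of_isCoprime W hc (Nat.pos_of_ne_zero hd) e

end Fermat.Agent.FrobRel.DegSubst27
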