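/-
Frobenius relation on an elliptic curve over `𝔽_ℓ` (S58 brick (a)), part (a2), Mathlib only (helper2):
the degree of a rational function is multiplicative under composition.
-/
import Mathlib

set_option autoImplicit false

namespace Fermat.Agent.FrobRel

open Polynomial IntermediateField

variable {k : Type*} [Field k]

/-- the degree of a rational function: `max (deg num) (deg denom)`. -/
noncomputable def rdeg (f : RatFunc k) : ℕ := max f.num.natDegree f.denom.natDegree

theorem rdeg_eq_finrank (f : RatFunc k) : rdeg f = Module.finrank k⟮f⟯ (RatFunc k) :=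
  (RatFunc.finrank_eq_max_natDegree f).symm

/-- the substitution `X ↦ g`, for `g` transcendental. -/
noncomputable def rsubst (g : RatFunc k) (hg : Transcendental k g) : RatFunc k →ₐ[k] RatFunc k :=
  IsFractionRing.liftAlgHom (g := (aeval g : k[X] →ₐ[k] RatFunc k))
    (transcendental_iff_injective.mp hg)

theorem rsubst_algebraMap (g : RatFunc k) (hg : Transcendental k g) (p : k[X]) :
    rsubst g hg (algebraMap k[X] (RatFunc k) p) = aeval g p := by
  rw [rsubst, IsFractionRing.liftAlgHom_apply, IsFractionRing.lift_algebraMap]
  rfl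

theorem rsubst_X (g : RatFunc k) (hg : Transcendental k g) : rsubst g hg RatFunc.X = g := by
  rw [← RatFunc.algebraMap_X, rsubst_algebraMap, aeval_X]

/-- **the degree is multiplicative under composition.** -/
theorem rdeg_rsubst (f g : RatFunc k) (hg : Transcendental k g) :
    rdeg (rsubst g hg f) = rdeg f * rdeg g := by
  set s := rsubst g hg with hs
  have e1 : k⟮s f⟯ = (k⟮f⟯).map s := by
    rw [adjoin_map, Set.image_singleton]
  have e2 : k⟮g⟯ = (⊤ : IntermediateField k (RatFunc k)).map s := by
    rw [← RatFunc.adjoin_X, adjoin_map, Set.image_singleton, hs, rsubst_X]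
  rw [rdeg_eq_finrank, rdeg_eq_finrank, rdeg_eq_finrank, ← relfinrank_top_right,
    ← relfinrank_top_right, ← relfinrank_top_right, e1, e2,
    ← relfinrank_mul_relfinrank (A := (k⟮f⟯).map s) (B := (⊤ : IntermediateField k (RatFunc k)).map s)
      (C := ⊤) (map_mono s le_top) le_top,
    relfinrank_map_map]

theorem rdeg_X : rdeg (RatFunc.X : RatFunc k) = 1 := by
  rw [rdeg, RatFunc.num_X, RatFunc.denom_X]
  simp

end Fermat.Agent.FrobRel
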