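/-
Frobenius relation on an elliptic curve over `𝔽_ℓ` (S58 brick (a)), part (a1) (helper2):
the height `hgt` (= degree of the `x`-coordinate as a rational function of `x`) on the odd points of
`W(K)`, `K = k(W)`, and its exact parallelogram law.
-/
import Fermat.Agent.ES.Q58.IotaDescent23
import Fermat.Agent.ES.Q58.SubstEmb17
import Fermat.Agent.ES.Q58.PLCurve2
import Fermat.Agent.ES.Q58.PLPoly2

set_option autoImplicit false
set_option linter.unusedSectionVars false

namespace Fermat.Agent.FrobRel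

open Polynomial WeierstrassCurve WeierstrassCurve.Affine
open Fermat.Agent.ES.Q58.IotaDescent23 Fermat.Agent.ES.Q58.SubstEmb17
open Fermat.Agent.ES.Q58.PLForms2 Fermat.Agent.ES.Q58.PLPoly2 Fermat.Agent.ES.Q58.PLCurve2

variable {k : Type*} [Field k] (W : Affine k)

/-! ### heights of coprime pairs -/

/-- two coprime pairs with the same cross ratio have the same height. -/
theorem ht_eq_of_cross {U V U' V' : k[X]} (h : IsCoprime U V) (h' : IsCoprime U' V')
    (hc : U * V' = U' * V) : ht U V = ht U' V' := by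
  have h1 : U ∣ U' := by
    have : U ∣ U' * V := ⟨V', hc.symm⟩
    exact h.dvd_of_dvd_mul_right this
  have h2 : U' ∣ U := by
    have : U' ∣ U * V' := ⟨V, hc⟩
    exact h'.dvd_of_dvd_mul_right this
  have h3 : V ∣ V' := by
    have : V ∣ U * V' := ⟨U', by rw [hc]; ring⟩
    exact h.symm.dvd_of_dvd_mul_left this
  have h4 : V' ∣ V := by
    have : V' ∣ U' * V := ⟨U, by rw [← hc]; ring⟩
    exact h'.symm.dvd_of_dvd_mul_left this
  unfold ht
  rw [natDegree_eq_of_degree_eq (degree_eq_degree_of_associated (associated_of_dvd_dvd h1 h2)),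
    natDegree_eq_of_degree_eq (degree_eq_degree_of_associated (associated_of_dvd_dvd h3 h4))]

variable [DecidableEq W.FunctionField]

/-- `(U, V)` is a coprime projective representative of the `x`-coordinate of `P`. -/
def IsXRep (P : (W⁄W.FunctionField).Point) (U V : k[X]) : Prop :=
  IsCoprime U V ∧
    P.xRep 0 * algebraMap k[X] W.FunctionField V = P.xRep 1 * algebraMap k[X] W.FunctionField U

theorem isXRep_zero : IsXRep W 0 1 0 := by
  refine ⟨isCoprime_one_left, ?_⟩
  rw [Point.xRep_zero]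
  simp

theorem isXRep_some_iff {x y : W.FunctionField} (h : (W⁄W.FunctionField).Nonsingular x y)
    (U V : k[X]) :
    IsXRep W (Point.some x y h) U V ↔
      IsCoprime U V ∧ x * algebraMap k[X] W.FunctionField V = algebraMap k[X] W.FunctionField U := by
  unfold IsXRep
  rw [Point.xRep_some]
  simp

theorem exists_isXRep_of_mem_oddPoints (hΔ : W.Δ ≠ 0) {P : (W⁄W.FunctionField).Point}
    (hP : P ∈ oddPoints W) : ∃ U V : k[X], IsXRep W P U V := by
  rcases P with _ | ⟨x, y, h⟩
  · exact ⟨1, 0, isXRep_zero W⟩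
  · obtain ⟨U, V, hUV, -, hx⟩ := exists_coprime_x_of_mem_oddPoints W hΔ h hP
    exact ⟨U, V, (isXRep_some_iff W h U V).mpr ⟨hUV, hx⟩⟩


variable {W}

/-- the projective `x`-coordinate of `P` is a nonzero multiple of `(U, V)`. -/
theorem IsXRep.exists_scalar {P : (W⁄W.FunctionField).Point} {U V : k[X]} (h : IsXRep W P U V) :
    ∃ lam : W.FunctionField, lam ≠ 0 ∧ P.xRep 0 = lam * algebraMap k[X] W.FunctionField U ∧
      P.xRep 1 = lam * algebraMap k[X] W.FunctionField V := by
  have hinj := algebraMap_functionField_injective W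
  rcases P with _ | ⟨x, y, hxy⟩
  · obtain ⟨hUV, hx⟩ := h
    rw [← Point.zero_def, Point.xRep_zero] at hx ⊢
    simp only [Matrix.cons_val_zero, Matrix.cons_val_one, one_mul, zero_mul] at hx ⊢
    have hV : V = 0 := hinj (by rw [hx, map_zero])
    subst hV
    have hU : IsUnit U := isCoprime_zero_right.mp hUV
    have hU0 : algebraMap k[X] W.FunctionField U ≠ 0 := by
      rw [Ne, map_eq_zero_iff _ hinj]
      exact hU.ne_zero
    exact ⟨(algebraMap k[X] W.FunctionField U)⁻¹, inv_ne_zero hU0, by rw [inv_mul_cancel₀ hU0],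
      by simp⟩
  · obtain ⟨hUV, hx⟩ := (isXRep_some_iff W hxy U V).mp h
    rw [Point.xRep_some]
    simp only [Matrix.cons_val_zero, Matrix.cons_val_one]
    have hV : V ≠ 0 := by
      rintro rfl
      rw [map_zero, mul_zero] at hx
      have hU : U = 0 := hinj (by rw [← hx, map_zero])
      rw [hU] at hUV
      exact not_isCoprime_zero_zero hUV
    have hV0 : algebraMap k[X] W.FunctionField V ≠ 0 := by
      rw [Ne, map_eq_zero_iff _ hinj]
      exact hV
    refine ⟨(algebraMap k[X] W.FunctionField V)⁻¹, inv_ne_zero hV0, ?_, by rw [inv_mul_cancel₀ hV0]⟩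
    rw [← hx]
    field_simp

/-- two representatives of the same point have the same height. -/
theorem IsXRep.ht_unique {P : (W⁄W.FunctionField).Point} {U V U' V' : k[X]}
    (h : IsXRep W P U V) (h' : IsXRep W P U' V') : ht U V = ht U' V' := by
  refine ht_eq_of_cross h.1 h'.1 ?_
  obtain ⟨lam, hlam, h0, h1⟩ := h.exists_scalar
  obtain ⟨lam', hlam', h0', h1'⟩ := h'.exists_scalar
  apply algebraMap_functionField_injective W
  rw [map_mul, map_mul]
  have e0 : lam * algebraMap k[X] W.FunctionField U = lam' * algebraMap k[X] W.FunctionField U' := by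
    rw [← h0, ← h0']
  have e1 : lam * algebraMap k[X] W.FunctionField V = lam' * algebraMap k[X] W.FunctionField V' := by
    rw [← h1, ← h1']
  have : (lam * lam') * (algebraMap k[X] W.FunctionField U * algebraMap k[X] W.FunctionField V') =
      (lam * lam') * (algebraMap k[X] W.FunctionField U' * algebraMap k[X] W.FunctionField V) := by
    calc _ = (lam * algebraMap k[X] W.FunctionField U) * (lam' * algebraMap k[X] W.FunctionField V') := by
          ring
      _ = (lam' * algebraMap k[X] W.FunctionField U') * (lam * algebraMap k[X] W.FunctionField V) := by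
          rw [e0, e1]
      _ = _ := by ring
  exact mul_left_cancel₀ (mul_ne_zero hlam hlam') this

variable (W)

open Classical in
/-- **the height** of a point of `W(K)`: the height of a coprime representative of its
`x`-coordinate (`0` if there is none, i.e. if `x ∉ k(x)`). -/
noncomputable def hgt (P : (W⁄W.FunctionField).Point) : ℕ :=
  if h : ∃ U V : k[X], IsXRep W P U V then ht h.choose h.choose_spec.choose else 0

variable {W}

theorem IsXRep.hgt_eq {P : (W⁄W.FunctionField).Point} {U V : k[X]} (h : IsXRep W P U V) :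
    hgt W P = ht U V := by
  have hex : ∃ U V : k[X], IsXRep W P U V := ⟨U, V, h⟩
  unfold hgt
  rw [dif_pos hex]
  exact hex.choose_spec.choose_spec.ht_unique h

variable (W)

theorem hgt_zero : hgt W 0 = 0 := by
  rw [(isXRep_zero W).hgt_eq]
  simp [ht]


/-! ### the parallelogram law -/

omit [DecidableEq W.FunctionField] in
/-- the constant-coefficient curve over `k[X]` becomes `W⁄K` over `K`. -/
theorem map_Wt : (Wt W).map (algebraMap k[X] W.FunctionField) = (W⁄W.FunctionField) := by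
  unfold Wt
  rw [WeierstrassCurve.map_map]
  rfl

variable {W}

/-- **the exact parallelogram law** for representatives. -/
theorem ht_parallelogram (hΔ : W.Δ ≠ 0) {P Q : (W⁄W.FunctionField).Point}
    {U₁ V₁ U₂ V₂ U₃ V₃ U₄ V₄ : k[X]} (h₁ : IsXRep W P U₁ V₁) (h₂ : IsXRep W Q U₂ V₂)
    (h₃ : IsXRep W (P + Q) U₃ V₃) (h₄ : IsXRep W (P - Q) U₄ V₄) :
    ht U₃ V₃ + ht U₄ V₄ = 2 * ht U₁ V₁ + 2 * ht U₂ V₂ := by
  have hinj := algebraMap_functionField_injective W
  obtain ⟨l₁, hl₁, p0, p1⟩ := h₁.exists_scalar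
  obtain ⟨l₂, hl₂, q0, q1⟩ := h₂.exists_scalar
  obtain ⟨l₃, hl₃, s0, s1⟩ := h₃.exists_scalar
  obtain ⟨l₄, hl₄, d0, d1⟩ := h₄.exists_scalar
  obtain ⟨c, hc, e0, e1, e2⟩ := addsub_rel (W := (W⁄W.FunctionField)) P Q
  simp only [p0, p1, q0, q1, s0, s1, d0, d1] at e0 e1 e2
  -- the scalar
  set μ : W.FunctionField := c * l₃ * l₄ / (l₁ ^ 2 * l₂ ^ 2) with hμ
  have hden : l₁ ^ 2 * l₂ ^ 2 ≠ 0 := mul_ne_zero (pow_ne_zero _ hl₁) (pow_ne_zero _ hl₂)
  have E0 : algebraMap k[X] W.FunctionField (G0 U₁ V₁ U₂ V₂) =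
      μ * algebraMap k[X] W.FunctionField (V₃ * V₄) := by
    rw [map_G0, hμ, map_mul, div_mul_eq_mul_div, eq_div_iff hden]
    simp only [G0] at e0 ⊢
    linear_combination e0
  have E1 : algebraMap k[X] W.FunctionField (G1 (Wt W) U₁ V₁ U₂ V₂) =
      μ * algebraMap k[X] W.FunctionField (U₃ * V₄ + U₄ * V₃) := by
    rw [map_G1, map_Wt, hμ, map_add, map_mul, map_mul, div_mul_eq_mul_div, eq_div_iff hden]
    simp only [G1] at e1 ⊢
    linear_combination e1
  have E2 : algebraMap k[X] W.FunctionField (G2 (Wt W) U₁ V₁ U₂ V₂) =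
      μ * algebraMap k[X] W.FunctionField (U₃ * U₄) := by
    rw [map_G2, map_Wt, hμ, map_mul, div_mul_eq_mul_div, eq_div_iff hden]
    simp only [G2] at e2 ⊢
    linear_combination e2
  -- `μ` is a polynomial
  obtain ⟨a, b, d, hab⟩ := (prim3_sym h₃.1 h₄.1).exists_bezout
  set e : k[X] := a * G0 U₁ V₁ U₂ V₂ + b * G1 (Wt W) U₁ V₁ U₂ V₂ + d * G2 (Wt W) U₁ V₁ U₂ V₂
    with he
  have hμe : algebraMap k[X] W.FunctionField e = μ := by
    have := congrArg (algebraMap k[X] W.FunctionField) hab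
    simp only [map_add, map_mul, map_one] at this
    rw [he]
    simp only [map_add, map_mul] at E0 E1 E2 ⊢
    rw [E0, E1, E2]
    linear_combination μ * this
  have hμ0 : μ ≠ 0 := by
    rw [hμ]
    exact div_ne_zero (mul_ne_zero (mul_ne_zero hc hl₃) hl₄) hden
  have he0 : e ≠ 0 := by
    rintro h0
    rw [h0, map_zero] at hμe
    exact hμ0 hμe.symm
  refine parallelogram W hΔ h₁.1 h₂.1 h₃.1 h₄.1 (e := e) (e' := 1) he0 ?_ ?_ ?_
  · apply hinj
    rw [one_mul, map_mul, hμe, E0]
  · apply hinj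
    rw [one_mul, map_mul, hμe, E1]
  · apply hinj
    rw [one_mul, map_mul, hμe, E2]

/-- **the exact parallelogram law** for the height on odd points. -/
theorem hgt_parallelogram (hΔ : W.Δ ≠ 0) {P Q : (W⁄W.FunctionField).Point}
    (hP : P ∈ oddPoints W) (hQ : Q ∈ oddPoints W) :
    hgt W (P + Q) + hgt W (P - Q) = 2 * hgt W P + 2 * hgt W Q := by
  obtain ⟨U₁, V₁, h₁⟩ := exists_isXRep_of_mem_oddPoints W hΔ hP
  obtain ⟨U₂, V₂, h₂⟩ := exists_isXRep_of_mem_oddPoints W hΔ hQ
  obtain ⟨U₃, V₃, h₃⟩ := exists_isXRep_of_mem_oddPoints W hΔ (add_mem hP hQ)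
  obtain ⟨U₄, V₄, h₄⟩ := exists_isXRep_of_mem_oddPoints W hΔ (sub_mem hP hQ)
  rw [h₁.hgt_eq, h₂.hgt_eq, h₃.hgt_eq, h₄.hgt_eq]
  exact ht_parallelogram hΔ h₁ h₂ h₃ h₄

end Fermat.Agent.FrobRel
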