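/-
Frobenius relation on an elliptic curve over `𝔽_ℓ` (S58 brick (a)), part (a2) (helper2):
the height of `σ_R Q` is `hgt Q * hgt R` (substitution embeddings `σ_R` of the function field).
-/
import Fermat.Agent.FrobRel.Height
import Fermat.Agent.FrobRel.Degree

set_option autoImplicit false
set_option linter.unusedSectionVars false

namespace Fermat.Agent.FrobRel

open Polynomial WeierstrassCurve WeierstrassCurve.Affine
open Fermat.Agent.ES.Q58.IotaDescent23 Fermat.Agent.ES.Q58.SubstEmb17
open Fermat.Agent.ES.Q58.PLPoly2

variable {k : Type*} [Field k] {W : Affine k} [DecidableEq W.FunctionField]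

/-! ### points whose `x`-coordinate is a rational function of `x` -/

theorem ratHom_X : ratHom W RatFunc.X = xK W := by
  rw [← RatFunc.algebraMap_X, ratHom_algebraMap]
  rfl

/-- a point with `x`-coordinate `f(x)` has representative `(num f, denom f)`. -/
theorem isXRep_of_eq_ratHom {x y : W.FunctionField} (h : (W⁄W.FunctionField).Nonsingular x y)
    {f : RatFunc k} (hf : x = ratHom W f) : IsXRep W (Point.some x y h) f.num f.denom := by
  rw [isXRep_some_iff]
  refine ⟨RatFunc.isCoprime_num_denom f, ?_⟩
  have hd : algebraMap k[X] W.FunctionField f.denom ≠ 0 := by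
    rw [Ne, map_eq_zero_iff _ (algebraMap_functionField_injective W)]
    exact RatFunc.denom_ne_zero f
  rw [hf, ← ratHom_algebraMap, ← ratHom_algebraMap, ← map_mul]
  congr 1
  have hd' : algebraMap k[X] (RatFunc k) f.denom ≠ 0 := by
    rw [Ne, map_eq_zero_iff _ (IsFractionRing.injective k[X] (RatFunc k))]
    exact RatFunc.denom_ne_zero f
  have := RatFunc.num_div_denom f
  rw [div_eq_iff hd'] at this
  exact this.symm

theorem hgt_of_eq_ratHom {x y : W.FunctionField} (h : (W⁄W.FunctionField).Nonsingular x y)
    {f : RatFunc k} (hf : x = ratHom W f) : hgt W (Point.some x y h) = rdeg f :=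
  (isXRep_of_eq_ratHom h hf).hgt_eq

/-- conversely the `x`-coordinate of a point with a representative is a rational function of `x`. -/
theorem exists_eq_ratHom_of_isXRep {x y : W.FunctionField}
    {h : (W⁄W.FunctionField).Nonsingular x y} {U V : k[X]} (hR : IsXRep W (Point.some x y h) U V) :
    ∃ f : RatFunc k, x = ratHom W f := by
  obtain ⟨hUV, hx⟩ := (isXRep_some_iff W h U V).mp hR
  have hV : V ≠ 0 := by
    rintro rfl
    rw [map_zero, mul_zero] at hx
    have hU : U = 0 := algebraMap_functionField_injective W (by rw [← hx, map_zero])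
    rw [hU] at hUV
    exact not_isCoprime_zero_zero hUV
  have hVK : algebraMap k[X] W.FunctionField V ≠ 0 := by
    rw [Ne, map_eq_zero_iff _ (algebraMap_functionField_injective W)]; exact hV
  refine ⟨algebraMap k[X] (RatFunc k) U / algebraMap k[X] (RatFunc k) V, ?_⟩
  rw [map_div₀, ratHom_algebraMap, ratHom_algebraMap, eq_div_iff hVK, hx]

theorem exists_eq_ratHom_of_mem_oddPoints (hΔ : W.Δ ≠ 0) {x y : W.FunctionField}
    {h : (W⁄W.FunctionField).Nonsingular x y} (hR : Point.some x y h ∈ oddPoints W) :
    ∃ f : RatFunc k, x = ratHom W f := by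
  obtain ⟨U, V, hUV⟩ := exists_isXRep_of_mem_oddPoints W hΔ hR
  exact exists_eq_ratHom_of_isXRep hUV

/-- `f(x)` is transcendental iff `f` is. -/
theorem transcendental_ratHom_iff (f : RatFunc k) :
    Transcendental k (ratHom W f) ↔ Transcendental k f := by
  unfold Transcendental
  rw [isAlgebraic_algHom_iff (ratHom W) (ratHom W).injective]

/-- a point of positive height has transcendental `x`-coordinate. -/
theorem transcendental_of_hgt_pos {x y : W.FunctionField}
    {h : (W⁄W.FunctionField).Nonsingular x y} {f : RatFunc k} (hf : x = ratHom W f)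
    (hpos : 0 < hgt W (Point.some x y h)) : Transcendental k x := by
  have hR := isXRep_of_eq_ratHom h hf
  rw [hR.hgt_eq] at hpos
  obtain ⟨hUV, hx⟩ := (isXRep_some_iff W h _ _).mp hR
  exact transcendental_of_isCoprime W hUV hpos hx

/-! ### substitution and rational functions -/

/-- `σ_R (f(x)) = (f ∘ g)(x)` if `x_R = g(x)`. -/
theorem substHom_ratHom {u v : W.FunctionField} (h : (W⁄W.FunctionField).Equation u v)
    (hX : Transcendental k u) {g : RatFunc k} (hg : u = ratHom W g)
    (hg' : Transcendental k g) (f : RatFunc k) :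
    substHom W h hX (ratHom W f) = ratHom W (rsubst g hg' f) := by
  have key : ((substHom W h hX).comp (ratHom W) : RatFunc k →ₐ[k] W.FunctionField) =
      (ratHom W).comp (rsubst g hg') := by
    apply AlgHom.coe_ringHom_injective
    apply IsFractionRing.ringHom_ext (A := k[X])
    intro p
    show substHom W h hX (ratHom W (algebraMap k[X] (RatFunc k) p)) =
      ratHom W (rsubst g hg' (algebraMap k[X] (RatFunc k) p))
    rw [ratHom_algebraMap, substHom_algebraMap_polynomial, rsubst_algebraMap, hg]
    exact Polynomial.aeval_algHom_apply (ratHom W) g p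
  exact DFunLike.congr_fun key f

/-- `ι` commutes with `σ_R` for an odd point `R`. -/
theorem iota_substHom {u v : W.FunctionField} (h : (W⁄W.FunctionField).Nonsingular u v)
    (hX : Transcendental k u) (hR : Point.some u v h ∈ oddPoints W) (z : W.FunctionField) :
    substHom W h.1 hX (iota W z) = iota W (substHom W h.1 hX z) := by
  have key : (substHom W h.1 hX).comp ((iota W : W.FunctionField ≃ₐ[k] W.FunctionField) :
        W.FunctionField →ₐ[k] W.FunctionField) =
      ((iota W : W.FunctionField ≃ₐ[k] W.FunctionField) :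
        W.FunctionField →ₐ[k] W.FunctionField).comp (substHom W h.1 hX) := by
    apply Fermat.Agent.ES.Q58.SubstEmb17.algHom_ext
    · simp only [AlgHom.comp_apply, AlgEquiv.coe_toAlgHom]
      rw [iota_xK, substHom_xK, iota_x_of_mem_oddPoints W h hR]
    · simp only [AlgHom.comp_apply, AlgEquiv.coe_toAlgHom]
      rw [iota_yK, substHom_yK, iota_y_of_mem_oddPoints' W h hR]
      simp only [map_sub, map_neg, map_mul, AlgHom.commutes, substHom_xK, substHom_yK]
  exact DFunLike.congr_fun key z

theorem map_substHom_mem_oddPoints {u v : W.FunctionField}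
    (h : (W⁄W.FunctionField).Nonsingular u v) (hX : Transcendental k u)
    (hR : Point.some u v h ∈ oddPoints W) {Q : (W⁄W.FunctionField).Point}
    (hQ : Q ∈ oddPoints W) : Point.map (W' := W) (substHom W h.1 hX) Q ∈ oddPoints W :=
  map_mem_oddPoints W _ (iota_substHom h hX hR) hQ

/-- **multiplicativity of the height**: `hgt (σ_R Q) = hgt Q * hgt R`. -/
theorem hgt_map_substHom (hΔ : W.Δ ≠ 0) {u v : W.FunctionField}
    (h : (W⁄W.FunctionField).Nonsingular u v) (hX : Transcendental k u)
    (hR : Point.some u v h ∈ oddPoints W) {Q : (W⁄W.FunctionField).Point}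
    (hQ : Q ∈ oddPoints W) :
    hgt W (Point.map (W' := W) (substHom W h.1 hX) Q) = hgt W Q * hgt W (Point.some u v h) := by
  obtain ⟨g, hg⟩ := exists_eq_ratHom_of_mem_oddPoints hΔ hR
  have hg' : Transcendental k g := by
    rw [← transcendental_ratHom_iff (W := W), ← hg]; exact hX
  rcases Q with _ | ⟨x, y, hxy⟩
  · rw [← Point.zero_def, map_zero, hgt_zero, zero_mul]
  · obtain ⟨f, hf⟩ := exists_eq_ratHom_of_mem_oddPoints hΔ hQ
    rw [Point.map_some, hgt_of_eq_ratHom hxy hf, hgt_of_eq_ratHom h hg,
      hgt_of_eq_ratHom (f := rsubst g hg' f) _ (by rw [hf, substHom_ratHom h.1 hX hg hg']),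
      rdeg_rsubst]

end Fermat.Agent.FrobRel
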