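/-
Frobenius relation on an elliptic curve over `𝔽_ℓ` (S58 brick (a)), parts (a2)/(a4) (helper2):
the `q`-power Frobenius `frob` of the function field `K = k(W)` acting on the odd points of `W(K)`;
`hgt (φ R) = q * hgt R`, `hgt P₀ = 1`, the Hasse bound, and the quadratic relation
`hgt (φ² P₀ - a φ P₀ + q P₀) = 0`, `a = 1 + q - hgt (P₀ - φ P₀)`.
-/
import Fermat.Agent.FrobRel.Mult
import Fermat.Agent.ES.Q58.QuadRel18

set_option autoImplicit false
set_option linter.unusedSectionVars false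

namespace Fermat.Agent.FrobRel

open Polynomial WeierstrassCurve WeierstrassCurve.Affine
open Fermat.Agent.ES.Q58.IotaDescent23 Fermat.Agent.ES.Q58.SubstEmb17
open Fermat.Agent.ES.Q58.PLPoly2

variable {k : Type*} [Field k] {W : Affine k} [DecidableEq W.FunctionField]

/-! ### the generic point -/

theorem genericPoint_eq_some (hΔ : W.Δ ≠ 0) :
    genericPoint W hΔ = Point.some (xK W) (yK W) (nonsingular_xK_yK W hΔ) := rfl

theorem hgt_genericPoint (hΔ : W.Δ ≠ 0) : hgt W (genericPoint W hΔ) = 1 := by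
  rw [genericPoint_eq_some, hgt_of_eq_ratHom _ (f := RatFunc.X) ratHom_X.symm, rdeg_X]

/-! ### Frobenius -/

section Frob

variable (frob : W.FunctionField →ₐ[k] W.FunctionField) {q : ℕ} (hfrob : ∀ z, frob z = z ^ q)

include hfrob

theorem frob_iota (z : W.FunctionField) : frob (iota W z) = iota W (frob z) := by
  rw [hfrob, hfrob, map_pow]

theorem map_frob_mem_oddPoints {R : (W⁄W.FunctionField).Point} (hR : R ∈ oddPoints W) :
    Point.map (W' := W) frob R ∈ oddPoints W :=
  map_mem_oddPoints W frob (frob_iota frob hfrob) hR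

theorem frob_substHom {u v : W.FunctionField} (h : (W⁄W.FunctionField).Equation u v)
    (hX : Transcendental k u) (z : W.FunctionField) :
    substHom W h hX (frob z) = frob (substHom W h hX z) := by
  rw [hfrob, hfrob, map_pow]

/-- `σ_R` commutes with Frobenius on points. -/
theorem map_substHom_map_frob {u v : W.FunctionField} (h : (W⁄W.FunctionField).Equation u v)
    (hX : Transcendental k u) (Q : (W⁄W.FunctionField).Point) :
    Point.map (W' := W) (substHom W h hX) (Point.map (W' := W) frob Q) =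
      Point.map (W' := W) frob (Point.map (W' := W) (substHom W h hX) Q) := by
  have key : (substHom W h hX).comp frob = frob.comp (substHom W h hX) := by
    refine AlgHom.ext fun z => ?_
    simp only [AlgHom.comp_apply]
    exact frob_substHom frob hfrob h hX z
  rw [Point.map_map, Point.map_map, key]

theorem isXRep_map_frob (hq : q ≠ 0) {Q : (W⁄W.FunctionField).Point} {U V : k[X]}
    (hQ : IsXRep W Q U V) : IsXRep W (Point.map (W' := W) frob Q) (U ^ q) (V ^ q) := by
  have hq' : 0 < q := Nat.pos_of_ne_zero hq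
  rcases Q with _ | ⟨x, y, h⟩
  · obtain ⟨hUV, hx⟩ := hQ
    rw [← Point.zero_def, Point.xRep_zero] at hx
    simp only [Matrix.cons_val_zero, Matrix.cons_val_one, one_mul, zero_mul] at hx
    have hV : V = 0 := algebraMap_functionField_injective W (by rw [hx, map_zero])
    subst hV
    refine ⟨hUV.pow, ?_⟩
    rw [← Point.zero_def, map_zero, Point.xRep_zero, zero_pow hq]
    simp
  · obtain ⟨hUV, hx⟩ := (isXRep_some_iff W h U V).mp hQ
    rw [Point.map_some, isXRep_some_iff]
    refine ⟨hUV.pow, ?_⟩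
    rw [hfrob, map_pow, map_pow, ← mul_pow, hx]

theorem hgt_map_frob (hΔ : W.Δ ≠ 0) (hq : q ≠ 0) {Q : (W⁄W.FunctionField).Point}
    (hQ : Q ∈ oddPoints W) : hgt W (Point.map (W' := W) frob Q) = q * hgt W Q := by
  obtain ⟨U, V, hUV⟩ := exists_isXRep_of_mem_oddPoints W hΔ hQ
  rw [(isXRep_map_frob frob hfrob hq hUV).hgt_eq, hUV.hgt_eq]
  simp only [ht, natDegree_pow]
  rw [Nat.mul_max_mul_left]

end Frob


/-! ### abstract Hasse bound -/

section Abstract

open Fermat.Agent.ES.Q58.QuadRel18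

variable {M : Type*} [AddCommGroup M] {d : M → ℤ}

/-- **the Hasse bound**, abstractly: a non-negative function with the exact parallelogram law and
`d e0 = 1`, `d e1 = q ≥ 2` is positive at `e0 ± e1`. -/
theorem hasse_pos (hPL : ∀ x y : M, d (x + y) + d (x - y) = 2 * d x + 2 * d y)
    (hnn : ∀ x, 0 ≤ d x) (e0 e1 : M) (q : ℤ) (h0 : d e0 = 1) (h1 : d e1 = q) (hq : 2 ≤ q) :
    0 < d (e0 + e1) ∧ 0 < d (e0 - e1) := by
  set t : ℤ := polar d e0 e1 with ht
  have hp : d (e0 + e1) = 1 + q + t := by rw [d_add (d := d), h0, h1]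
  have hm : d (e0 - e1) = 1 + q - t := by rw [d_sub' hPL, h0, h1]
  have key : d ((-t) • e0 + (2 : ℤ) • e1) = 4 * q - t ^ 2 := by
    rw [d_add (d := d), d_zsmul hPL, d_zsmul hPL, polar_zsmul_left hPL, polar_zsmul_right hPL,
      h0, h1, ← ht]
    ring
  have h4 : 0 ≤ 4 * q - t ^ 2 := by rw [← key]; exact hnn _
  rw [hp, hm]
  constructor <;> nlinarith

end Abstract

/-! ### the quadratic relation for the generic point -/

section Quad

open Fermat.Agent.ES.Q58.QuadRel18

variable (frob : W.FunctionField →ₐ[k] W.FunctionField) {q : ℕ} (hfrob : ∀ z, frob z = z ^ q)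

/-- the height as an integer-valued function on the group of odd points. -/
noncomputable def dOdd (R : oddPoints W) : ℤ := (hgt W (R : (W⁄W.FunctionField).Point) : ℤ)

theorem dOdd_nonneg (R : oddPoints W) : 0 ≤ dOdd R := Int.natCast_nonneg _

theorem dOdd_PL (hΔ : W.Δ ≠ 0) (x y : oddPoints W) :
    dOdd (x + y) + dOdd (x - y) = 2 * dOdd x + 2 * dOdd y := by
  unfold dOdd
  rw [AddSubgroup.coe_add, AddSubgroup.coe_sub]
  exact_mod_cast hgt_parallelogram hΔ x.2 y.2

/-- Frobenius on the odd points. -/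
noncomputable def phiOdd : oddPoints W →+ oddPoints W :=
  ((Point.map (W' := W) frob).comp (oddPoints W).subtype).codRestrict (oddPoints W)
    (fun R => map_frob_mem_oddPoints frob hfrob R.2)

theorem coe_phiOdd (R : oddPoints W) :
    ((phiOdd frob hfrob R : oddPoints W) : (W⁄W.FunctionField).Point) =
      Point.map (W' := W) frob (R : (W⁄W.FunctionField).Point) := rfl

theorem dOdd_phiOdd (hΔ : W.Δ ≠ 0) (hq : q ≠ 0) (R : oddPoints W) :
    dOdd (phiOdd frob hfrob R) = q * dOdd R := by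
  unfold dOdd
  rw [coe_phiOdd, hgt_map_frob frob hfrob hΔ hq R.2]
  push_cast
  ring

/-- the generic point as an odd point. -/
noncomputable def genOdd (hΔ : W.Δ ≠ 0) : oddPoints W :=
  ⟨genericPoint W hΔ, genericPoint_mem_oddPoints W hΔ⟩

theorem dOdd_genOdd (hΔ : W.Δ ≠ 0) : dOdd (genOdd hΔ) = 1 := by
  unfold dOdd genOdd
  rw [hgt_genericPoint]
  rfl

/-- an odd point of positive height is affine with transcendental `x`-coordinate. -/
theorem exists_some_of_dOdd_pos (hΔ : W.Δ ≠ 0) (R : oddPoints W) (hR : 0 < dOdd R) :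
    ∃ (u v : W.FunctionField) (h : (W⁄W.FunctionField).Nonsingular u v),
      (R : (W⁄W.FunctionField).Point) = Point.some u v h ∧ Transcendental k u := by
  obtain ⟨R, hRodd⟩ := R
  unfold dOdd at hR
  simp only at hR
  rcases R with _ | ⟨u, v, h⟩
  · rw [← Point.zero_def, hgt_zero] at hR
    simp at hR
  · obtain ⟨f, hf⟩ := exists_eq_ratHom_of_mem_oddPoints hΔ hRodd
    exact ⟨u, v, h, rfl, transcendental_of_hgt_pos hf (by exact_mod_cast hR)⟩

/-- **multiplicativity along `(1 - φ)(1 + φ) = 1 - φ²`.** -/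
theorem dOdd_one_sub_phi_sq (hΔ : W.Δ ≠ 0) (hq : 2 ≤ q) :
    dOdd (genOdd hΔ - phiOdd frob hfrob (phiOdd frob hfrob (genOdd hΔ))) =
      dOdd (genOdd hΔ - phiOdd frob hfrob (genOdd hΔ)) *
        dOdd (genOdd hΔ + phiOdd frob hfrob (genOdd hΔ)) := by
  have hq0 : q ≠ 0 := by omega
  have hpos := (hasse_pos (dOdd_PL hΔ) dOdd_nonneg (genOdd hΔ) (phiOdd frob hfrob (genOdd hΔ)) q
    (dOdd_genOdd hΔ) (by rw [dOdd_phiOdd frob hfrob hΔ hq0, dOdd_genOdd, mul_one])
    (by exact_mod_cast hq)).1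
  obtain ⟨u, v, h, hR, hX⟩ := exists_some_of_dOdd_pos hΔ _ hpos
  have hRodd : Point.some u v h ∈ oddPoints W := by
    rw [← hR]; exact (genOdd hΔ + phiOdd frob hfrob (genOdd hΔ)).2
  have hgen : Point.map (W' := W) (substHom W h.1 hX) (genericPoint W hΔ) = Point.some u v h :=
    map_substHom_genericPoint W hΔ h hX
  -- `σ_R (P₀ - φ P₀) = P₀ - φ² P₀`
  have key : Point.map (W' := W) (substHom W h.1 hX)
      ((genOdd hΔ - phiOdd frob hfrob (genOdd hΔ) : oddPoints W) : (W⁄W.FunctionField).Point) =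
      ((genOdd hΔ - phiOdd frob hfrob (phiOdd frob hfrob (genOdd hΔ)) : oddPoints W) :
        (W⁄W.FunctionField).Point) := by
    rw [AddSubgroup.coe_sub, AddSubgroup.coe_sub, coe_phiOdd, coe_phiOdd, coe_phiOdd, map_sub,
      map_substHom_map_frob frob hfrob]
    have e0 : ((genOdd hΔ : oddPoints W) : (W⁄W.FunctionField).Point) = genericPoint W hΔ := rfl
    rw [e0, hgen, ← hR, AddSubgroup.coe_add, coe_phiOdd, e0, map_add]
    abel
  unfold dOdd
  rw [← key, hgt_map_substHom hΔ h hX hRodd (genOdd hΔ - phiOdd frob hfrob (genOdd hΔ)).2, ← hR]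
  push_cast
  ring

/-- the trace of Frobenius, defined through the height of `(1 - φ) P₀`. -/
noncomputable def traceHgt (hΔ : W.Δ ≠ 0) : ℤ :=
  1 + q - dOdd (genOdd hΔ - phiOdd frob hfrob (genOdd hΔ))

/-- **the quadratic relation**: `(φ² - a φ + q) P₀` has height `0`. -/
theorem dOdd_relation (hΔ : W.Δ ≠ 0) (hq : 2 ≤ q) :
    dOdd (phiOdd frob hfrob (phiOdd frob hfrob (genOdd hΔ)) -
      traceHgt frob hfrob hΔ • phiOdd frob hfrob (genOdd hΔ) + (q : ℤ) • genOdd hΔ) = 0 := by
  have hq0 : q ≠ 0 := by omega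
  have h0 := dOdd_genOdd (W := W) hΔ
  have h1 : dOdd (phiOdd frob hfrob (genOdd hΔ)) = q := by
    rw [dOdd_phiOdd frob hfrob hΔ hq0, h0, mul_one]
  have h2 : dOdd (phiOdd frob hfrob (phiOdd frob hfrob (genOdd hΔ))) = (q : ℤ) ^ 2 := by
    rw [dOdd_phiOdd frob hfrob hΔ hq0, h1]; ring
  have h12 : dOdd (phiOdd frob hfrob (genOdd hΔ) + phiOdd frob hfrob (phiOdd frob hfrob (genOdd hΔ)))
      = q * dOdd (genOdd hΔ + phiOdd frob hfrob (genOdd hΔ)) := by
    rw [← map_add, dOdd_phiOdd frob hfrob hΔ hq0]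
  exact quad_rel (dOdd_PL hΔ) (genOdd hΔ) (phiOdd frob hfrob (genOdd hΔ))
    (phiOdd frob hfrob (phiOdd frob hfrob (genOdd hΔ))) q h0 h1 h2 h12
    (dOdd_one_sub_phi_sq frob hfrob hΔ hq)

end Quad

end Fermat.Agent.FrobRel
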