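/-
Frobenius relation on an elliptic curve over `𝔽_ℓ` (S58 brick (a)), part (a4) (helper2):
an odd point of height `0` which is multiplied by `n` under `σ_{nP₀}` (`n = 2, 3`) vanishes; hence
the relation `φ² P₀ - a φ P₀ + q P₀ = 0` for the generic point.
-/
import Fermat.Agent.FrobRel.Frob

set_option autoImplicit false
set_option linter.unusedSectionVars false

namespace Fermat.Agent.FrobRel

open Polynomial WeierstrassCurve WeierstrassCurve.Affine
open Fermat.Agent.ES.Q58.IotaDescent23 Fermat.Agent.ES.Q58.SubstEmb17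
open Fermat.Agent.ES.Q58.PLPoly2

variable {k : Type*} [Field k] {W : Affine k} [DecidableEq W.FunctionField]

/-- the `x`-coordinate of a point of height `0` is a constant. -/
theorem exists_const_of_hgt_eq_zero {x y : W.FunctionField}
    {h : (W⁄W.FunctionField).Nonsingular x y} {U V : k[X]}
    (hR : IsXRep W (Point.some x y h) U V) (h0 : hgt W (Point.some x y h) = 0) :
    ∃ c : k, x = algebraMap k W.FunctionField c := by
  rw [hR.hgt_eq] at h0
  obtain ⟨hUV, hx⟩ := (isXRep_some_iff W h U V).mp hR
  have hU : U.natDegree = 0 := by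
    have := natDegree_le_ht_left U V; omega
  have hV : V.natDegree = 0 := by
    have := natDegree_le_ht_right U V; omega
  rw [eq_C_of_natDegree_eq_zero hU, eq_C_of_natDegree_eq_zero hV] at hx hUV
  have hb : V.coeff 0 ≠ 0 := by
    intro hb
    rw [hb, map_zero, map_zero, mul_zero] at hx
    have : (C (U.coeff 0) : k[X]) = 0 :=
      algebraMap_functionField_injective W (by rw [← hx, map_zero])
    rw [this, hb, map_zero] at hUV
    exact not_isCoprime_zero_zero hUV
  refine ⟨U.coeff 0 / V.coeff 0, ?_⟩
  rw [← algebraMap_eq_coordinateRing, ← algebraMap_eq_coordinateRing] at hx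
  have hb' : algebraMap k W.FunctionField (V.coeff 0) ≠ 0 := by
    rw [Ne, map_eq_zero]; exact hb
  rw [map_div₀, eq_div_iff hb', hx]

/-- an odd point `T` of height `0` with `σ T = n • T`, for `k`-embeddings `σ` (`n = 2, 3`),
vanishes. -/
theorem eq_zero_of_hgt_eq_zero (hΔ : W.Δ ≠ 0) {T : (W⁄W.FunctionField).Point}
    (hT : T ∈ oddPoints W) (h0 : hgt W T = 0)
    (σ₂ σ₃ : W.FunctionField →ₐ[k] W.FunctionField)
    (h₂ : Point.map (W' := W) σ₂ T = (2 : ℤ) • T) (h₃ : Point.map (W' := W) σ₃ T = (3 : ℤ) • T) :
    T = 0 := by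
  rcases T with _ | ⟨x, y, h⟩
  · rfl
  · obtain ⟨U, V, hUV⟩ := exists_isXRep_of_mem_oddPoints W hΔ hT
    obtain ⟨c, hc⟩ := exists_const_of_hgt_eq_zero hUV h0
    have key : ∀ (σ : W.FunctionField →ₐ[k] W.FunctionField) (n : ℤ),
        Point.map (W' := W) σ (Point.some x y h) = n • Point.some x y h →
        n • Point.some x y h = Point.some x y h ∨ n • Point.some x y h = -Point.some x y h := by
      intro σ n hσ
      rw [← hσ, Point.map_some]
      have hx : σ x = x := by rw [hc, AlgHom.commutes]
      rcases Y_eq_of_X_eq ((W.baseChange_nonsingular σ.injective ..).mpr h).1 h.1 hx with hy | hy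
      · left
        simp only [Point.some.injEq]
        exact ⟨hx, hy⟩
      · right
        rw [Point.neg_some]
        simp only [Point.some.injEq]
        exact ⟨hx, hy⟩
    have k2 := key σ₂ 2 h₂
    have k3 := key σ₃ 3 h₃
    set T := Point.some x y h
    have h3T : (3 : ℤ) • T = 0 ∨ T = 0 := by
      rcases k2 with e | e
      · right
        have : (2 : ℤ) • T - T = 0 := by rw [e, sub_self]
        rw [two_zsmul, add_sub_cancel_right] at this
        exact this
      · left
        have : (2 : ℤ) • T + T = 0 := by rw [e, neg_add_cancel]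
        rw [← this]
        module
    rcases h3T with e3 | e
    · rw [e3] at k3
      rcases k3 with e | e
      · exact e.symm
      · exact neg_eq_zero.mp e.symm
    · exact e

section Frob

variable (frob : W.FunctionField →ₐ[k] W.FunctionField) {q : ℕ} (hfrob : ∀ z, frob z = z ^ q)

/-- the operator `φ² - a φ + q` on points. -/
noncomputable def psiHom (a : ℤ) (q : ℕ) : (W⁄W.FunctionField).Point →+ (W⁄W.FunctionField).Point :=
  (Point.map (W' := W) frob).comp (Point.map (W' := W) frob) - a • Point.map (W' := W) frob +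
    (q : ℤ) • AddMonoidHom.id _

theorem psiHom_apply (a : ℤ) (q : ℕ) (Q : (W⁄W.FunctionField).Point) :
    psiHom frob a q Q = Point.map (W' := W) frob (Point.map (W' := W) frob Q) -
      a • Point.map (W' := W) frob Q + (q : ℤ) • Q := rfl

include hfrob in
theorem map_substHom_psiHom {u v : W.FunctionField} (h : (W⁄W.FunctionField).Equation u v)
    (hX : Transcendental k u) (a : ℤ) (Q : (W⁄W.FunctionField).Point) :
    Point.map (W' := W) (substHom W h hX) (psiHom frob a q Q) =
      psiHom frob a q (Point.map (W' := W) (substHom W h hX) Q) := by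
  rw [psiHom_apply, psiHom_apply, map_add, map_sub, map_zsmul, map_zsmul,
    map_substHom_map_frob frob hfrob, map_substHom_map_frob frob hfrob]

/-- **the Frobenius relation for the generic point.** -/
theorem generic_relation (hΔ : W.Δ ≠ 0) (hq : 2 ≤ q) :
    psiHom frob (traceHgt frob hfrob hΔ) q (genericPoint W hΔ) = 0 := by
  open Fermat.Agent.ES.Q58.QuadRel18 in
  set a := traceHgt frob hfrob hΔ with ha
  -- the point is odd of height `0`
  have hcoe : ((phiOdd frob hfrob (phiOdd frob hfrob (genOdd hΔ)) -
      a • phiOdd frob hfrob (genOdd hΔ) + (q : ℤ) • genOdd hΔ : oddPoints W) :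
        (W⁄W.FunctionField).Point) = psiHom frob a q (genericPoint W hΔ) := by
    rw [psiHom_apply]
    rfl
  have hodd : psiHom frob a q (genericPoint W hΔ) ∈ oddPoints W := by
    rw [← hcoe]; exact SetLike.coe_mem _
  have h0 : hgt W (psiHom frob a q (genericPoint W hΔ)) = 0 := by
    have := dOdd_relation frob hfrob hΔ hq
    unfold dOdd at this
    rw [← ha, hcoe] at this
    exact_mod_cast this
  -- the embeddings `σ_{nP₀}`
  have hn : ∀ n : ℤ, n ≠ 0 → ∃ σ : W.FunctionField →ₐ[k] W.FunctionField,
      Point.map (W' := W) σ (psiHom frob a q (genericPoint W hΔ)) =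
        n • psiHom frob a q (genericPoint W hΔ) := by
    intro n hn
    have hpos : 0 < dOdd (n • genOdd hΔ) := by
      rw [d_zsmul (dOdd_PL hΔ), dOdd_genOdd, mul_one]
      positivity
    obtain ⟨u, v, h, hR, hX⟩ := exists_some_of_dOdd_pos hΔ _ hpos
    refine ⟨substHom W h.1 hX, ?_⟩
    rw [map_substHom_psiHom frob hfrob, map_substHom_genericPoint W hΔ h hX, ← hR,
      AddSubgroup.coe_zsmul, map_zsmul]
    rfl
  obtain ⟨σ₂, h₂⟩ := hn 2 (by norm_num)
  obtain ⟨σ₃, h₃⟩ := hn 3 (by norm_num)
  exact eq_zero_of_hgt_eq_zero hΔ hodd h0 σ₂ σ₃ h₂ h₃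

end Frob

end Fermat.Agent.FrobRel
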