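/-
Frobenius relation on an elliptic curve over `𝔽_ℓ` (S58 brick (a)), part (a4) (helper2):
specialisation of the generic relation `φ² P₀ - a φ P₀ + ℓ P₀ = 0` to all points of `W(L)`, `L` any
field over `𝔽_ℓ`: substitution `P₀ ↦ Q` when `x(Q)` is transcendental, and `P₀ ↦ P₀ + Q` (inside an
algebraic closure of the function field) when it is algebraic.
-/
import Fermat.Agent.FrobRel.Generic

set_option autoImplicit false
set_option linter.unusedSectionVars false

namespace Fermat.Agent.FrobRel

open Polynomial WeierstrassCurve WeierstrassCurve.Affine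
open Fermat.Agent.ES.Q58.IotaDescent23 Fermat.Agent.ES.Q58.SubstEmb17

/-! ### the Frobenius of a field over `𝔽_ℓ` -/

section FrobL

variable (ℓ : ℕ) [Fact ℓ.Prime] (L : Type*) [Field L] [Algebra (ZMod ℓ) L]

theorem charP_of_zmod_algebra : CharP L ℓ :=
  charP_of_injective_algebraMap (FaithfulSMul.algebraMap_injective (ZMod ℓ) L) ℓ

/-- the `ℓ`-power Frobenius of a field over `𝔽_ℓ`, as an `𝔽_ℓ`-algebra homomorphism. -/
noncomputable def frobL : L →ₐ[ZMod ℓ] L :=
  haveI : CharP L ℓ := charP_of_zmod_algebra ℓ L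
  { frobenius L ℓ with
    commutes' := fun a => by
      show (algebraMap (ZMod ℓ) L a) ^ ℓ = _
      rw [← map_pow, ZMod.pow_card] }

theorem frobL_apply (z : L) : frobL ℓ L z = z ^ ℓ := rfl

variable {ℓ L}

theorem eq_frobL {F : L →ₐ[ZMod ℓ] L} (hF : ∀ x, F x = x ^ ℓ) : F = frobL ℓ L :=
  AlgHom.ext fun x => by rw [hF, frobL_apply]

theorem frobL_comm {L' : Type*} [Field L'] [Algebra (ZMod ℓ) L'] (f : L →ₐ[ZMod ℓ] L') :
    f.comp (frobL ℓ L) = (frobL ℓ L').comp f :=
  AlgHom.ext fun x => by
    simp only [AlgHom.comp_apply, frobL_apply, map_pow]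

end FrobL

/-! ### the operator `φ² - a φ + ℓ` -/

section PsiL

variable {ℓ : ℕ} [Fact ℓ.Prime] (W : Affine (ZMod ℓ))

/-- the operator `φ² - a φ + ℓ` on `W(L)`. -/
noncomputable def psiL (a : ℤ) (L : Type*) [Field L] [Algebra (ZMod ℓ) L] [DecidableEq L] :
    (W⁄L).Point →+ (W⁄L).Point :=
  (Point.map (W' := W) (frobL ℓ L)).comp (Point.map (W' := W) (frobL ℓ L)) -
    a • Point.map (W' := W) (frobL ℓ L) + (ℓ : ℤ) • AddMonoidHom.id _

theorem psiL_apply (a : ℤ) {L : Type*} [Field L] [Algebra (ZMod ℓ) L] [DecidableEq L]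
    (Q : (W⁄L).Point) :
    psiL W a L Q = Point.map (W' := W) (frobL ℓ L) (Point.map (W' := W) (frobL ℓ L) Q) -
      a • Point.map (W' := W) (frobL ℓ L) Q + (ℓ : ℤ) • Q := rfl

/-- `psiL` commutes with every `𝔽_ℓ`-embedding. -/
theorem map_psiL (a : ℤ) {L L' : Type*} [Field L] [Algebra (ZMod ℓ) L] [DecidableEq L]
    [Field L'] [Algebra (ZMod ℓ) L'] [DecidableEq L'] (f : L →ₐ[ZMod ℓ] L') (Q : (W⁄L).Point) :
    Point.map (W' := W) f (psiL W a L Q) = psiL W a L' (Point.map (W' := W) f Q) := by
  have key : ∀ R : (W⁄L).Point, Point.map (W' := W) f (Point.map (W' := W) (frobL ℓ L) R) =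
      Point.map (W' := W) (frobL ℓ L') (Point.map (W' := W) f R) := by
    intro R
    rw [Point.map_map, Point.map_map, frobL_comm]
  rw [psiL_apply, psiL_apply, map_add, map_sub, map_zsmul, map_zsmul, key, key]

end PsiL

/-! ### specialisation -/

section Special

variable {ℓ : ℕ} [Fact ℓ.Prime] {W : Affine (ZMod ℓ)} [DecidableEq W.FunctionField]

theorem psiHom_eq_psiL (a : ℤ) (Q : (W⁄W.FunctionField).Point) :
    psiHom (frobL ℓ W.FunctionField) a ℓ Q = psiL W a W.FunctionField Q := rfl

/-- the trace of Frobenius of `W`, through the height of `(1 - φ) P₀`. -/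
noncomputable def traceW (hΔ : W.Δ ≠ 0) : ℤ :=
  traceHgt (frobL ℓ W.FunctionField) (frobL_apply ℓ W.FunctionField) hΔ

/-- the relation at the generic point. -/
theorem psiL_genericPoint (hΔ : W.Δ ≠ 0) :
    psiL W (traceW hΔ) W.FunctionField (genericPoint W hΔ) = 0 := by
  rw [← psiHom_eq_psiL]
  exact generic_relation (frobL ℓ W.FunctionField) (frobL_apply ℓ W.FunctionField) hΔ
    (Fact.out : ℓ.Prime).two_le

variable {L : Type*} [Field L] [Algebra (ZMod ℓ) L] [DecidableEq L]

/-- the relation at a point with transcendental `x`-coordinate. -/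
theorem psiL_of_transcendental (hΔ : W.Δ ≠ 0) {u v : L} (h : (W⁄L).Nonsingular u v)
    (hX : Transcendental (ZMod ℓ) u) : psiL W (traceW hΔ) L (Point.some u v h) = 0 := by
  rw [← map_substHom_genericPoint W hΔ h hX, ← map_psiL, psiL_genericPoint, map_zero]

/-- the image of the generic point in an extension of the function field is not an algebraic
point. -/
theorem map_genericPoint_not_mem_algPoints (hΔ : W.Δ ≠ 0) (ι : W.FunctionField →ₐ[ZMod ℓ] L) :
    Point.map (W' := W) ι (genericPoint W hΔ) ∉ algPoints W L := by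
  rw [genericPoint_eq_some, Point.map_some, some_mem_algPoints_iff]
  intro halg
  exact transcendental_xK W ((isAlgebraic_algHom_iff ι ι.injective).mp halg)

/-- the relation at the algebraic points of an extension of the function field. -/
theorem psiL_of_mem_algPoints (hΔ : W.Δ ≠ 0) (ι : W.FunctionField →ₐ[ZMod ℓ] L)
    {T : (W⁄L).Point} (hT : T ∈ algPoints W L) : psiL W (traceW hΔ) L T = 0 := by
  have hgen : psiL W (traceW hΔ) L (Point.map (W' := W) ι (genericPoint W hΔ)) = 0 := by
    rw [← map_psiL, psiL_genericPoint, map_zero]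
  have hS : Point.map (W' := W) ι (genericPoint W hΔ) + T ∉ algPoints W L := by
    intro hmem
    apply map_genericPoint_not_mem_algPoints hΔ ι
    have := sub_mem hmem hT
    rwa [add_sub_cancel_right] at this
  have hST : psiL W (traceW hΔ) L (Point.map (W' := W) ι (genericPoint W hΔ) + T) = 0 := by
    generalize Point.map (W' := W) ι (genericPoint W hΔ) + T = S at hS
    rcases S with _ | ⟨u, v, h⟩
    · exact absurd (zero_mem _) hS
    · rw [some_mem_algPoints_iff] at hS
      exact psiL_of_transcendental hΔ h hS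
  rw [map_add, hgen, zero_add] at hST
  exact hST

end Special

end Fermat.Agent.FrobRel
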