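/-
Frobenius relation on an elliptic curve over `𝔽_ℓ` (S58 brick (a)) (helper2): final statements.

* `psiL_eq_zero` : for `W` over `ZMod ℓ` with `Δ ≠ 0`, every field `L` over `ZMod ℓ` and every
  `Q ∈ W(L)`: `φ² Q - a φ Q + ℓ Q = 0` with `a = traceW hΔ = 1 + ℓ - hgt ((1 - φ) P₀)`.
* `frobenius_relation_of_manin` : the same with `a = ℓ + 1 - #W(𝔽_ℓ)`, given Manin's lemma
  `hgt ((1 - φ) P₀) = #W(𝔽_ℓ)` (`ManinStatement`).
-/
import Fermat.Agent.FrobRel.Special

set_option autoImplicit false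
set_option linter.unusedSectionVars false

namespace Fermat.Agent.FrobRel

open Polynomial WeierstrassCurve WeierstrassCurve.Affine
open Fermat.Agent.ES.Q58.IotaDescent23 Fermat.Agent.ES.Q58.SubstEmb17

variable {ℓ : ℕ} [Fact ℓ.Prime] {W : Affine (ZMod ℓ)}

section

variable [DecidableEq W.FunctionField]

/-- **the Frobenius relation** on `W(L)`, with the trace defined through the height. -/
theorem psiL_eq_zero (hΔ : W.Δ ≠ 0) {L : Type*} [Field L] [Algebra (ZMod ℓ) L] [DecidableEq L]
    (Q : (W⁄L).Point) : psiL W (traceW hΔ) L Q = 0 := by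
  classical
  rcases Q with _ | ⟨u, v, h⟩
  · exact map_zero _
  · by_cases hu : IsAlgebraic (ZMod ℓ) u
    · -- the point comes from the algebraic closure `F` of `𝔽_ℓ` in `L`
      obtain ⟨Q', hQ'⟩ : Point.some u v h ∈ algPoints W L := (some_mem_algPoints_iff W h).mpr hu
      rw [← hQ', ← map_psiL]
      -- embed `F` into an algebraic closure of the function field
      let j : ↥(algebraicClosure (ZMod ℓ) L) →ₐ[ZMod ℓ] AlgebraicClosure W.FunctionField :=
        IsAlgClosed.lift
      have h1 : psiL W (traceW hΔ) (AlgebraicClosure W.FunctionField)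
          (Point.map (W' := W) j Q') = 0 :=
        psiL_of_mem_algPoints hΔ
          (IsScalarTower.toAlgHom (ZMod ℓ) W.FunctionField (AlgebraicClosure W.FunctionField))
          (map_mem_algPoints W j Q')
      rw [← map_psiL] at h1
      have h2 : psiL W (traceW hΔ) ↥(algebraicClosure (ZMod ℓ) L) Q' = 0 :=
        Point.map_injective (W' := W) j (by rw [h1, map_zero])
      rw [h2, map_zero]
    · exact psiL_of_transcendental hΔ h hu

/-- **Manin's lemma** (brick (a3)): the height of `(1 - φ) P₀` is the number of points of `W`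
over `𝔽_ℓ`. -/
def ManinStatement (hΔ : W.Δ ≠ 0) : Prop :=
  hgt W (genericPoint W hΔ -
    Point.map (W' := W) (frobL ℓ W.FunctionField) (genericPoint W hΔ)) = Nat.card W.Point

theorem traceW_eq_of_manin (hΔ : W.Δ ≠ 0) (hM : ManinStatement hΔ) :
    traceW hΔ = (ℓ : ℤ) + 1 - (Nat.card W.Point : ℤ) := by
  unfold traceW traceHgt dOdd
  rw [AddSubgroup.coe_sub, coe_phiOdd]
  have e0 : ((genOdd hΔ : oddPoints W) : (W⁄W.FunctionField).Point) = genericPoint W hΔ := rfl
  rw [e0, hM]
  ring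

end

/-- **the Frobenius relation** `φ² - a φ + ℓ = 0` on `W(L)`, `a = ℓ + 1 - #W(𝔽_ℓ)`, given Manin's
lemma. -/
theorem frobenius_relation_of_manin (hΔ : W.Δ ≠ 0)
    (hM : ∀ [DecidableEq W.FunctionField], ManinStatement hΔ)
    {L : Type*} [Field L] [Algebra (ZMod ℓ) L] [DecidableEq L]
    (F : L →ₐ[ZMod ℓ] L) (hF : ∀ x, F x = x ^ ℓ) (Q : (W⁄L).Point) :
    Point.map (W' := W) F (Point.map (W' := W) F Q)
      - ((ℓ : ℤ) + 1 - (Nat.card W.Point : ℤ)) • Point.map (W' := W) F Q + (ℓ : ℤ) • Q = 0 := by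
  classical
  rw [eq_frobL hF, ← traceW_eq_of_manin hΔ hM, ← psiL_apply]
  exact psiL_eq_zero hΔ Q

end Fermat.Agent.FrobRel
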