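/-
S58 programme, brick (a3) = MANIN'S LEMMA (helper76).  Shared definitions and small facts.

`ℓ` a prime, `k = ZMod ℓ`, `M` any field which is a `k`-algebra: the `ℓ`-power Frobenius of `M` as a
`k`-algebra endomorphism, and its basic compatibilities.
-/
import Mathlib
import Fermat.Agent.ES.Q58.SubstEmb17

set_option autoImplicit false

open WeierstrassCurve WeierstrassCurve.Affine Polynomial

namespace Fermat.Agent.FrobRel.ManinDefs

variable {ℓ : ℕ} [Fact ℓ.Prime]

/-- a field which is a `ZMod ℓ`-algebra has characteristic `ℓ`. -/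
theorem charP_of_algebra (M : Type*) [Field M] [Algebra (ZMod ℓ) M] : CharP M ℓ :=
  charP_of_injective_algebraMap (FaithfulSMul.algebraMap_injective (ZMod ℓ) M) ℓ

/-- **the `ℓ`-power Frobenius of a field `M ⊇ ZMod ℓ`, as a `ZMod ℓ`-algebra endomorphism.** -/
noncomputable def frobAlg (ℓ : ℕ) [Fact ℓ.Prime] (M : Type*) [Field M] [Algebra (ZMod ℓ) M] :
    M →ₐ[ZMod ℓ] M :=
  haveI := charP_of_algebra (ℓ := ℓ) M
  { frobenius M ℓ with
    commutes' := fun a => by
      show (algebraMap (ZMod ℓ) M a) ^ ℓ = algebraMap (ZMod ℓ) M a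
      rw [← map_pow, ZMod.pow_card] }

theorem frobAlg_apply (M : Type*) [Field M] [Algebra (ZMod ℓ) M] (z : M) :
    frobAlg ℓ M z = z ^ ℓ := rfl

/-- an algebra endomorphism which is the `ℓ`-power map is `frobAlg`. -/
theorem eq_frobAlg {M : Type*} [Field M] [Algebra (ZMod ℓ) M] (f : M →ₐ[ZMod ℓ] M)
    (hf : ∀ z, f z = z ^ ℓ) : f = frobAlg ℓ M :=
  AlgHom.ext fun z => (hf z).trans (frobAlg_apply M z).symm

/-- every `ZMod ℓ`-algebra homomorphism commutes with the Frobenius. -/
theorem comp_frobAlg {M M' : Type*} [Field M] [Algebra (ZMod ℓ) M] [Field M']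
    [Algebra (ZMod ℓ) M'] (σ : M →ₐ[ZMod ℓ] M') :
    σ.comp (frobAlg ℓ M) = (frobAlg ℓ M').comp σ :=
  AlgHom.ext fun z => by
    simp only [AlgHom.comp_apply, frobAlg_apply, map_pow]

end Fermat.Agent.FrobRel.ManinDefs
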