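/-
S58 programme, brick (a3) = MANIN'S LEMMA (helper76), main file.

`ℓ` prime, `k = ZMod ℓ`, `W` a Weierstrass curve over `k` with `Δ ≠ 0`, `K = k(W)`, `P₀ = (x, y)` the
generic point, `R = P₀ − frob P₀ = (xR, yR)`, `xR = U(x) / V(x)` in lowest terms.  Then
`max (deg U) (deg V) = #W(k)`.

Route: `L ⊇ K` algebraically closed, `F = U(Z) − xR V(Z) ∈ L[Z]`;
(i) `natDegree F = max (deg U) (deg V)`; (ii) `F` has no multiple root (Wronskian);
(iii) the roots of `F` in `L` are exactly the `x(P₀ + T)`, `T ∈ W(k)`, without repetition.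
-/
import Mathlib
import Fermat.Agent.FrobRel.ManinDefs
import Fermat.Agent.ES.Q58.PLCurve2

set_option autoImplicit false
set_option linter.unusedSectionVars false

open WeierstrassCurve WeierstrassCurve.Affine Polynomial
open Fermat.Agent.ES.Q58.IotaDescent23 Fermat.Agent.ES.Q58.SubstEmb17
open Fermat.Agent.FrobRel.ManinDefs

namespace Fermat.Agent.FrobRel.Manin76

variable {ℓ : ℕ} [Fact ℓ.Prime]

/-! ### Generalities on `Point.map` -/

section PointMap

variable (W : Affine (ZMod ℓ)) {M M' : Type*} [Field M] [Algebra (ZMod ℓ) M] [DecidableEq M]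
  [Field M'] [Algebra (ZMod ℓ) M'] [DecidableEq M']

/-- `Point.map` commutes with Frobenius. -/
theorem map_frob (σ : M →ₐ[ZMod ℓ] M') (P : (W⁄M).Point) :
    Point.map (W' := W) σ (Point.map (W' := W) (frobAlg ℓ M) P) =
      Point.map (W' := W) (frobAlg ℓ M') (Point.map (W' := W) σ P) := by
  rw [Point.map_map, Point.map_map, comp_frobAlg]

/-- `(1 - frob)` commutes with `Point.map`. -/
theorem map_sub_frob (σ : M →ₐ[ZMod ℓ] M') (P : (W⁄M).Point) :
    Point.map (W' := W) σ (P - Point.map (W' := W) (frobAlg ℓ M) P) =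
      Point.map (W' := W) σ P - Point.map (W' := W) (frobAlg ℓ M') (Point.map (W' := W) σ P) := by
  rw [map_sub, map_frob]

/-- any two `ZMod ℓ`-algebra maps out of `ZMod ℓ` agree. -/
theorem map_ofId (σ : M →ₐ[ZMod ℓ] M') (T : (W⁄(ZMod ℓ)).Point) :
    Point.map (W' := W) σ (Point.map (W' := W) (Algebra.ofId (ZMod ℓ) M) T) =
      Point.map (W' := W) (Algebra.ofId (ZMod ℓ) M') T := by
  rw [Point.map_map]
  have e : σ.comp (Algebra.ofId (ZMod ℓ) M) = Algebra.ofId (ZMod ℓ) M' := Subsingleton.elim _ _
  rw [e]

end PointMap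

/-! ### Translates of the generic point -/

section Generic

variable (W : Affine (ZMod ℓ)) (hΔ : W.Δ ≠ 0) [DecidableEq W.FunctionField]

/-- a translate of the generic point by an algebraic point is an affine point with transcendental
`x`-coordinate. -/
theorem exists_some_genericPoint_add {T : (W⁄W.FunctionField).Point}
    (hT : T ∈ algPoints W W.FunctionField) :
    ∃ (u v : W.FunctionField) (h : (W⁄W.FunctionField).Nonsingular u v),
      genericPoint W hΔ + T = Point.some u v h ∧ Transcendental (ZMod ℓ) u := by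
  rcases hS : genericPoint W hΔ + T with _ | ⟨u, v, h⟩
  · exfalso
    have h1 : genericPoint W hΔ = -T := eq_neg_of_add_eq_zero_left hS
    have h2 : genericPoint W hΔ ∈ algPoints W W.FunctionField := h1 ▸ neg_mem hT
    rw [Fermat.Agent.ES.Q58.IotaDescent23.genericPoint, some_mem_algPoints_iff] at h2
    exact transcendental_xK W h2
  · exact ⟨u, v, h, rfl, transcendental_of_genericPoint_add W hΔ hT h hS⟩

/-- the image of a rational point in `W(K)` is an algebraic point. -/
theorem map_ofId_mem_algPoints (T : (W⁄(ZMod ℓ)).Point) :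
    Point.map (W' := W) (Algebra.ofId (ZMod ℓ) W.FunctionField) T ∈ algPoints W W.FunctionField :=
  map_mem_algPoints W _ T

end Generic

/-! ### The roots coming from rational points -/

section Core

variable (W : Affine (ZMod ℓ)) (hΔ : W.Δ ≠ 0) [DecidableEq W.FunctionField]
  {xR yR : W.FunctionField} (h : (W⁄W.FunctionField).Nonsingular xR yR)
  (hR : genericPoint W hΔ - Point.map (W' := W) (frobAlg ℓ W.FunctionField) (genericPoint W hΔ)
      = Point.some xR yR h)
  {U V : (ZMod ℓ)[X]} (hUV : IsCoprime U V)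
  (hx : xR * algebraMap (ZMod ℓ)[X] W.FunctionField V = algebraMap (ZMod ℓ)[X] W.FunctionField U)

include hR hx in
/-- **every rational point `T` gives the root `x(P₀ + T)` of `U(Z) − xR V(Z)`.** -/
theorem root_of_rational
    (hfix : ∀ T : (W⁄(ZMod ℓ)).Point,
      Point.map (W' := W) (frobAlg ℓ W.FunctionField)
        (Point.map (W' := W) (Algebra.ofId (ZMod ℓ) W.FunctionField) T) =
      Point.map (W' := W) (Algebra.ofId (ZMod ℓ) W.FunctionField) T)
    (T : (W⁄(ZMod ℓ)).Point) :
    ∃ (u v : W.FunctionField) (hS : (W⁄W.FunctionField).Nonsingular u v),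
      genericPoint W hΔ + Point.map (W' := W) (Algebra.ofId (ZMod ℓ) W.FunctionField) T
        = Point.some u v hS ∧
      Transcendental (ZMod ℓ) u ∧ xR * aeval u V = aeval u U := by
  obtain ⟨u, v, hS, hsum, hu⟩ :=
    exists_some_genericPoint_add W hΔ (map_ofId_mem_algPoints W T)
  refine ⟨u, v, hS, hsum, hu, ?_⟩
  have hσP : Point.map (W' := W) (substHom W hS.1 hu) (genericPoint W hΔ) = Point.some u v hS :=
    map_substHom_genericPoint W hΔ hS hu
  have hσR : Point.map (W' := W) (substHom W hS.1 hu) (Point.some xR yR h) =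
      Point.some xR yR h := by
    rw [← hR, map_sub_frob, hσP, ← hsum, map_add, hfix]
    abel
  have hσx : substHom W hS.1 hu xR = xR := by
    rw [Point.map_some] at hσR
    exact (Point.some.inj hσR).1
  have h1 := congrArg (substHom W hS.1 hu) hx
  rw [map_mul, hσx, substHom_algebraMap_polynomial, substHom_algebraMap_polynomial] at h1
  exact h1

end Core

/-! ### All roots come from rational points -/

section Closure

variable (W : Affine (ZMod ℓ)) (hΔ : W.Δ ≠ 0) [DecidableEq W.FunctionField]
  {xR yR : W.FunctionField} (h : (W⁄W.FunctionField).Nonsingular xR yR)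
  (hR : genericPoint W hΔ - Point.map (W' := W) (frobAlg ℓ W.FunctionField) (genericPoint W hΔ)
      = Point.some xR yR h)
  {U V : (ZMod ℓ)[X]} (hUV : IsCoprime U V)
  (hx : xR * algebraMap (ZMod ℓ)[X] W.FunctionField V = algebraMap (ZMod ℓ)[X] W.FunctionField U)
  {L : Type*} [Field L] [Algebra (ZMod ℓ) L] [Algebra W.FunctionField L]
  [IsScalarTower (ZMod ℓ) W.FunctionField L] [DecidableEq L]

include hUV in
/-- at a root of `U(Z) − ξ V(Z)`, `V` does not vanish. -/
theorem aeval_ne_zero_of_root {z ξ : L} (hz : aeval z U = ξ * aeval z V) : aeval z V ≠ 0 := by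
  intro h0
  rw [h0, mul_zero] at hz
  obtain ⟨a, b, hab⟩ := hUV
  have h1 := congrArg (aeval z) hab
  rw [map_add, map_mul, map_mul, hz, h0, mul_zero, mul_zero, add_zero, map_one] at h1
  exact zero_ne_one h1

include hUV in
/-- a root of `U(Z) − xR V(Z)` is transcendental over `ZMod ℓ` when `xR` is. -/
theorem transcendental_of_root (hxR : Transcendental (ZMod ℓ) xR) {z : L}
    (hz : aeval z U = algebraMap W.FunctionField L xR * aeval z V) :
    Transcendental (ZMod ℓ) z := by
  intro halg
  have hV := aeval_ne_zero_of_root hUV hz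
  have hzA : z ∈ algebraicClosure (ZMod ℓ) L := mem_algebraicClosure_iff.mpr halg
  have hUA : aeval z U ∈ algebraicClosure (ZMod ℓ) L := by
    have := IntermediateField.aeval_coe (algebraicClosure (ZMod ℓ) L) (R := ZMod ℓ) ⟨z, hzA⟩ U
    rw [show ((⟨z, hzA⟩ : algebraicClosure (ZMod ℓ) L) : L) = z from rfl] at this
    rw [this]
    exact SetLike.coe_mem _
  have hVA : aeval z V ∈ algebraicClosure (ZMod ℓ) L := by
    have := IntermediateField.aeval_coe (algebraicClosure (ZMod ℓ) L) (R := ZMod ℓ) ⟨z, hzA⟩ V
    rw [show ((⟨z, hzA⟩ : algebraicClosure (ZMod ℓ) L) : L) = z from rfl] at this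
    rw [this]
    exact SetLike.coe_mem _
  have hξ : algebraMap W.FunctionField L xR = aeval z U / aeval z V := by
    rw [eq_div_iff hV, hz]
  have hξA : algebraMap W.FunctionField L xR ∈ algebraicClosure (ZMod ℓ) L := by
    rw [hξ]
    exact div_mem hUA hVA
  have h1 : IsAlgebraic (ZMod ℓ) (algebraMap W.FunctionField L xR) :=
    mem_algebraicClosure_iff.mp hξA
  have h2 : IsAlgebraic (ZMod ℓ) (IsScalarTower.toAlgHom (ZMod ℓ) W.FunctionField L xR) := h1
  exact hxR ((isAlgebraic_algHom_iff (IsScalarTower.toAlgHom (ZMod ℓ) W.FunctionField L)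
    (IsScalarTower.toAlgHom (ZMod ℓ) W.FunctionField L).injective).mp h2)

omit [DecidableEq W.FunctionField] [Algebra W.FunctionField L]
  [IsScalarTower (ZMod ℓ) W.FunctionField L] [DecidableEq L] in
/-- over an algebraically closed field every `x` is the `x`-coordinate of a point. -/
theorem exists_equation [IsAlgClosed L] (z : L) : ∃ w : L, (W⁄L).Equation z w := by
  set p : L[X] := X ^ 2 + C ((W⁄L).a₁ * z + (W⁄L).a₃) * X -
    C (z ^ 3 + (W⁄L).a₂ * z ^ 2 + (W⁄L).a₄ * z + (W⁄L).a₆) with hp
  have hdeg : p.degree ≠ 0 := by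
    have h2 : p.degree = 2 := by
      rw [hp]
      compute_degree!
    rw [h2]
    norm_num
  obtain ⟨w, hw⟩ := IsAlgClosed.exists_root p hdeg
  refine ⟨w, ?_⟩
  rw [equation_iff]
  rw [hp, IsRoot.def] at hw
  simp only [eval_sub, eval_add, eval_mul, eval_pow, eval_X, eval_C] at hw
  linear_combination hw

omit [DecidableEq W.FunctionField] [DecidableEq L] in
/-- the discriminant of the base change. -/
theorem baseChange_Δ_ne_zero (hΔ : W.Δ ≠ 0) : (W⁄L).Δ ≠ 0 := by
  show (W.map (algebraMap (ZMod ℓ) L)).Δ ≠ 0
  rw [WeierstrassCurve.map_Δ]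
  exact (map_ne_zero_iff _ (FaithfulSMul.algebraMap_injective (ZMod ℓ) L)).mpr hΔ

include hR hUV hx in
/-- **every root of `U(Z) − xR V(Z)` in `L` is `x(P₀ + T)` for a rational point `T`.** -/
theorem exists_rational_of_root [IsAlgClosed L]
    (hfixL : ∀ S : (W⁄L).Point, Point.map (W' := W) (frobAlg ℓ L) S = S →
      ∃ T : (W⁄(ZMod ℓ)).Point, Point.map (W' := W) (Algebra.ofId (ZMod ℓ) L) T = S)
    (hxR : Transcendental (ZMod ℓ) xR) {z : L}
    (hz : aeval z U = algebraMap W.FunctionField L xR * aeval z V) :
    ∃ (T : (W⁄(ZMod ℓ)).Point) (u v : W.FunctionField)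
      (hS : (W⁄W.FunctionField).Nonsingular u v),
      genericPoint W hΔ + Point.map (W' := W) (Algebra.ofId (ZMod ℓ) W.FunctionField) T
        = Point.some u v hS ∧ z = algebraMap W.FunctionField L u := by
  have hzt : Transcendental (ZMod ℓ) z := transcendental_of_root W hUV hxR hz
  obtain ⟨w, hw⟩ := exists_equation W z
  have hS : (W⁄L).Nonsingular z w :=
    ((W⁄L).equation_iff_nonsingular_of_Δ_ne_zero (baseChange_Δ_ne_zero W hΔ)).mp hw
  -- the substitution embedding at `S = (z, w)`
  have hσP : Point.map (W' := W) (substHom W hS.1 hzt) (genericPoint W hΔ) = Point.some z w hS :=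
    map_substHom_genericPoint W hΔ hS hzt
  have hσx : substHom W hS.1 hzt xR = algebraMap W.FunctionField L xR := by
    have h1 := congrArg (substHom W hS.1 hzt) hx
    rw [map_mul, substHom_algebraMap_polynomial, substHom_algebraMap_polynomial] at h1
    have hV := aeval_ne_zero_of_root hUV hz
    apply mul_right_cancel₀ hV
    rw [h1, hz]
  -- the two images of `R` have the same `x`-coordinate
  have hpm : Point.map (W' := W) (substHom W hS.1 hzt) (Point.some xR yR h) =
        Point.map (W' := W) (IsScalarTower.toAlgHom (ZMod ℓ) W.FunctionField L)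
          (Point.some xR yR h) ∨
      Point.map (W' := W) (substHom W hS.1 hzt) (Point.some xR yR h) =
        -Point.map (W' := W) (IsScalarTower.toAlgHom (ZMod ℓ) W.FunctionField L)
          (Point.some xR yR h) := by
    rw [Point.map_some, Point.map_some]
    exact Point.X_eq_iff.mp hσx
  have eσ : Point.map (W' := W) (substHom W hS.1 hzt) (Point.some xR yR h) =
      Point.some z w hS - Point.map (W' := W) (frobAlg ℓ L) (Point.some z w hS) := by
    rw [← hR, map_sub_frob, hσP]
  have eι : Point.map (W' := W) (IsScalarTower.toAlgHom (ZMod ℓ) W.FunctionField L)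
        (Point.some xR yR h) =
      Point.map (W' := W) (IsScalarTower.toAlgHom (ZMod ℓ) W.FunctionField L) (genericPoint W hΔ) -
        Point.map (W' := W) (frobAlg ℓ L)
          (Point.map (W' := W) (IsScalarTower.toAlgHom (ZMod ℓ) W.FunctionField L)
            (genericPoint W hΔ)) := by
    rw [← hR, map_sub_frob]
  rw [eσ, eι] at hpm
  set S : (W⁄L).Point := Point.some z w hS with hSdef
  set P0L : (W⁄L).Point :=
    Point.map (W' := W) (IsScalarTower.toAlgHom (ZMod ℓ) W.FunctionField L) (genericPoint W hΔ)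
    with hP0L
  rcases hpm with hp | hm
  · have hfixed : Point.map (W' := W) (frobAlg ℓ L) (S - P0L) = S - P0L := by
      rw [map_sub]
      have : S - P0L - (Point.map (W' := W) (frobAlg ℓ L) S -
          Point.map (W' := W) (frobAlg ℓ L) P0L) = 0 := by
        have e : S - P0L - (Point.map (W' := W) (frobAlg ℓ L) S -
          Point.map (W' := W) (frobAlg ℓ L) P0L) =
          (S - Point.map (W' := W) (frobAlg ℓ L) S) -
            (P0L - Point.map (W' := W) (frobAlg ℓ L) P0L) := by abel
        rw [e, hp, sub_self]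
      exact (sub_eq_zero.mp this).symm
    obtain ⟨T, hT⟩ := hfixL _ hfixed
    obtain ⟨u, v, hS', hsum, -⟩ :=
      exists_some_genericPoint_add W hΔ (map_ofId_mem_algPoints W T)
    refine ⟨T, u, v, hS', hsum, ?_⟩
    have e : S = Point.map (W' := W) (IsScalarTower.toAlgHom (ZMod ℓ) W.FunctionField L)
        (Point.some u v hS') := by
      rw [← hsum, map_add, map_ofId, hT]
      abel
    rw [hSdef, Point.map_some] at e
    exact (Point.some.inj e).1
  · have hfixed : Point.map (W' := W) (frobAlg ℓ L) (-S - P0L) = -S - P0L := by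
      rw [map_sub, map_neg]
      have : -S - P0L - (-Point.map (W' := W) (frobAlg ℓ L) S -
          Point.map (W' := W) (frobAlg ℓ L) P0L) = 0 := by
        have e : -S - P0L - (-Point.map (W' := W) (frobAlg ℓ L) S -
          Point.map (W' := W) (frobAlg ℓ L) P0L) =
          -(S - Point.map (W' := W) (frobAlg ℓ L) S) -
            (P0L - Point.map (W' := W) (frobAlg ℓ L) P0L) := by abel
        rw [e, hm]
        abel
      exact (sub_eq_zero.mp this).symm
    obtain ⟨T, hT⟩ := hfixL _ hfixed
    obtain ⟨u, v, hS', hsum, -⟩ :=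
      exists_some_genericPoint_add W hΔ (map_ofId_mem_algPoints W T)
    refine ⟨T, u, v, hS', hsum, ?_⟩
    have e : -S = Point.map (W' := W) (IsScalarTower.toAlgHom (ZMod ℓ) W.FunctionField L)
        (Point.some u v hS') := by
      rw [← hsum, map_add, map_ofId, hT]
      abel
    rw [hSdef, Point.neg_some, Point.map_some] at e
    exact (Point.some.inj e).1

end Closure

/-! ### The polynomial `F = U(Z) − ξ V(Z)` -/

section Poly

variable {L : Type*} [Field L] [Algebra (ZMod ℓ) L]

/-- `F = U(Z) − ξ V(Z)` over `L`. -/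
noncomputable def polyF (U V : (ZMod ℓ)[X]) (ξ : L) : L[X] :=
  U.map (algebraMap (ZMod ℓ) L) - C ξ * V.map (algebraMap (ZMod ℓ) L)

theorem isRoot_polyF_iff (U V : (ZMod ℓ)[X]) (ξ z : L) :
    (polyF U V ξ).IsRoot z ↔ aeval z U = ξ * aeval z V := by
  rw [polyF, IsRoot.def, eval_sub, eval_mul, eval_C, eval_map, eval_map, ← aeval_def, ← aeval_def,
    sub_eq_zero]

theorem derivative_polyF (U V : (ZMod ℓ)[X]) (ξ : L) :
    derivative (polyF U V ξ) = polyF (derivative U) (derivative V) ξ := by
  rw [polyF, polyF, derivative_sub, derivative_C_mul, derivative_map, derivative_map]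

theorem coeff_polyF (U V : (ZMod ℓ)[X]) (ξ : L) (n : ℕ) :
    (polyF U V ξ).coeff n =
      algebraMap (ZMod ℓ) L (U.coeff n) - ξ * algebraMap (ZMod ℓ) L (V.coeff n) := by
  rw [polyF, coeff_sub, coeff_C_mul, coeff_map, coeff_map]

theorem natDegree_polyF_le (U V : (ZMod ℓ)[X]) (ξ : L) :
    (polyF U V ξ).natDegree ≤ max U.natDegree V.natDegree := by
  rw [polyF]
  refine (natDegree_sub_le _ _).trans (max_le_max natDegree_map_le ?_)
  exact (natDegree_C_mul_le _ _).trans natDegree_map_le

/-- if `ξ` is not in the image of `ZMod ℓ`, `F` has degree exactly `max (deg U) (deg V)`. -/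
theorem natDegree_polyF {U V : (ZMod ℓ)[X]} {ξ : L}
    (hξ : ξ ∉ Set.range (algebraMap (ZMod ℓ) L))
    (hpos : 0 < max U.natDegree V.natDegree) :
    (polyF U V ξ).natDegree = max U.natDegree V.natDegree := by
  refine le_antisymm (natDegree_polyF_le U V ξ) ?_
  refine le_natDegree_of_ne_zero ?_
  rw [coeff_polyF]
  set d := max U.natDegree V.natDegree with hd
  intro h0
  by_cases hV : V.coeff d = 0
  · rw [hV, map_zero, mul_zero, sub_zero] at h0
    have hU : U.coeff d = 0 :=
      (map_eq_zero_iff _ (FaithfulSMul.algebraMap_injective (ZMod ℓ) L)).mp h0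
    rcases le_total U.natDegree V.natDegree with hle | hle
    · have hdV : d = V.natDegree := max_eq_right hle
      rw [hdV] at hV hpos
      have : V = 0 := leadingCoeff_eq_zero.mp hV
      rw [this, natDegree_zero] at hpos
      exact lt_irrefl _ hpos
    · have hdU : d = U.natDegree := max_eq_left hle
      rw [hdU] at hU hpos
      have : U = 0 := leadingCoeff_eq_zero.mp hU
      rw [this, natDegree_zero] at hpos
      exact lt_irrefl _ hpos
  · apply hξ
    refine ⟨U.coeff d / V.coeff d, ?_⟩
    have hV' : algebraMap (ZMod ℓ) L (V.coeff d) ≠ 0 :=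
      (map_ne_zero_iff _ (FaithfulSMul.algebraMap_injective (ZMod ℓ) L)).mpr hV
    rw [map_div₀, div_eq_iff hV']
    exact (sub_eq_zero.mp h0)

/-- **`F` has no multiple root**, as soon as the Wronskian of `U, V` does not vanish and the roots of
`F` are transcendental. -/
theorem nodup_roots_polyF {U V : (ZMod ℓ)[X]} {ξ : L}
    (hW : derivative U * V - U * derivative V ≠ 0)
    (htr : ∀ z : L, aeval z U = ξ * aeval z V → Transcendental (ZMod ℓ) z)
    (hF : polyF U V ξ ≠ 0) : (polyF U V ξ).roots.Nodup := by
  classical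
  rw [Multiset.nodup_iff_count_le_one]
  intro z
  rw [count_roots]
  by_contra hlt
  push Not at hlt
  obtain ⟨h0, h1⟩ := (one_lt_rootMultiplicity_iff_isRoot hF).mp hlt
  rw [isRoot_polyF_iff] at h0
  rw [derivative_polyF, isRoot_polyF_iff] at h1
  refine htr z h0 ⟨derivative U * V - U * derivative V, hW, ?_⟩
  rw [map_sub, map_mul, map_mul, h0, h1]
  ring

end Poly

/-! ### The count -/

section Count

variable (W : Affine (ZMod ℓ)) (hΔ : W.Δ ≠ 0) [DecidableEq W.FunctionField]

/-- the `x`-coordinate of a point (`0` at infinity). -/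
noncomputable def xOf : (W⁄W.FunctionField).Point → W.FunctionField
  | .zero => 0
  | .some x _ _ => x

theorem xOf_some {u v : W.FunctionField} (hS : (W⁄W.FunctionField).Nonsingular u v) :
    xOf W (Point.some u v hS) = u := rfl

variable {xR yR : W.FunctionField} (h : (W⁄W.FunctionField).Nonsingular xR yR)
  (hR : genericPoint W hΔ - Point.map (W' := W) (frobAlg ℓ W.FunctionField) (genericPoint W hΔ)
      = Point.some xR yR h)
  {U V : (ZMod ℓ)[X]} (hUV : IsCoprime U V)
  (hx : xR * algebraMap (ZMod ℓ)[X] W.FunctionField V = algebraMap (ZMod ℓ)[X] W.FunctionField U)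

/-- `T ↦ x(P₀ + T)` is injective on rational points, since `2 P₀` is not an algebraic point. -/
theorem xOf_injective
    (hMC : (2 : ℕ) • genericPoint W hΔ ∉ algPoints W W.FunctionField)
    {T T' : (W⁄(ZMod ℓ)).Point}
    (hTT' : xOf W (genericPoint W hΔ +
        Point.map (W' := W) (Algebra.ofId (ZMod ℓ) W.FunctionField) T) =
      xOf W (genericPoint W hΔ +
        Point.map (W' := W) (Algebra.ofId (ZMod ℓ) W.FunctionField) T')) : T = T' := by
  obtain ⟨u, v, hS, hsum, -⟩ := exists_some_genericPoint_add W hΔ (map_ofId_mem_algPoints W T)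
  obtain ⟨u', v', hS', hsum', -⟩ := exists_some_genericPoint_add W hΔ (map_ofId_mem_algPoints W T')
  rw [hsum, hsum', xOf_some, xOf_some] at hTT'
  rcases Point.X_eq_iff.mp hTT' with he | he
  · rw [← hsum, ← hsum'] at he
    exact Point.map_injective _ (add_left_cancel he)
  · exfalso
    apply hMC
    rw [← hsum, ← hsum'] at he
    have e : (2 : ℕ) • genericPoint W hΔ =
        -Point.map (W' := W) (Algebra.ofId (ZMod ℓ) W.FunctionField) (T + T') := by
      rw [map_add, two_nsmul]
      calc genericPoint W hΔ + genericPoint W hΔ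
          = (genericPoint W hΔ +
              Point.map (W' := W) (Algebra.ofId (ZMod ℓ) W.FunctionField) T) +
            (genericPoint W hΔ +
              Point.map (W' := W) (Algebra.ofId (ZMod ℓ) W.FunctionField) T') -
            (Point.map (W' := W) (Algebra.ofId (ZMod ℓ) W.FunctionField) T +
              Point.map (W' := W) (Algebra.ofId (ZMod ℓ) W.FunctionField) T') := by abel
        _ = -(genericPoint W hΔ +
              Point.map (W' := W) (Algebra.ofId (ZMod ℓ) W.FunctionField) T') +
            (genericPoint W hΔ +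
              Point.map (W' := W) (Algebra.ofId (ZMod ℓ) W.FunctionField) T') -
            (Point.map (W' := W) (Algebra.ofId (ZMod ℓ) W.FunctionField) T +
              Point.map (W' := W) (Algebra.ofId (ZMod ℓ) W.FunctionField) T') := by rw [he]
        _ = -(Point.map (W' := W) (Algebra.ofId (ZMod ℓ) W.FunctionField) T +
              Point.map (W' := W) (Algebra.ofId (ZMod ℓ) W.FunctionField) T') := by abel
    rw [e]
    exact neg_mem (map_ofId_mem_algPoints W _)

include hR hUV hx in
/-- **Manin's lemma, modulo the three sub-bricks** (MA) Wronskian, (MB) Frobenius-fixed points are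
rational, (MC) `2 P₀` is not algebraic. -/
theorem manin_of {L : Type*} [Field L] [Algebra (ZMod ℓ) L] [Algebra W.FunctionField L]
    [IsScalarTower (ZMod ℓ) W.FunctionField L] [DecidableEq L] [IsAlgClosed L]
    (hpos : 0 < max U.natDegree V.natDegree)
    (hMA : derivative U * V - U * derivative V ≠ 0)
    (hfixK : ∀ T : (W⁄(ZMod ℓ)).Point,
      Point.map (W' := W) (frobAlg ℓ W.FunctionField)
        (Point.map (W' := W) (Algebra.ofId (ZMod ℓ) W.FunctionField) T) =
      Point.map (W' := W) (Algebra.ofId (ZMod ℓ) W.FunctionField) T)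
    (hfixL : ∀ S : (W⁄L).Point, Point.map (W' := W) (frobAlg ℓ L) S = S →
      ∃ T : (W⁄(ZMod ℓ)).Point, Point.map (W' := W) (Algebra.ofId (ZMod ℓ) L) T = S)
    (hMC : (2 : ℕ) • genericPoint W hΔ ∉ algPoints W W.FunctionField) :
    max U.natDegree V.natDegree = Nat.card (W⁄(ZMod ℓ)).Point := by
  classical
  have hxR : Transcendental (ZMod ℓ) xR := transcendental_of_isCoprime W hUV hpos hx
  set ξ : L := algebraMap W.FunctionField L xR with hξdef
  have hξ : ξ ∉ Set.range (algebraMap (ZMod ℓ) L) := by
    rintro ⟨c, hc⟩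
    apply hxR
    have e : algebraMap W.FunctionField L (algebraMap (ZMod ℓ) W.FunctionField c) =
        algebraMap W.FunctionField L xR := by
      rw [← IsScalarTower.algebraMap_apply, hc]
    rw [← (algebraMap W.FunctionField L).injective e]
    exact isAlgebraic_algebraMap c
  have hdeg : (polyF U V ξ).natDegree = max U.natDegree V.natDegree := natDegree_polyF hξ hpos
  have hF0 : polyF U V ξ ≠ 0 := by
    intro h0
    rw [h0, natDegree_zero] at hdeg
    omega
  have htr : ∀ z : L, aeval z U = ξ * aeval z V → Transcendental (ZMod ℓ) z :=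
    fun z hz => transcendental_of_root W hUV hxR hz
  have hnodup : (polyF U V ξ).roots.Nodup := nodup_roots_polyF hMA htr hF0
  have hcard : (polyF U V ξ).roots.card = max U.natDegree V.natDegree := by
    rw [← (IsAlgClosed.splits (polyF U V ξ)).natDegree_eq_card_roots, hdeg]
  -- the bijection
  have hmem : ∀ T : (W⁄(ZMod ℓ)).Point,
      algebraMap W.FunctionField L (xOf W (genericPoint W hΔ +
        Point.map (W' := W) (Algebra.ofId (ZMod ℓ) W.FunctionField) T)) ∈
        (polyF U V ξ).roots.toFinset := by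
    intro T
    obtain ⟨u, v, hS, hsum, -, hroot⟩ := root_of_rational W hΔ h hR hx hfixK T
    rw [Multiset.mem_toFinset, mem_roots hF0, isRoot_polyF_iff, hsum, xOf_some,
      aeval_algebraMap_apply, aeval_algebraMap_apply, hξdef, ← map_mul, hroot]
  have hbij : Function.Bijective (fun T : (W⁄(ZMod ℓ)).Point =>
      (⟨_, hmem T⟩ : {z : L // z ∈ (polyF U V ξ).roots.toFinset})) := by
    constructor
    · intro T T' hTT'
      have h1 := congrArg Subtype.val hTT'
      exact xOf_injective W hΔ hMC ((algebraMap W.FunctionField L).injective h1)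
    · rintro ⟨z, hz⟩
      rw [Multiset.mem_toFinset, mem_roots hF0, isRoot_polyF_iff] at hz
      obtain ⟨T, u, v, hS, hsum, hzu⟩ :=
        exists_rational_of_root W hΔ h hR hUV hx hfixL hxR hz
      refine ⟨T, Subtype.ext ?_⟩
      show algebraMap W.FunctionField L (xOf W (genericPoint W hΔ +
        Point.map (W' := W) (Algebra.ofId (ZMod ℓ) W.FunctionField) T)) = z
      rw [hsum, xOf_some, hzu]
  rw [Nat.card_eq_of_bijective _ hbij, Nat.card_eq_fintype_card, Fintype.card_coe,
    Multiset.toFinset_card_of_nodup hnodup, hcard]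

end Count

end Fermat.Agent.FrobRel.Manin76
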