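/-
S58 programme, brick (a3) = MANIN'S LEMMA, sub-brick (MA) (helper80):
**the Wronskian of the `x`-coordinate of `R = P₀ − φ P₀` does not vanish.**

`ℓ` prime, `k = ZMod ℓ`, `W` a Weierstrass curve over `k` with `Δ ≠ 0`, `K = W.FunctionField`,
`P₀ = (x, y)` the generic point, `φ` the `ℓ`-power Frobenius of `K`, `R = P₀ − φ P₀ = (xR, yR)`,
`xR = U(x) / V(x)` with `U V : k[X]` coprime.  Then `U' V − U V' ≠ 0`.

Proof.  Otherwise `U = U₁ ^ ℓ`, `V = V₁ ^ ℓ` (`InsepPoly9.exists_pow_of_wronskian`), so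
`xR = w ^ ℓ`, `w = U₁(x) / V₁(x)`.  Then `yR = y' ^ ℓ` with `(w, y')` on the curve
(`InsepLeavesB5.exists_frobenius_preimage_y_zmod`; for `ℓ = 2` and `a₁ w + a₃ = 0` the element `w` is
a constant and `R` is the rational `2`-torsion point, treated by hand).  So `R = φ R'`,
`P₀ = φ (P₀ + R')`, and `x` is an `ℓ`-th power in `K`: contradiction with `InsepLeaves5.x_ne_pow'`.
-/
import Mathlib
import Fermat.Agent.ES.Q58.IotaDescent23
import Fermat.Agent.ES.Q58.InsepPoly9
import Fermat.Agent.ES.Q58.InsepLeaves5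
import Fermat.Agent.ES.Q58.InsepLeavesB5
import Fermat.Agent.FrobRel.ManinDefs

set_option autoImplicit false

open WeierstrassCurve WeierstrassCurve.Affine Polynomial
open Fermat.Agent.ES.Q58.IotaDescent23 Fermat.Agent.FrobRel.ManinDefs

namespace Fermat.Agent.FrobRel.ManinMA80

variable {l : ℕ} [Fact l.Prime]

/-- elements of the image of `ZMod l` are fixed by the `l`-th power map. -/
theorem algebraMap_pow_card {M : Type*} [Field M] [Algebra (ZMod l) M] (a : ZMod l) :
    (algebraMap (ZMod l) M a) ^ l = algebraMap (ZMod l) M a := by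
  rw [← map_pow, ZMod.pow_card]

/-- **Frobenius preimage of the `y`-coordinate**, all cases (`ℓ = 2` included): if `(w ^ ℓ, y)` is on
the base change to `M` of a curve over `ZMod ℓ` with `Δ ≠ 0`, then `y = y' ^ ℓ` with `(w, y')` on
the curve. -/
theorem exists_frobenius_preimage_y_all {M : Type*} [Field M] [Algebra (ZMod l) M]
    (W : Affine (ZMod l)) (hΔ : W.Δ ≠ 0) {w y : M} (h : (W⁄M).Equation (w ^ l) y) :
    ∃ y' : M, y' ^ l = y ∧ (W⁄M).Equation w y' := by
  by_cases hA : l = 2 → algebraMap (ZMod l) M W.a₁ * w + algebraMap (ZMod l) M W.a₃ ≠ 0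
  · exact Fermat.Agent.ES.Q58.InsepLeavesB5.exists_frobenius_preimage_y_zmod l W h hA
  · push Not at hA
    obtain ⟨hl, hA0⟩ := hA
    subst hl
    have : CharP (ZMod 2) 2 := ZMod.charP 2
    have : CharP M 2 := charP_of_algebra (ℓ := 2) M
    have two0 : (2 : M) = 0 := CharTwo.two_eq_zero
    -- `w` is a constant
    have hw : w ∈ Set.range (algebraMap (ZMod 2) M) := by
      by_contra hw
      exact Fermat.Agent.ES.Q58.InsepLeavesB5.a₁_mul_add_a₃_ne_zero (L := ZMod 2) (K := M) W hΔ hw hA0
    obtain ⟨c, rfl⟩ := hw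
    -- the value of the cubic at `c`
    set b : ZMod 2 := c ^ 3 + W.a₂ * c ^ 2 + W.a₄ * c + W.a₆ with hb
    have hcc : (algebraMap (ZMod 2) M c) ^ 2 = algebraMap (ZMod 2) M c := algebraMap_pow_card c
    have hbb : (algebraMap (ZMod 2) M b) ^ 2 = algebraMap (ZMod 2) M b := algebraMap_pow_card b
    have hbM : algebraMap (ZMod 2) M b = (algebraMap (ZMod 2) M c) ^ 3 +
        algebraMap (ZMod 2) M W.a₂ * (algebraMap (ZMod 2) M c) ^ 2 +
        algebraMap (ZMod 2) M W.a₄ * algebraMap (ZMod 2) M c + algebraMap (ZMod 2) M W.a₆ := by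
      rw [hb]
      simp only [map_add, map_mul, map_pow]
    rw [equation_iff] at h
    simp only [baseChange_a₁, baseChange_a₂, baseChange_a₃, baseChange_a₄, baseChange_a₆] at h
    rw [hcc] at h
    -- `y ^ 2 = b`
    have hy2 : y ^ 2 = algebraMap (ZMod 2) M b := by
      rw [hbM]
      linear_combination h - y * hA0
    have hyb : y = algebraMap (ZMod 2) M b := by
      have : (y - algebraMap (ZMod 2) M b) ^ 2 = 0 := by
        linear_combination hy2 + hbb +
          (algebraMap (ZMod 2) M b - y * algebraMap (ZMod 2) M b) * two0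
      exact sub_eq_zero.mp ((pow_eq_zero_iff two_ne_zero).mp this)
    refine ⟨algebraMap (ZMod 2) M b, by rw [hbb, hyb], ?_⟩
    rw [equation_iff]
    simp only [baseChange_a₁, baseChange_a₂, baseChange_a₃, baseChange_a₄, baseChange_a₆]
    rw [hbb]
    linear_combination hbM + (algebraMap (ZMod 2) M b) * hA0

/-- the discriminant of a base change to a field extension does not vanish. -/
theorem baseChange_Δ_ne_zero {M : Type*} [Field M] [Algebra (ZMod l) M]
    (W : Affine (ZMod l)) (hΔ : W.Δ ≠ 0) : (W⁄M).Δ ≠ 0 := by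
  have h : (W⁄M).Δ = algebraMap (ZMod l) M W.Δ := by
    simp [WeierstrassCurve.baseChange, WeierstrassCurve.map_Δ]
  rw [h]
  exact (map_ne_zero_iff _ (FaithfulSMul.algebraMap_injective (ZMod l) M)).mpr hΔ

/-- **(MA)** the Wronskian of the `x`-coordinate of `R = P₀ − φ P₀` does not vanish. -/
theorem wronskian_ne_zero (W : Affine (ZMod l)) (hΔ : W.Δ ≠ 0) [DecidableEq W.FunctionField]
    {xR yR : W.FunctionField} (h : (W⁄W.FunctionField).Nonsingular xR yR)
    (hR : genericPoint W hΔ -
        Point.map (W' := W) (frobAlg l W.FunctionField) (genericPoint W hΔ) = Point.some xR yR h)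
    {U V : (ZMod l)[X]} (hUV : IsCoprime U V)
    (hx : xR * algebraMap (ZMod l)[X] W.FunctionField V = algebraMap (ZMod l)[X] W.FunctionField U) :
    derivative U * V - U * derivative V ≠ 0 := by
  intro hW
  have hW' : derivative U * V = U * derivative V := sub_eq_zero.mp hW
  have : CharP (ZMod l) l := ZMod.charP l
  obtain ⟨U₁, V₁, -, hU, hV⟩ :=
    Fermat.Agent.ES.Q58.InsepPoly9.exists_pow_of_wronskian (L := ZMod l) l hUV hW'
  have hinj : Function.Injective (algebraMap (ZMod l)[X] W.FunctionField) :=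
    FaithfulSMul.algebraMap_injective (ZMod l)[X] W.FunctionField
  -- `V ≠ 0`
  have hV0 : V ≠ 0 := by
    rintro rfl
    rw [map_zero, mul_zero] at hx
    have hU0 : U = 0 := hinj (hx.symm.trans (map_zero _).symm)
    rw [hU0] at hUV
    exact not_isCoprime_zero_zero hUV
  have hV₁0 : V₁ ≠ 0 := by
    rintro rfl
    apply hV0
    rw [hV, zero_pow (Fact.out : l.Prime).ne_zero]
  have hV₁K : algebraMap (ZMod l)[X] W.FunctionField V₁ ≠ 0 :=
    (map_ne_zero_iff _ hinj).mpr hV₁0
  -- `xR = w ^ l`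
  set w : W.FunctionField :=
    algebraMap (ZMod l)[X] W.FunctionField U₁ / algebraMap (ZMod l)[X] W.FunctionField V₁ with hw
  have hxw : xR = w ^ l := by
    rw [hw, div_pow, eq_div_iff (pow_ne_zero l hV₁K), ← map_pow, ← map_pow, ← hU, ← hV]
    exact hx
  -- the Frobenius preimage of `yR`
  have hEq : (W⁄W.FunctionField).Equation (w ^ l) yR := by
    rw [← hxw]
    exact h.left
  obtain ⟨y', hy', hEq'⟩ := exists_frobenius_preimage_y_all W hΔ hEq
  have hns' : (W⁄W.FunctionField).Nonsingular w y' :=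
    (equation_iff_nonsingular_of_Δ_ne_zero (baseChange_Δ_ne_zero W hΔ)).mp hEq'
  -- `R = φ R'`
  have hRR' : Point.map (W' := W) (frobAlg l W.FunctionField) (Point.some w y' hns') =
      Point.some xR yR h := by
    rw [Point.map_some]
    simp only [Point.some.injEq, frobAlg_apply]
    exact ⟨hxw.symm, hy'⟩
  -- `P₀ = φ (P₀ + R')`
  have hP₀ : genericPoint W hΔ =
      Point.map (W' := W) (frobAlg l W.FunctionField) (genericPoint W hΔ + Point.some w y' hns') := by
    rw [map_add, hRR', ← hR]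
    abel
  -- so `x` is an `l`-th power
  have : CharP W.FunctionField l := charP_of_algebra (ℓ := l) W.FunctionField
  rcases hS : genericPoint W hΔ + Point.some w y' hns' with _ | ⟨s, t, hst⟩
  · rw [hS] at hP₀
    exact Point.some_ne_zero _ hP₀
  · rw [hS, Point.map_some] at hP₀
    unfold Fermat.Agent.ES.Q58.IotaDescent23.genericPoint at hP₀
    simp only [Point.some.injEq, frobAlg_apply] at hP₀
    exact Fermat.Agent.ES.Q58.InsepLeaves5.x_ne_pow' W l hΔ s hP₀.1.symm

end Fermat.Agent.FrobRel.ManinMA80
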