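/-
S58 programme, brick (a3) = MANIN'S LEMMA, sub-brick (MB) (helper74; plan of helper76, report 172).

`ℓ` a prime, `k = ZMod ℓ`, `W` a Weierstrass curve over `k`, `M` any field which is a `k`-algebra.

* `exists_of_frob_fixed` : a point of `W(M)` fixed by the `ℓ`-power Frobenius is `k`-rational;
* `frob_map_ofId`        : conversely, `k`-rational points are fixed by the Frobenius;
* `card_baseChange_self` : `W⁄k` and `W` have the same number of points.
-/
import Mathlib
import Fermat.Agent.FrobRel.ManinDefs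

set_option autoImplicit false

open WeierstrassCurve WeierstrassCurve.Affine Polynomial Fermat.Agent.FrobRel.ManinDefs

namespace Fermat.Agent.FrobRel.ManinMB74

variable {ℓ : ℕ} [Fact ℓ.Prime]

/-- in a field `M ⊇ ZMod ℓ`, the fixed points of `z ↦ z ^ ℓ` are exactly the elements of `ZMod ℓ`. -/
theorem mem_range_algebraMap_of_pow_eq {M : Type*} [Field M] [Algebra (ZMod ℓ) M] {z : M}
    (hz : z ^ ℓ = z) : ∃ a : ZMod ℓ, algebraMap (ZMod ℓ) M a = z := by
  classical
  have : CharP M ℓ := charP_of_algebra (ℓ := ℓ) M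
  -- the `ℓ` elements of `ZMod ℓ` are roots of `X ^ ℓ - X`, which has at most `ℓ` roots
  have h1 : 1 < ℓ := (Fact.out : ℓ.Prime).one_lt
  set P : M[X] := X ^ ℓ - X with hP
  have hPne : P ≠ 0 := FiniteField.X_pow_card_sub_X_ne_zero M h1
  have hdeg : P.natDegree = ℓ := FiniteField.X_pow_card_sub_X_natDegree_eq M h1
  have hinj : Function.Injective (algebraMap (ZMod ℓ) M) :=
    FaithfulSMul.algebraMap_injective (ZMod ℓ) M
  -- the image of `ZMod ℓ` consists of roots
  have hroot : ∀ a : ZMod ℓ, algebraMap (ZMod ℓ) M a ∈ P.roots := by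
    intro a
    rw [mem_roots hPne, IsRoot.def, hP, eval_sub, eval_pow, eval_X, ← map_pow, ZMod.pow_card,
      sub_self]
  have hzroot : z ∈ P.roots := by
    rw [mem_roots hPne, IsRoot.def, hP, eval_sub, eval_pow, eval_X, hz, sub_self]
  by_contra hcon
  rw [not_exists] at hcon
  -- `z` together with the image of `ZMod ℓ` gives `ℓ + 1` distinct roots
  let S : Finset M := insert z (Finset.univ.image (algebraMap (ZMod ℓ) M))
  have hSsub : S ⊆ P.roots.toFinset := by
    intro w hw
    rw [Finset.mem_insert, Finset.mem_image] at hw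
    rw [Multiset.mem_toFinset]
    rcases hw with rfl | ⟨a, -, rfl⟩
    · exact hzroot
    · exact hroot a
  have hScard : S.card = ℓ + 1 := by
    rw [Finset.card_insert_of_notMem, Finset.card_image_of_injective _ hinj, Finset.card_univ,
      ZMod.card]
    rw [Finset.mem_image]
    rintro ⟨a, -, ha⟩
    exact hcon a ha
  have h2 : P.roots.toFinset.card ≤ ℓ :=
    (Multiset.toFinset_card_le _).trans ((card_roots' P).trans hdeg.le)
  have := (Finset.card_le_card hSsub).trans h2
  omega

/-- **`k`-rational points are fixed by the Frobenius.** -/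
theorem frob_map_ofId (W : Affine (ZMod ℓ)) (M : Type*) [Field M] [Algebra (ZMod ℓ) M]
    [DecidableEq M] (T : (W⁄(ZMod ℓ)).Point) :
    Point.map (W' := W) (frobAlg ℓ M) (Point.map (W' := W) (Algebra.ofId (ZMod ℓ) M) T) =
      Point.map (W' := W) (Algebra.ofId (ZMod ℓ) M) T := by
  have hcomp : (frobAlg ℓ M).comp (Algebra.ofId (ZMod ℓ) M) = Algebra.ofId (ZMod ℓ) M :=
    Subsingleton.elim _ _
  rw [Point.map_map, hcomp]

/-- **a point fixed by the Frobenius is `k`-rational.** -/
theorem exists_of_frob_fixed (W : Affine (ZMod ℓ)) (M : Type*) [Field M] [Algebra (ZMod ℓ) M]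
    [DecidableEq M] (S : (W⁄M).Point) (hS : Point.map (W' := W) (frobAlg ℓ M) S = S) :
    ∃ T : (W⁄(ZMod ℓ)).Point, Point.map (W' := W) (Algebra.ofId (ZMod ℓ) M) T = S := by
  rcases S with _ | ⟨x, y, h⟩
  · exact ⟨0, rfl⟩
  · rw [Point.map_some] at hS
    have hxy := Point.some.inj hS
    obtain ⟨a, ha⟩ := mem_range_algebraMap_of_pow_eq (ℓ := ℓ) (z := x) hxy.1
    obtain ⟨b, hb⟩ := mem_range_algebraMap_of_pow_eq (ℓ := ℓ) (z := y) hxy.2
    have hinj : Function.Injective (Algebra.ofId (ZMod ℓ) M) :=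
      FaithfulSMul.algebraMap_injective (ZMod ℓ) M
    have hns : (W⁄(ZMod ℓ)).Nonsingular a b := by
      rw [← W.baseChange_nonsingular (A := ZMod ℓ) (B := M) (f := Algebra.ofId (ZMod ℓ) M) hinj]
      have h' : (W⁄M).Nonsingular (Algebra.ofId (ZMod ℓ) M a) (Algebra.ofId (ZMod ℓ) M b) := by
        rw [Algebra.ofId_apply, Algebra.ofId_apply, ha, hb]
        exact h
      exact h'
    refine ⟨Point.some _ _ hns, ?_⟩
    rw [Point.map_some]
    simp only [Algebra.ofId_apply, ha, hb]

omit [Fact ℓ.Prime] in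
/-- **`W⁄k` and `W` have the same number of points** (they are the same curve). -/
theorem card_baseChange_self (W : Affine (ZMod ℓ)) :
    Nat.card (W⁄(ZMod ℓ)).Point = Nat.card W.Point :=
  rfl

end Fermat.Agent.FrobRel.ManinMB74
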