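/-
S58 squad, brick (a3) Manin lemma, sub-brick (MC) (helper53):
**twice the generic point is not an algebraic point.**

`k` any field, `W` a Weierstrass curve over `k` with `Δ ≠ 0`, `K = W.FunctionField`,
`P₀ = (x, y) ∈ W(K)` the generic point.  Then `2 • P₀ ∉ algPoints W K`: its `x`-coordinate is
`gh(x, 1) / fh(x, 1)` (`PLCurve2.dbl_some_of_Y_ne`), a quotient of coprime polynomials
(`PLForms2.bezout`, `Δ ≠ 0`) of degrees `4` and `≤ 3`, hence transcendental over `k`
(`SubstEmb17.transcendental_of_isCoprime`).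
-/
import Mathlib
import Fermat.Agent.ES.Q58.IotaDescent23
import Fermat.Agent.ES.Q58.SubstEmb17
import Fermat.Agent.ES.Q58.PLCurve2

set_option autoImplicit false

namespace Fermat.Agent.FrobRel.ManinMC53

open WeierstrassCurve WeierstrassCurve.Affine Polynomial
open Fermat.Agent.ES.Q58.IotaDescent23 Fermat.Agent.ES.Q58.SubstEmb17
open Fermat.Agent.ES.Q58.PLForms2 Fermat.Agent.ES.Q58.PLCurve2

section Forms

variable {R S : Type*} [CommRing R] [CommRing S]

theorem fh_map (φ : R →+* S) (W : WeierstrassCurve R) (u v : R) :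
    fh (W.map φ) (φ u) (φ v) = φ (fh W u v) := by
  simp only [fh, WeierstrassCurve.map_b₂, WeierstrassCurve.map_b₄, WeierstrassCurve.map_b₆,
    map_add, map_mul, map_pow, map_ofNat]

theorem gh_map (φ : R →+* S) (W : WeierstrassCurve R) (u v : R) :
    gh (W.map φ) (φ u) (φ v) = φ (gh W u v) := by
  simp only [gh, WeierstrassCurve.map_b₄, WeierstrassCurve.map_b₆, WeierstrassCurve.map_b₈,
    map_sub, map_mul, map_pow, map_ofNat]

end Forms

variable {k : Type*} [Field k] (W : Affine k)

/-- the denominator polynomial `4X³ + b₂X² + 2b₄X + b₆` of the duplication formula. -/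
noncomputable def dblDen : k[X] := fh (W.map (C : k →+* k[X])) X 1

/-- the numerator polynomial `X⁴ - b₄X² - 2b₆X - b₈` of the duplication formula. -/
noncomputable def dblNum : k[X] := gh (W.map (C : k →+* k[X])) X 1

theorem isCoprime_dblNum_dblDen (hΔ : W.Δ ≠ 0) : IsCoprime (dblNum W) (dblDen W) := by
  have hb := bezout (W.map (C : k →+* k[X])) X 1
  rw [WeierstrassCurve.map_Δ] at hb
  simp only [one_pow, mul_one, one_mul] at hb
  refine ⟨-(C W.Δ⁻¹ * (48 * X ^ 2 + 8 * (W.map (C : k →+* k[X])).b₂ * X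
      + (32 * (W.map (C : k →+* k[X])).b₄ - (W.map (C : k →+* k[X])).b₂ ^ 2))),
    C W.Δ⁻¹ * (12 * X ^ 3 - (W.map (C : k →+* k[X])).b₂ * X ^ 2
      - 10 * (W.map (C : k →+* k[X])).b₄ * X
      + ((W.map (C : k →+* k[X])).b₂ * (W.map (C : k →+* k[X])).b₄
        - 27 * (W.map (C : k →+* k[X])).b₆)), ?_⟩
  have hC : (C W.Δ⁻¹ : k[X]) * C W.Δ = 1 := by
    rw [← C_mul, inv_mul_cancel₀ hΔ, C_1]
  unfold dblNum dblDen
  linear_combination (C W.Δ⁻¹ : k[X]) * hb + hC

theorem natDegree_dblNum : (dblNum W).natDegree = 4 := by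
  unfold dblNum gh
  simp only [one_pow, mul_one, WeierstrassCurve.map_b₄, WeierstrassCurve.map_b₆,
    WeierstrassCurve.map_b₈]
  have : (X ^ 4 - C W.b₄ * X ^ 2 - 2 * C W.b₆ * X - C W.b₈ : k[X])
      = X ^ 4 + (-(C W.b₄ * X ^ 2) - 2 * C W.b₆ * X - C W.b₈) := by ring
  rw [this]
  have hlt : (-(C W.b₄ * X ^ 2) - 2 * C W.b₆ * X - C W.b₈ : k[X]).degree < (4 : ℕ) := by
    have e : (-(C W.b₄ * X ^ 2) - 2 * C W.b₆ * X - C W.b₈ : k[X])
        = C (-W.b₄) * X ^ 2 + C (-(2 * W.b₆)) * X + C (-W.b₈) := by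
      simp only [C_neg, C_mul, C_ofNat]; ring
    rw [e]
    exact lt_of_le_of_lt (degree_quadratic_le) (by norm_num)
  have hlt' : (-(C W.b₄ * X ^ 2) - 2 * C W.b₆ * X - C W.b₈ : k[X]).degree
      < (X ^ 4 : k[X]).degree := by
    rw [degree_X_pow]; exact hlt
  rw [natDegree_add_eq_left_of_degree_lt hlt', natDegree_X_pow]

variable [DecidableEq W.FunctionField]

/-- **(MC)**: twice the generic point is not an algebraic point. -/
theorem two_nsmul_genericPoint_not_mem_algPoints (hΔ : W.Δ ≠ 0) :
    (2 : ℕ) • Fermat.Agent.ES.Q58.IotaDescent23.genericPoint W hΔ ∉ algPoints W W.FunctionField := by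
  have hns := nonsingular_xK_yK W hΔ
  -- `y ≠ negY x y`
  have hy : yK W ≠ (W⁄W.FunctionField).negY (xK W) (yK W) := by
    intro h
    apply two_yK_ne_zero W hΔ
    have h' : yK W - (W⁄W.FunctionField).negY (xK W) (yK W) = 0 := sub_eq_zero.mpr h
    rw [Affine.negY] at h'
    simp only [WeierstrassCurve.baseChange, WeierstrassCurve.map_a₁, WeierstrassCurve.map_a₃] at h'
    linear_combination h'
  obtain ⟨c, hc, h1, h2⟩ := dbl_some_of_Y_ne (W := (W⁄W.FunctionField)) hns hy
  -- the doubled point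
  have h2P : (2 : ℕ) • Fermat.Agent.ES.Q58.IotaDescent23.genericPoint W hΔ
      = Point.some _ _ (nonsingular_add hns hns (fun hxy => hy hxy.right)) := by
    rw [two_nsmul]
    unfold Fermat.Agent.ES.Q58.IotaDescent23.genericPoint
    exact Point.add_self_of_Y_ne hy
  rw [h2P, some_mem_algPoints_iff]
  -- transcendence of the `x`-coordinate
  have hfh : fh (W⁄W.FunctionField) (xK W) 1 = algebraMap k[X] W.FunctionField (dblDen W) := by
    have := fh_map (algebraMap k[X] W.FunctionField) (W.map (C : k →+* k[X])) X 1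
    rw [WeierstrassCurve.map_map, map_one] at this
    have hcomp : (algebraMap k[X] W.FunctionField).comp (C : k →+* k[X]) = algebraMap k W.FunctionField := by
      ext a
      show algebraMap k[X] W.FunctionField (algebraMap k k[X] a) = _
      rw [← IsScalarTower.algebraMap_apply]
    rw [hcomp] at this
    exact this
  have hgh : gh (W⁄W.FunctionField) (xK W) 1 = algebraMap k[X] W.FunctionField (dblNum W) := by
    have := gh_map (algebraMap k[X] W.FunctionField) (W.map (C : k →+* k[X])) X 1
    rw [WeierstrassCurve.map_map, map_one] at this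
    have hcomp : (algebraMap k[X] W.FunctionField).comp (C : k →+* k[X]) = algebraMap k W.FunctionField := by
      ext a
      show algebraMap k[X] W.FunctionField (algebraMap k k[X] a) = _
      rw [← IsScalarTower.algebraMap_apply]
    rw [hcomp] at this
    exact this
  have htr : Transcendental k ((W⁄W.FunctionField).addX (xK W) (xK W)
      ((W⁄W.FunctionField).slope (xK W) (xK W) (yK W) (yK W))) := by
    apply transcendental_of_isCoprime W (isCoprime_dblNum_dblDen W hΔ)
    · rw [natDegree_dblNum]; exact lt_max_of_lt_left (by norm_num)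
    · rw [← hfh, ← hgh, h1, h2]; ring
  exact htr

end Fermat.Agent.FrobRel.ManinMC53
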