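/-
Frobenius relation on an elliptic curve over `𝔽_ℓ` (S58 brick (a)) (helper2): UNCONDITIONAL final
statement.  Glue of `FrobRel/Main` (helper2: everything but Manin's lemma) with `FrobRel/Manin76`
(helper76) and its sub-bricks `ManinMA80` (helper80), `ManinMB74` (helper74), `ManinMC53` (helper53).

* `maninStatement` : `hgt ((1 - φ) P₀) = #W(𝔽_ℓ)`;
* **`frobenius_relation`** : for `E` over `ZMod r` with `Δ ≠ 0`, any field `L` over `ZMod r`, any
  `ZMod r`-algebra endomorphism `F` of `L` with `F x = x ^ r`, and `Q ∈ E(L)`: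
  `F (F Q) - (r + 1 - #E(𝔽_r)) • F Q + r • Q = 0`.
-/
import Fermat.Agent.FrobRel.Main
import Fermat.Agent.FrobRel.Manin76
import Fermat.Agent.FrobRel.ManinMA80
import Fermat.Agent.FrobRel.ManinMB74
import Fermat.Agent.FrobRel.ManinMC53

set_option autoImplicit false
set_option linter.unusedSectionVars false

namespace Fermat.Agent.FrobRel

open Polynomial WeierstrassCurve WeierstrassCurve.Affine
open Fermat.Agent.ES.Q58.IotaDescent23 Fermat.Agent.ES.Q58.SubstEmb17
open Fermat.Agent.ES.Q58.PLPoly2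

variable {ℓ : ℕ} [Fact ℓ.Prime] {W : Affine (ZMod ℓ)}

theorem frobL_eq_frobAlg (L : Type*) [Field L] [Algebra (ZMod ℓ) L] :
    frobL ℓ L = ManinDefs.frobAlg ℓ L :=
  ManinDefs.eq_frobAlg (frobL ℓ L) (frobL_apply ℓ L)

/-- **Manin's lemma**: the height of `(1 - φ) P₀` is the number of points of `W` over `𝔽_ℓ`. -/
theorem maninStatement [DecidableEq W.FunctionField] (hΔ : W.Δ ≠ 0) : ManinStatement hΔ := by
  classical
  unfold ManinStatement
  -- positivity of the height (Hasse bound)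
  have hq : 2 ≤ ℓ := (Fact.out : ℓ.Prime).two_le
  have hq0 : ℓ ≠ 0 := by omega
  have hpos := (hasse_pos (dOdd_PL hΔ) dOdd_nonneg (genOdd hΔ)
    (phiOdd (frobL ℓ W.FunctionField) (frobL_apply ℓ W.FunctionField) (genOdd hΔ)) ℓ
    (dOdd_genOdd hΔ)
    (by rw [dOdd_phiOdd _ _ hΔ hq0, dOdd_genOdd, mul_one]) (by exact_mod_cast hq)).2
  obtain ⟨xR, yR, h, hR, -⟩ := exists_some_of_dOdd_pos hΔ _ hpos
  rw [AddSubgroup.coe_sub, coe_phiOdd] at hR
  have e0 : ((genOdd hΔ : oddPoints W) : (W⁄W.FunctionField).Point) = genericPoint W hΔ := rfl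
  rw [e0] at hR
  have hodd : Point.some xR yR h ∈ oddPoints W := by
    rw [← hR]
    exact sub_mem (genericPoint_mem_oddPoints W hΔ)
      (map_frob_mem_oddPoints _ (frobL_apply ℓ W.FunctionField) (genericPoint_mem_oddPoints W hΔ))
  obtain ⟨U, V, hUV⟩ := exists_isXRep_of_mem_oddPoints W hΔ hodd
  obtain ⟨hcop, hx⟩ := (isXRep_some_iff W h U V).mp hUV
  have hpos' : 0 < max U.natDegree V.natDegree := by
    have : 0 < hgt W (Point.some xR yR h) := by
      unfold dOdd at hpos
      rw [AddSubgroup.coe_sub, coe_phiOdd, e0, hR] at hpos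
      exact_mod_cast hpos
    rw [hUV.hgt_eq] at this
    exact this
  rw [hR, hUV.hgt_eq]
  rw [frobL_eq_frobAlg] at hR
  have key := Manin76.manin_of W hΔ h hR hcop hx (L := AlgebraicClosure W.FunctionField) hpos'
    (ManinMA80.wronskian_ne_zero W hΔ h hR hcop hx)
    (fun T => ManinMB74.frob_map_ofId W W.FunctionField T)
    (fun S hS => ManinMB74.exists_of_frob_fixed W (AlgebraicClosure W.FunctionField) S hS)
    (ManinMC53.two_nsmul_genericPoint_not_mem_algPoints W hΔ)
  rw [ManinMB74.card_baseChange_self] at key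
  exact key

/-- **The Frobenius relation** `φ² - a φ + r = 0` on `E(L)`, `a = r + 1 - #E(𝔽_r)`, for an elliptic
curve `E` over `𝔽_r` and an arbitrary field `L` over `𝔽_r`. -/
theorem frobenius_relation {r : ℕ} [Fact r.Prime] (E : WeierstrassCurve (ZMod r)) (hΔ : E.Δ ≠ 0)
    {L : Type*} [Field L] [Algebra (ZMod r) L] [DecidableEq L]
    (F : L →ₐ[ZMod r] L) (hF : ∀ x, F x = x ^ r) (Q : (E⁄L).Point) :
    Point.map (W' := E) F (Point.map (W' := E) F Q)
      - ((r : ℤ) + 1 - (Nat.card E.toAffine.Point : ℤ)) • Point.map (W' := E) F Q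
      + (r : ℤ) • Q = 0 :=
  frobenius_relation_of_manin (W := E) hΔ (fun {_} => maninStatement hΔ) F hF Q

end Fermat.Agent.FrobRel
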