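/-
S58 programme, brick (a3) = MANIN'S LEMMA, sub-brick (MC) (helper38).

`2 • P₀` (the double of the generic point of a Weierstrass curve with `Δ ≠ 0` over its function field)
is NOT an algebraic point: its `x`-coordinate is `gh(x,1)/fh(x,1)` with `gh`, `fh` the duplication forms,
which are coprime polynomials in `x` (Bezout identity with the discriminant), `gh` of degree `4`; and
`2 • P₀ ≠ 0` because `2y + a₁x + a₃ ≠ 0` in the function field.
-/
import Fermat.Agent.ES.Q58.SubstEmb17
import Fermat.Agent.ES.Q58.PLCurve2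

set_option autoImplicit false

namespace Fermat.Agent.FrobRel.ManinMC38

open WeierstrassCurve WeierstrassCurve.Affine Polynomial
open Fermat.Agent.ES.Q58 Fermat.Agent.ES.Q58.IotaDescent23 Fermat.Agent.ES.Q58.SubstEmb17
open Fermat.Agent.ES.Q58.PLForms2 Fermat.Agent.ES.Q58.PLCurve2

section Forms

variable {R S : Type*} [CommRing R] [CommRing S]

/-- the duplication form `fh` commutes with ring homomorphisms. -/
theorem map_fh (φ : R →+* S) (W : WeierstrassCurve R) (u v : R) :
    φ (fh W u v) = fh (W.map φ) (φ u) (φ v) := by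
  simp only [fh, map_add, map_mul, map_pow, map_ofNat, WeierstrassCurve.map_b₂,
    WeierstrassCurve.map_b₄, WeierstrassCurve.map_b₆]

/-- the duplication form `gh` commutes with ring homomorphisms. -/
theorem map_gh (φ : R →+* S) (W : WeierstrassCurve R) (u v : R) :
    φ (gh W u v) = gh (W.map φ) (φ u) (φ v) := by
  simp only [gh, map_sub, map_mul, map_pow, map_ofNat, WeierstrassCurve.map_b₄,
    WeierstrassCurve.map_b₆, WeierstrassCurve.map_b₈]

end Forms

variable {k : Type*} [Field k] (W : Affine k)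

/-- the numerator polynomial of `x(2P)`: `X⁴ - b₄X² - 2b₆X - b₈`. -/
noncomputable def gPoly : k[X] := gh (WeierstrassCurve.map W (C : k →+* k[X])) X 1

/-- the denominator polynomial of `x(2P)`: `4X³ + b₂X² + 2b₄X + b₆`. -/
noncomputable def fPoly : k[X] := fh (WeierstrassCurve.map W (C : k →+* k[X])) X 1

theorem gPoly_eq : gPoly W = X ^ 4 - C W.b₄ * X ^ 2 - 2 * C W.b₆ * X - C W.b₈ := by
  simp only [gPoly, gh, WeierstrassCurve.map_b₄, WeierstrassCurve.map_b₆, WeierstrassCurve.map_b₈,
    one_pow, mul_one]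

theorem natDegree_gPoly : (gPoly W).natDegree = 4 := by
  rw [gPoly_eq]
  compute_degree!

/-- **Bezout**: the duplication polynomials are coprime when `Δ ≠ 0`. -/
theorem isCoprime_gPoly_fPoly (hΔ : W.Δ ≠ 0) : IsCoprime (gPoly W) (fPoly W) := by
  have hb := bezout (WeierstrassCurve.map W (C : k →+* k[X])) (X : k[X]) 1
  rw [WeierstrassCurve.map_Δ] at hb
  simp only [one_pow, mul_one, one_mul] at hb
  refine ⟨-(C W.Δ⁻¹ * (48 * X ^ 2 + 8 * (WeierstrassCurve.map W (C : k →+* k[X])).b₂ * X
      + (32 * (WeierstrassCurve.map W (C : k →+* k[X])).b₄ - (WeierstrassCurve.map W (C : k →+* k[X])).b₂ ^ 2))),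
    C W.Δ⁻¹ * (12 * X ^ 3 - (WeierstrassCurve.map W (C : k →+* k[X])).b₂ * X ^ 2
      - 10 * (WeierstrassCurve.map W (C : k →+* k[X])).b₄ * X
      + ((WeierstrassCurve.map W (C : k →+* k[X])).b₂ * (WeierstrassCurve.map W (C : k →+* k[X])).b₄
        - 27 * (WeierstrassCurve.map W (C : k →+* k[X])).b₆)), ?_⟩
  have h1 : (C W.Δ⁻¹ : k[X]) * C W.Δ = 1 := by
    rw [← C_mul, inv_mul_cancel₀ hΔ, C_1]
  unfold gPoly fPoly
  linear_combination (C W.Δ⁻¹ : k[X]) * hb + h1

/-- the base change of `W.map C` along `k[X] → K` is the base change of `W` to `K`. -/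
theorem map_map_algebraMap :
    (WeierstrassCurve.map W (C : k →+* k[X])).map (algebraMap k[X] W.FunctionField) = W⁄W.FunctionField := by
  rw [WeierstrassCurve.map_map]
  rfl

theorem algebraMap_fPoly :
    algebraMap k[X] W.FunctionField (fPoly W) = fh (W⁄W.FunctionField) (xK W) 1 := by
  rw [fPoly, map_fh, map_map_algebraMap, map_one]
  rfl

theorem algebraMap_gPoly :
    algebraMap k[X] W.FunctionField (gPoly W) = gh (W⁄W.FunctionField) (xK W) 1 := by
  rw [gPoly, map_gh, map_map_algebraMap, map_one]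
  rfl

/-- **(MC)** the double of the generic point is not an algebraic point. -/
theorem two_nsmul_genericPoint_not_mem_algPoints {k : Type*} [Field k] (W : Affine k)
    (hΔ : W.Δ ≠ 0) [DecidableEq W.FunctionField] :
    (2 : ℕ) • IotaDescent23.genericPoint W hΔ ∉ algPoints W W.FunctionField := by
  have h₀ := nonsingular_xK_yK W hΔ
  have hy : yK W ≠ (W⁄W.FunctionField).negY (xK W) (yK W) := by
    intro h
    apply two_yK_ne_zero W hΔ
    simp only [negY, baseChange_a₁, baseChange_a₃] at h
    linear_combination h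
  obtain ⟨c, hc, hf, hg⟩ := dbl_some_of_Y_ne h₀ hy
  rw [two_nsmul, IotaDescent23.genericPoint, Point.add_self_of_Y_ne hy, some_mem_algPoints_iff]
  have hz : (W⁄W.FunctionField).addX (xK W) (xK W)
        ((W⁄W.FunctionField).slope (xK W) (xK W) (yK W) (yK W))
      * algebraMap k[X] W.FunctionField (fPoly W) = algebraMap k[X] W.FunctionField (gPoly W) := by
    rw [algebraMap_fPoly, algebraMap_gPoly, hf, hg, mul_comm]
  exact transcendental_of_isCoprime W (isCoprime_gPoly_fPoly W hΔ)
    (by rw [natDegree_gPoly]; exact lt_max_of_lt_left (by norm_num)) hz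

end Fermat.Agent.FrobRel.ManinMC38
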