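/-
S58 programme, brick (a3) = MANIN'S LEMMA (helper76), final statement.

`ℓ` prime, `k = ZMod ℓ`, `W` a Weierstrass curve over `k` with `Δ ≠ 0`, `K = k(W)`, `P₀ = (x, y)` the
generic point, `frob` the `ℓ`-power Frobenius of `K`, `R = P₀ − frob P₀ = (xR, yR)`,
`xR = U(x) / V(x)` in lowest terms, not constant.  Then `max (deg U) (deg V) = #W(k)`.

Assembly of `Manin76.manin_of` with the sub-bricks (MA) `ManinMA80.wronskian_ne_zero` (helper80),
(MB) `ManinMB74` (helper74), (MC) `ManinMC38.two_nsmul_genericPoint_not_mem_algPoints` (helper38).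
-/
import Mathlib
import Fermat.Agent.FrobRel.Manin76
import Fermat.Agent.FrobRel.ManinMA80
import Fermat.Agent.FrobRel.ManinMB74
import Fermat.Agent.FrobRel.ManinMC38

set_option autoImplicit false

open WeierstrassCurve WeierstrassCurve.Affine Polynomial
open Fermat.Agent.ES.Q58.IotaDescent23 Fermat.Agent.ES.Q58.SubstEmb17
open Fermat.Agent.FrobRel.ManinDefs

namespace Fermat.Agent.FrobRel.ManinFinal76

variable {ℓ : ℕ} [Fact ℓ.Prime]

/-- **Manin's lemma**, for the canonical Frobenius `frobAlg`. -/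
theorem manin_frobAlg (W : Affine (ZMod ℓ)) (hΔ : W.Δ ≠ 0) [DecidableEq W.FunctionField]
    {xR yR : W.FunctionField} (h : (W⁄W.FunctionField).Nonsingular xR yR)
    (hR : genericPoint W hΔ - Point.map (W' := W) (frobAlg ℓ W.FunctionField) (genericPoint W hΔ)
      = Point.some xR yR h)
    {U V : (ZMod ℓ)[X]} (hUV : IsCoprime U V)
    (hx : xR * algebraMap (ZMod ℓ)[X] W.FunctionField V = algebraMap (ZMod ℓ)[X] W.FunctionField U)
    (hpos : 0 < max U.natDegree V.natDegree) :
    max U.natDegree V.natDegree = Nat.card W.Point := by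
  classical
  rw [← Fermat.Agent.FrobRel.ManinMB74.card_baseChange_self W]
  exact Fermat.Agent.FrobRel.Manin76.manin_of W hΔ h hR hUV hx
    (L := AlgebraicClosure W.FunctionField) hpos
    (Fermat.Agent.FrobRel.ManinMA80.wronskian_ne_zero W hΔ h hR hUV hx)
    (fun T => Fermat.Agent.FrobRel.ManinMB74.frob_map_ofId W W.FunctionField T)
    (fun S hS => Fermat.Agent.FrobRel.ManinMB74.exists_of_frob_fixed W
      (AlgebraicClosure W.FunctionField) S hS)
    (Fermat.Agent.FrobRel.ManinMC38.two_nsmul_genericPoint_not_mem_algPoints W hΔ)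

/-- **Manin's lemma** (signature of report 172): `frob` any `ZMod ℓ`-algebra endomorphism of the
function field which is the `ℓ`-power map. -/
theorem manin (W : Affine (ZMod ℓ)) (hΔ : W.Δ ≠ 0) [DecidableEq W.FunctionField]
    (frob : W.FunctionField →ₐ[ZMod ℓ] W.FunctionField) (hfrob : ∀ z, frob z = z ^ ℓ)
    {xR yR : W.FunctionField} (h : (W⁄W.FunctionField).Nonsingular xR yR)
    (hR : genericPoint W hΔ - Point.map (W' := W) frob (genericPoint W hΔ) = Point.some xR yR h)
    {U V : (ZMod ℓ)[X]} (hUV : IsCoprime U V)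
    (hx : xR * algebraMap (ZMod ℓ)[X] W.FunctionField V = algebraMap (ZMod ℓ)[X] W.FunctionField U)
    (hpos : 0 < max U.natDegree V.natDegree) :
    max U.natDegree V.natDegree = Nat.card W.Point := by
  have e : frob = frobAlg ℓ W.FunctionField := eq_frobAlg frob hfrob
  subst e
  exact manin_frobAlg W hΔ h hR hUV hx hpos

end Fermat.Agent.FrobRel.ManinFinal76
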