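/-
S58 programme, brick (a): adapter (helper76).  `ManinFinal76.manin` gives helper2's
`FrobRel.ManinStatement`, hence the unconditional Frobenius relation
`φ² Q − (ℓ + 1 − #W(𝔽_ℓ)) φ Q + ℓ Q = 0` on `W(L)` for every field `L ⊇ ZMod ℓ`.
-/
import Fermat.Agent.FrobRel.Main
import Fermat.Agent.FrobRel.ManinFinal76

set_option autoImplicit false

open Polynomial WeierstrassCurve WeierstrassCurve.Affine
open Fermat.Agent.ES.Q58.IotaDescent23 Fermat.Agent.ES.Q58.SubstEmb17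

namespace Fermat.Agent.FrobRel.ManinAdapter76

open Fermat.Agent.FrobRel

variable {ℓ : ℕ} [Fact ℓ.Prime] {W : Affine (ZMod ℓ)}

/-- **Manin's lemma in the shape of `FrobRel.ManinStatement`.** -/
theorem maninStatement (hΔ : W.Δ ≠ 0) [DecidableEq W.FunctionField] : ManinStatement hΔ := by
  unfold ManinStatement
  have hℓ2 : 2 ≤ ℓ := (Fact.out : ℓ.Prime).two_le
  have hℓ0 : ℓ ≠ 0 := by omega
  set frob := frobL ℓ W.FunctionField with hfrobdef
  have hfrob : ∀ z, frob z = z ^ ℓ := frobL_apply ℓ W.FunctionField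
  have hpos : 0 < dOdd (genOdd hΔ - phiOdd frob hfrob (genOdd hΔ)) :=
    (hasse_pos (dOdd_PL hΔ) dOdd_nonneg (genOdd hΔ) (phiOdd frob hfrob (genOdd hΔ)) ℓ
      (dOdd_genOdd hΔ) (by rw [dOdd_phiOdd frob hfrob hΔ hℓ0, dOdd_genOdd, mul_one])
      (by exact_mod_cast hℓ2)).2
  obtain ⟨u, v, h, hR, -⟩ := exists_some_of_dOdd_pos hΔ _ hpos
  have hRodd : Point.some u v h ∈ oddPoints W := by
    rw [← hR]; exact (genOdd hΔ - phiOdd frob hfrob (genOdd hΔ)).2
  have hR' : genericPoint W hΔ - Point.map (W' := W) frob (genericPoint W hΔ) =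
      Point.some u v h := by
    rw [← hR, AddSubgroup.coe_sub, coe_phiOdd]
    rfl
  obtain ⟨U, V, hrep⟩ := exists_isXRep_of_mem_oddPoints W hΔ hRodd
  obtain ⟨hUV, hx⟩ := (isXRep_some_iff W h U V).mp hrep
  have hh : hgt W (Point.some u v h) = max U.natDegree V.natDegree := hrep.hgt_eq
  have hpos' : 0 < max U.natDegree V.natDegree := by
    rw [← hh, ← hR]
    unfold dOdd at hpos
    exact_mod_cast hpos
  rw [hR', hh]
  exact Fermat.Agent.FrobRel.ManinFinal76.manin W hΔ frob hfrob h hR' hUV hx hpos'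

/-- **the Frobenius relation on an elliptic curve over `𝔽_ℓ`** (S58 brick (a), unconditional):
for every field `L ⊇ ZMod ℓ`, every `ℓ`-power Frobenius `F` of `L` and every `Q ∈ W(L)`,
`F² Q − (ℓ + 1 − #W(𝔽_ℓ)) F Q + ℓ Q = 0`. -/
theorem frobenius_relation (hΔ : W.Δ ≠ 0) {L : Type*} [Field L] [Algebra (ZMod ℓ) L]
    [DecidableEq L] (F : L →ₐ[ZMod ℓ] L) (hF : ∀ x, F x = x ^ ℓ) (Q : (W⁄L).Point) :
    Point.map (W' := W) F (Point.map (W' := W) F Q)
      - ((ℓ : ℤ) + 1 - (Nat.card W.Point : ℤ)) • Point.map (W' := W) F Q + (ℓ : ℤ) • Q = 0 :=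
  frobenius_relation_of_manin hΔ (fun {_} => maninStatement hΔ) F hF Q

end Fermat.Agent.FrobRel.ManinAdapter76
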