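/-
S58 programme, brick (a3) = MANIN'S LEMMA, sub-brick (MA) (helper60), signature of helper76's plan.

`wronskian_ne_zero`: `k = ZMod l`, `K = W.FunctionField`, `P₀ = (x, y)` the generic point, `φ` the
`l`-power Frobenius of `K`.  If `R = P₀ - φ P₀ = (xR, yR)` and `xR = U(x) / V(x)` with `U, V` coprime,
then the Wronskian `U' V - U V'` is not zero.

Proof.  Otherwise `U = U₁ ^ l`, `V = V₁ ^ l` (`InsepPoly9`), so `xR = w ^ l`, `w = U₁(x) / V₁(x)`.
* Unless `l = 2` and `a₁ w + a₃ = 0`, `yR = y' ^ l` with `(w, y')` on the curve (`InsepLeavesB5`), so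
  `R = φ R'`, `P₀ = φ (P₀ + R')` and `x` is an `l`-th power in `K`: impossible (`InsepLeaves5`).
* If `l = 2` and `a₁ w + a₃ = 0` then `a₁ xR + a₃ = 0`, `R = -R`, so `2 P₀ = φ (2 P₀)` is a
  Frobenius-fixed, hence algebraic, point: impossible since `x(2 P₀) = gh(x) / fh(x)` is a
  non-constant fraction (`two_nsmul_genericPoint_not_mem_algPoints`, = sub-brick (MC), proved here
  independently over any field `k`).
-/
import Mathlib
import Fermat.Agent.ES.Q58.IotaDescent23
import Fermat.Agent.ES.Q58.SubstEmb17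
import Fermat.Agent.ES.Q58.InsepPoly9
import Fermat.Agent.ES.Q58.InsepLeaves5
import Fermat.Agent.ES.Q58.InsepLeavesB5
import Fermat.Agent.ES.Q58.PLCurve2
import Fermat.Agent.FrobRel.ManinDefs

set_option autoImplicit false

open WeierstrassCurve WeierstrassCurve.Affine Polynomial
open Fermat.Agent.ES.Q58.IotaDescent23 Fermat.Agent.ES.Q58.SubstEmb17
open Fermat.Agent.ES.Q58.PLForms2
open Fermat.Agent.FrobRel.ManinDefs

namespace Fermat.Agent.FrobRel.ManinMA60

section MC

variable {k : Type*} [Field k] (W : Affine k)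

/-- the duplication numerator `X⁴ - b₄X² - 2b₆X - b₈` as a polynomial. -/
noncomputable def dupNum : k[X] :=
  X ^ 4 - C W.b₄ * X ^ 2 - C (2 * W.b₆) * X - C W.b₈

/-- the duplication denominator `4X³ + b₂X² + 2b₄X + b₆` as a polynomial. -/
noncomputable def dupDen : k[X] :=
  C 4 * X ^ 3 + C W.b₂ * X ^ 2 + C (2 * W.b₄) * X + C W.b₆

theorem natDegree_dupNum : (dupNum W).natDegree = 4 := by
  unfold dupNum
  compute_degree!

theorem dupNum_eq : dupNum W = gh (W.map (C : k →+* k[X])) X 1 := by
  simp only [dupNum, gh, WeierstrassCurve.map_b₄, WeierstrassCurve.map_b₆,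
    WeierstrassCurve.map_b₈, map_mul, map_ofNat]
  ring

theorem dupDen_eq : dupDen W = fh (W.map (C : k →+* k[X])) X 1 := by
  simp only [dupDen, fh, WeierstrassCurve.map_b₂, WeierstrassCurve.map_b₄,
    WeierstrassCurve.map_b₆, map_mul, map_ofNat]
  ring

theorem isCoprime_dupNum_dupDen (hΔ : W.Δ ≠ 0) : IsCoprime (dupNum W) (dupDen W) := by
  have hb := bezout (R := k[X]) (W.map (C : k →+* k[X])) X 1
  rw [← dupNum_eq, ← dupDen_eq, WeierstrassCurve.map_Δ] at hb
  have hu : IsUnit (C W.Δ : k[X]) := isUnit_C.mpr (isUnit_iff_ne_zero.mpr hΔ)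
  obtain ⟨d, hd⟩ := hu.exists_left_inv
  generalize (W.map (C : k →+* k[X])).b₂ = B2 at hb
  generalize (W.map (C : k →+* k[X])).b₄ = B4 at hb
  generalize (W.map (C : k →+* k[X])).b₆ = B6 at hb
  generalize dupNum W = G at hb ⊢
  generalize dupDen W = F at hb ⊢
  generalize (C W.Δ : k[X]) = D at hb hd
  refine ⟨-(d * (1 * (48 * X ^ 2 + 8 * B2 * X * 1 + (32 * B4 - B2 ^ 2) * 1 ^ 2))),
    d * (12 * X ^ 3 - B2 * X ^ 2 * 1 - 10 * B4 * X * 1 ^ 2 + (B2 * B4 - 27 * B6) * 1 ^ 3), ?_⟩
  linear_combination d * hb + hd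


theorem algebraMap_dupDen :
    algebraMap k[X] W.FunctionField (dupDen W) = fh (W⁄W.FunctionField) (xK W) 1 := by
  have hC : ∀ a : k, algebraMap k[X] W.FunctionField (C a) = algebraMap k W.FunctionField a :=
    fun a => (IsScalarTower.algebraMap_apply k k[X] W.FunctionField a).symm
  simp only [dupDen, fh, WeierstrassCurve.baseChange, WeierstrassCurve.map_b₂,
    WeierstrassCurve.map_b₄, WeierstrassCurve.map_b₆, map_add, map_mul, map_pow, hC,
    algebraMap_polynomial_X, map_ofNat]
  ring

theorem algebraMap_dupNum :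
    algebraMap k[X] W.FunctionField (dupNum W) = gh (W⁄W.FunctionField) (xK W) 1 := by
  have hC : ∀ a : k, algebraMap k[X] W.FunctionField (C a) = algebraMap k W.FunctionField a :=
    fun a => (IsScalarTower.algebraMap_apply k k[X] W.FunctionField a).symm
  simp only [dupNum, gh, WeierstrassCurve.baseChange, WeierstrassCurve.map_b₄,
    WeierstrassCurve.map_b₆, WeierstrassCurve.map_b₈, map_sub, map_mul, map_pow, hC,
    algebraMap_polynomial_X, map_ofNat]
  ring

/-- **(MC)** `2 • P₀` is not an algebraic point. -/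
theorem two_nsmul_genericPoint_not_mem_algPoints (hΔ : W.Δ ≠ 0) [DecidableEq W.FunctionField] :
    (2 : ℕ) • Fermat.Agent.ES.Q58.IotaDescent23.genericPoint W hΔ ∉
      algPoints W W.FunctionField := by
  intro hmem
  obtain ⟨c, hc, h1, h2⟩ := Fermat.Agent.ES.Q58.PLCurve2.dbl_rel
    (W := (W⁄W.FunctionField)) (Fermat.Agent.ES.Q58.IotaDescent23.genericPoint W hΔ)
  rw [two_nsmul] at hmem
  have hx : (Fermat.Agent.ES.Q58.IotaDescent23.genericPoint W hΔ).xRep = ![xK W, 1] := rfl
  rw [hx] at h1 h2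
  simp only [Matrix.cons_val_zero, Matrix.cons_val_one] at h1 h2
  rcases hS : Fermat.Agent.ES.Q58.IotaDescent23.genericPoint W hΔ +
      Fermat.Agent.ES.Q58.IotaDescent23.genericPoint W hΔ with _ | ⟨xS, yS, hnS⟩
  · -- `2 P₀ = 0` contradicts `2y + a₁x + a₃ ≠ 0`
    rw [hS] at h1
    have hz : (Point.zero : (W⁄W.FunctionField).Point).xRep = ![1, 0] := rfl
    rw [hz] at h1
    simp only [Matrix.cons_val_one, Matrix.cons_val_zero, mul_zero] at h1
    rw [← algebraMap_dupDen, map_eq_zero_iff _ (algebraMap_functionField_injective W)] at h1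
    have hco := isCoprime_dupNum_dupDen W hΔ
    rw [h1, isCoprime_zero_right] at hco
    have := natDegree_eq_zero_of_isUnit hco
    rw [natDegree_dupNum] at this
    omega
  · rw [hS] at h1 h2 hmem
    rw [Point.xRep_some] at h1 h2
    simp only [Matrix.cons_val_zero, Matrix.cons_val_one, mul_one] at h1 h2
    rw [some_mem_algPoints_iff] at hmem
    refine transcendental_of_isCoprime W (isCoprime_dupNum_dupDen W hΔ) ?_ ?_ hmem
    · rw [natDegree_dupNum]; exact lt_max_of_lt_left (by norm_num)
    · rw [algebraMap_dupDen, algebraMap_dupNum, h1, h2, mul_comm]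

end MC

variable {l : ℕ} [Fact l.Prime]

local notation "P₀" => Fermat.Agent.ES.Q58.IotaDescent23.genericPoint

/-- The generic point is not in the image of Frobenius. -/
theorem genericPoint_ne_frob (W : Affine (ZMod l)) (hΔ : W.Δ ≠ 0) [DecidableEq W.FunctionField]
    (S : (W⁄W.FunctionField).Point) :
    Point.map (W' := W) (frobAlg l W.FunctionField) S ≠ P₀ W hΔ := by
  intro hS
  rcases S with _ | ⟨xS, yS, hS'⟩
  · exact Point.some_ne_zero _ hS.symm
  · rw [Point.map_some, Fermat.Agent.ES.Q58.IotaDescent23.genericPoint] at hS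
    have hx : frobAlg l W.FunctionField xS = xK W := (Point.some.inj hS).1
    rw [frobAlg_apply] at hx
    have := charP_of_algebra (ℓ := l) (ZMod l)
    exact Fermat.Agent.ES.Q58.InsepLeaves5.x_ne_pow' W l hΔ xS hx

/-- If `P₀ - φ P₀ = φ R'` then we have a contradiction. -/
theorem not_sub_frob_eq_frob (W : Affine (ZMod l)) (hΔ : W.Δ ≠ 0) [DecidableEq W.FunctionField]
    (R' : (W⁄W.FunctionField).Point)
    (h : P₀ W hΔ - Point.map (W' := W) (frobAlg l W.FunctionField) (P₀ W hΔ) =
      Point.map (W' := W) (frobAlg l W.FunctionField) R') : False := by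
  apply genericPoint_ne_frob W hΔ (P₀ W hΔ + R')
  rw [map_add, ← h, add_sub_cancel]

/-- the base-changed curve over the function field has nonzero discriminant -/
theorem baseChange_Δ_ne_zero (W : Affine (ZMod l)) (hΔ : W.Δ ≠ 0) :
    (W⁄W.FunctionField).Δ ≠ 0 := by
  change (W.map (algebraMap (ZMod l) W.FunctionField)).Δ ≠ 0
  rw [WeierstrassCurve.map_Δ]
  exact fun h => hΔ ((map_eq_zero (algebraMap (ZMod l) W.FunctionField)).mp h)

/-- **(MA), non-exceptional case**: if `xR = w ^ l` and `yR = y' ^ l` with `(w, y')` on the curve. -/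
theorem false_of_pow (W : Affine (ZMod l)) (hΔ : W.Δ ≠ 0) [DecidableEq W.FunctionField]
    {xR yR : W.FunctionField} (h : (W⁄W.FunctionField).Nonsingular xR yR)
    (hR : P₀ W hΔ - Point.map (W' := W) (frobAlg l W.FunctionField) (P₀ W hΔ)
      = Point.some xR yR h)
    {w y' : W.FunctionField} (hw : w ^ l = xR) (hy : y' ^ l = yR)
    (heq : (W⁄W.FunctionField).Equation w y') : False := by
  have hns : (W⁄W.FunctionField).Nonsingular w y' :=
    ((W⁄W.FunctionField).equation_iff_nonsingular_of_Δ_ne_zero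
      (baseChange_Δ_ne_zero W hΔ)).mp heq
  apply not_sub_frob_eq_frob W hΔ (Point.some w y' hns)
  rw [hR, Point.map_some]
  simp only [frobAlg_apply, hw, hy]


/-- In characteristic `2`, an affine point with `a₁ x + a₃ = 0` is its own negative. -/
theorem neg_some_eq_self_of_char_two (W : Affine (ZMod 2)) [DecidableEq W.FunctionField]
    {xR yR : W.FunctionField} (h : (W⁄W.FunctionField).Nonsingular xR yR)
    (hA : algebraMap (ZMod 2) W.FunctionField W.a₁ * xR +
      algebraMap (ZMod 2) W.FunctionField W.a₃ = 0) :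
    -(Point.some xR yR h) = Point.some xR yR h := by
  have := charP_of_algebra (ℓ := 2) W.FunctionField
  have two0 : (2 : W.FunctionField) = 0 := CharTwo.two_eq_zero
  rw [Point.neg_some]
  simp only [Point.some.injEq, true_and]
  change -yR - algebraMap (ZMod 2) W.FunctionField W.a₁ * xR -
    algebraMap (ZMod 2) W.FunctionField W.a₃ = yR
  linear_combination -hA - yR * two0


/-- A Frobenius-fixed point is an algebraic point. -/
theorem mem_algPoints_of_frob_fixed (W : Affine (ZMod l)) [DecidableEq W.FunctionField]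
    (S : (W⁄W.FunctionField).Point)
    (hS : Point.map (W' := W) (frobAlg l W.FunctionField) S = S) :
    S ∈ algPoints W W.FunctionField := by
  rcases S with _ | ⟨xS, yS, hnS⟩
  · exact zero_mem _
  · rw [Point.map_some] at hS
    have hx : frobAlg l W.FunctionField xS = xS := (Point.some.inj hS).1
    rw [frobAlg_apply] at hx
    rw [some_mem_algPoints_iff]
    refine ⟨X ^ l - X, ?_, ?_⟩
    · intro h0
      have h1 := congrArg (fun p : (ZMod l)[X] => p.coeff 1) h0
      have hl : (1 : ℕ) ≠ l := (Fact.out : l.Prime).one_lt.ne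
      simp [coeff_X_pow, hl] at h1
    · simp only [map_sub, map_pow, aeval_X, hx, sub_self]

/-- **(MA), exceptional case**: `P₀ - φ P₀` is not a `2`-torsion point. -/
theorem false_of_two_torsion (W : Affine (ZMod l)) (hΔ : W.Δ ≠ 0) [DecidableEq W.FunctionField]
    (hMC : (2 : ℕ) • P₀ W hΔ ∉ algPoints W W.FunctionField)
    (h2 : (2 : ℕ) • (P₀ W hΔ - Point.map (W' := W) (frobAlg l W.FunctionField) (P₀ W hΔ)) = 0) :
    False := by
  apply hMC
  apply mem_algPoints_of_frob_fixed
  rw [nsmul_sub, sub_eq_zero] at h2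
  rw [map_nsmul, ← h2]


/-- **(MA)** the Wronskian of the `x`-coordinate of `P₀ - φ P₀` does not vanish. -/
theorem wronskian_ne_zero (W : Affine (ZMod l)) (hΔ : W.Δ ≠ 0) [DecidableEq W.FunctionField]
    {xR yR : W.FunctionField} (h : (W⁄W.FunctionField).Nonsingular xR yR)
    (hR : P₀ W hΔ - Point.map (W' := W) (frobAlg l W.FunctionField) (P₀ W hΔ)
      = Point.some xR yR h)
    {U V : (ZMod l)[X]} (hUV : IsCoprime U V)
    (hx : xR * algebraMap (ZMod l)[X] W.FunctionField V =
      algebraMap (ZMod l)[X] W.FunctionField U) :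
    derivative U * V - U * derivative V ≠ 0 := by
  intro hW
  have hW' : derivative U * V = U * derivative V := sub_eq_zero.mp hW
  have hchar := charP_of_algebra (ℓ := l) (ZMod l)
  obtain ⟨U₁, V₁, -, hU, hV⟩ :=
    Fermat.Agent.ES.Q58.InsepPoly9.exists_pow_of_wronskian l hUV hW'
  have hl0 : l ≠ 0 := (Fact.out : l.Prime).ne_zero
  -- `V ≠ 0`
  have hV0 : V ≠ 0 := by
    rintro rfl
    rw [map_zero, mul_zero] at hx
    have hU0 : U = 0 := algebraMap_functionField_injective W (by rw [← hx, map_zero])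
    rw [hU0] at hUV
    exact not_isCoprime_zero_zero hUV
  have hV₁0 : V₁ ≠ 0 := by
    rintro rfl
    rw [zero_pow hl0] at hV
    exact hV0 hV
  have hcV₁ : algebraMap (ZMod l)[X] W.FunctionField V₁ ≠ 0 := by
    rw [Ne, map_eq_zero_iff _ (algebraMap_functionField_injective W)]
    exact hV₁0
  -- `xR = w ^ l`
  have hw : (algebraMap (ZMod l)[X] W.FunctionField U₁ /
      algebraMap (ZMod l)[X] W.FunctionField V₁) ^ l = xR := by
    rw [div_pow, ← map_pow, ← map_pow, ← hU, ← hV, ← hx, mul_div_assoc, div_self, mul_one]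
    rw [hV, map_pow]
    exact pow_ne_zero _ hcV₁
  set w := algebraMap (ZMod l)[X] W.FunctionField U₁ /
    algebraMap (ZMod l)[X] W.FunctionField V₁ with hwdef
  have heq : (W.map (algebraMap (ZMod l) W.FunctionField)).toAffine.Equation (w ^ l) yR := by
    rw [hw]
    exact h.1
  by_cases hex : l = 2 ∧ algebraMap (ZMod l) W.FunctionField W.a₁ * w +
      algebraMap (ZMod l) W.FunctionField W.a₃ = 0
  · -- exceptional case: `R` is a `2`-torsion point
    obtain ⟨rfl, hA⟩ := hex
    have hcharK := charP_of_algebra (ℓ := 2) W.FunctionField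
    have two0 : (2 : W.FunctionField) = 0 := CharTwo.two_eq_zero
    have ha₁ : algebraMap (ZMod 2) W.FunctionField W.a₁ ^ 2 =
        algebraMap (ZMod 2) W.FunctionField W.a₁ := by
      rw [← map_pow, ZMod.pow_card]
    have ha₃ : algebraMap (ZMod 2) W.FunctionField W.a₃ ^ 2 =
        algebraMap (ZMod 2) W.FunctionField W.a₃ := by
      rw [← map_pow, ZMod.pow_card]
    have hA' : algebraMap (ZMod 2) W.FunctionField W.a₁ * xR +
        algebraMap (ZMod 2) W.FunctionField W.a₃ = 0 := by
      rw [← hw]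
      linear_combination (algebraMap (ZMod 2) W.FunctionField W.a₁ * w +
        algebraMap (ZMod 2) W.FunctionField W.a₃) * hA
        - (algebraMap (ZMod 2) W.FunctionField W.a₁ * w *
          algebraMap (ZMod 2) W.FunctionField W.a₃) * two0
        - w ^ 2 * ha₁ - ha₃
    have hneg := neg_some_eq_self_of_char_two W h hA'
    refine false_of_two_torsion W hΔ (two_nsmul_genericPoint_not_mem_algPoints W hΔ) ?_
    rw [hR, two_nsmul]
    nth_rewrite 1 [← hneg]
    exact neg_add_cancel _
  · obtain ⟨y', hy', heq'⟩ :=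
      Fermat.Agent.ES.Q58.InsepLeavesB5.exists_frobenius_preimage_y_zmod l W heq
        (fun h2 h0 => hex ⟨h2, h0⟩)
    exact false_of_pow W hΔ h hR hw hy' heq'

end Fermat.Agent.FrobRel.ManinMA60
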