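/-
S58 squad, brick (a2)/(R4) (helper27): **the quadratic relation for the degree at the generic
point.**

`k` a field, `W` a Weierstrass curve over `k` with `Δ ≠ 0`, `K = W.FunctionField`, `P₀` the generic
point, `Φ : K →ₐ[k] K` of the form `z ↦ z ^ q` (Frobenius, `k = 𝔽_q`), `φ = Point.map Φ`.
With `N := deg (P₀ - φ P₀)` (`= #W(𝔽_q)` by Manin's lemma; here only `N ≠ 0` is used):
  `deg (φ² P₀ - (1 + q - N) • φ P₀ + q • P₀) = 0`.
Inputs: the parallelogram law and `deg ∘ φ = q · deg` (`Q58R.Deg`, helper90), multiplicativity of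
`deg` along the substitution embedding `σ_R`, `R = P₀ - φ P₀` (`DegSubst27`), and the pure algebra
`QuadRel18.quad_rel` (helper18).
-/
import Fermat.Agent.ES.Q58.QuadRel18
import Fermat.Agent.FrobRel.DegSubst27

set_option autoImplicit false
set_option linter.unusedSectionVars false

namespace Fermat.Agent.FrobRel.QuadApply27

open WeierstrassCurve WeierstrassCurve.Affine Polynomial
open Fermat.Agent.ES.Q58.IotaDescent23 Fermat.Agent.ES.Q58.SubstEmb17
open Fermat.Agent.ES.Q58.QuadRel18
open Fermat.Agent.FrobRel.DegSubst27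
open Fermat.Agent.Q58R.Deg

variable {k : Type*} [Field k] {W : Affine k} [DecidableEq W.FunctionField]

/-- the integer valued degree on the group of odd points. -/
noncomputable def dOdd (R : oddPoints W) : ℤ := (deg W (R : (W⁄W.FunctionField).Point) : ℤ)

theorem dOdd_PL (hΔ : W.Δ ≠ 0) (x y : oddPoints W) :
    dOdd (x + y) + dOdd (x - y) = 2 * dOdd x + 2 * dOdd y := by
  unfold dOdd
  rw [AddSubgroup.coe_add, AddSubgroup.coe_sub]
  exact_mod_cast deg_add_add_deg_sub hΔ x.2 y.2

/-- a nonzero point is affine. -/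
theorem exists_some_of_ne_zero {F : Type*} [Field F] {V : Affine F} {R : V.Point} (h : R ≠ 0) :
    ∃ (x y : F) (hxy : V.Nonsingular x y), R = Point.some x y hxy := by
  rcases R with _ | ⟨x, y, hxy⟩
  · exact absurd rfl h
  · exact ⟨x, y, hxy, rfl⟩

/-- substitution embeddings commute with power maps on points. -/
theorem map_substHom_map_pow {q : ℕ} (Φ : W.FunctionField →ₐ[k] W.FunctionField)
    (hΦ : ∀ z, Φ z = z ^ q) {xR yR : W.FunctionField}
    (h : (W⁄W.FunctionField).Equation xR yR) (hX : Transcendental k xR)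
    (S : (W⁄W.FunctionField).Point) :
    Point.map (W' := W) (substHom W h hX) (Point.map (W' := W) Φ S) =
      Point.map (W' := W) Φ (Point.map (W' := W) (substHom W h hX) S) := by
  have hcomm : (substHom W h hX).comp Φ = Φ.comp (substHom W h hX) := by
    refine AlgHom.ext fun z => ?_
    rw [AlgHom.comp_apply, AlgHom.comp_apply, hΦ, hΦ, map_pow]
  rw [Point.map_map, Point.map_map, hcomm]

/-- **the quadratic relation at the generic point.** -/
theorem deg_quad_rel (hΔ : W.Δ ≠ 0) {q : ℕ} (hq : q ≠ 0)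
    (Φ : W.FunctionField →ₐ[k] W.FunctionField) (hΦ : ∀ z, Φ z = z ^ q)
    (hN : deg W (genericPoint W hΔ - Point.map (W' := W) Φ (genericPoint W hΔ)) ≠ 0) :
    deg W (Point.map (W' := W) Φ (Point.map (W' := W) Φ (genericPoint W hΔ))
      - ((1 : ℤ) + q - deg W (genericPoint W hΔ - Point.map (W' := W) Φ (genericPoint W hΔ))) •
          Point.map (W' := W) Φ (genericPoint W hΔ)
      + (q : ℤ) • genericPoint W hΔ) = 0 := by
  set P₀ := genericPoint W hΔ with hP₀
  have m0 : P₀ ∈ oddPoints W := genericPoint_mem_oddPoints W hΔ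
  have m1 : Point.map (W' := W) Φ P₀ ∈ oddPoints W := map_pow_mem_oddPoints Φ hΦ m0
  have m2 : Point.map (W' := W) Φ (Point.map (W' := W) Φ P₀) ∈ oddPoints W :=
    map_pow_mem_oddPoints Φ hΦ m1
  set e0 : oddPoints W := ⟨P₀, m0⟩ with he0
  set e1 : oddPoints W := ⟨Point.map (W' := W) Φ P₀, m1⟩ with he1
  set e2 : oddPoints W := ⟨Point.map (W' := W) Φ (Point.map (W' := W) Φ P₀), m2⟩ with he2
  have h0 : dOdd e0 = 1 := by
    unfold dOdd; rw [he0]; simp only; rw [hP₀, deg_genericPoint hΔ]; rfl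
  have h1 : dOdd e1 = (q : ℤ) := by
    unfold dOdd; rw [he1]; simp only
    rw [deg_map_pow hΔ hq Φ hΦ m0, hP₀, deg_genericPoint hΔ, mul_one]
  have h2 : dOdd e2 = (q : ℤ) ^ 2 := by
    unfold dOdd; rw [he2]; simp only
    rw [deg_map_pow hΔ hq Φ hΦ m1, deg_map_pow hΔ hq Φ hΦ m0, hP₀, deg_genericPoint hΔ, mul_one]
    push_cast; ring
  have h12 : dOdd (e1 + e2) = (q : ℤ) * dOdd (e0 + e1) := by
    unfold dOdd
    rw [AddSubgroup.coe_add, AddSubgroup.coe_add]
    simp only [he0, he1, he2]
    rw [← map_add, deg_map_pow hΔ hq Φ hΦ (add_mem m0 m1)]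
    push_cast; ring
  have hprod : dOdd (e0 - e2) = dOdd (e0 - e1) * dOdd (e0 + e1) := by
    unfold dOdd
    rw [AddSubgroup.coe_sub, AddSubgroup.coe_sub, AddSubgroup.coe_add]
    simp only [he0, he1, he2]
    -- the point `R = P₀ - φ P₀`
    have hR0 : P₀ - Point.map (W' := W) Φ P₀ ≠ 0 := by
      intro h; apply hN; rw [h, deg_zero]
    obtain ⟨xR, yR, hR, hRe⟩ := exists_some_of_ne_zero hR0
    have mR : Point.some xR yR hR ∈ oddPoints W := by rw [← hRe]; exact sub_mem m0 m1
    obtain ⟨A, B, hAB⟩ := exists_isXRatio hΔ mR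
    have hX : Transcendental k xR :=
      transcendental_of_deg_ne_zero hR hAB (by rw [← hRe]; exact hN)
    have key := deg_map_substHom_of_mem_oddPoints hΔ hR hX mR (add_mem m0 m1)
    have hσ0 : Point.map (W' := W) (substHom W hR.1 hX) P₀ = Point.some xR yR hR :=
      map_substHom_genericPoint W hΔ hR hX
    rw [map_add, map_substHom_map_pow Φ hΦ, hσ0, ← hRe, map_sub] at key
    have e : P₀ - Point.map (W' := W) Φ P₀ +
        (Point.map (W' := W) Φ P₀ - Point.map (W' := W) Φ (Point.map (W' := W) Φ P₀)) =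
        P₀ - Point.map (W' := W) Φ (Point.map (W' := W) Φ P₀) := by abel
    rw [e] at key
    rw [key]
    push_cast; ring
  have := quad_rel (dOdd_PL hΔ) e0 e1 e2 (q : ℤ) h0 h1 h2 h12 hprod
  unfold dOdd at this
  rw [AddSubgroup.coe_add, AddSubgroup.coe_sub, AddSubgroup.coe_zsmul, AddSubgroup.coe_zsmul,
    AddSubgroup.coe_sub] at this
  simp only [he0, he1, he2] at this
  exact_mod_cast this

end Fermat.Agent.FrobRel.QuadApply27
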