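/-
S58 programme: `TraceCong20.RelQbar W` for every integral Weierstrass curve `W`, from the
unconditional Frobenius relation in characteristic `r` (`FrobRel/Final`, brick (a)) and the transfer
to `ℚ̄` (`RedTors/Adapter`, brick (b), helper21).  (helper2)
-/
import Fermat.Agent.FrobRel.Final
import Fermat.Agent.RedTors.Adapter

set_option autoImplicit false

namespace Fermat.Agent.FrobRel

open WeierstrassCurve WeierstrassCurve.Affine

/-- brick (a) in the packaged form consumed by brick (b). -/
theorem frobeniusRelationStatement : Fermat.Agent.RedTors.FrobeniusRelationStatement :=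
  fun {_} _ E hΔ {_} _ _ _ F hF Q => frobenius_relation E hΔ F hF Q

/-- **the Eichler–Shimura relation on the torsion of the generic fibre**, for every integral
Weierstrass curve. -/
theorem relQbar (W : WeierstrassCurve ℤ) : Fermat.Agent.ES.Q58.TraceCong20.RelQbar W :=
  Fermat.Agent.RedTors.relQbar_of_frobeniusRelation frobeniusRelationStatement W

end Fermat.Agent.FrobRel
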