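/-
Programme S58, brick (a4-spec) (helper32): **specialisation of the Frobenius relation from the generic
point to all points.**

`r` a prime, `W` a Weierstrass curve over `ZMod r` with `Δ ≠ 0`, `K = W.FunctionField`,
`P₀ = (x, y) ∈ W(K)` the generic point (`IotaDescent23.genericPoint`).  For integers `a b` and a field
`M` over `ZMod r` put

  `psi W a b (frobAlg M) Q = Frob (Frob Q) - a • Frob Q + b • Q`   (`Q ∈ W(M)`, `Frob` = `r`-power map).

* `relation_of_generic` : if `psi … P₀ = 0` in `W(K)`, then `psi … Q = 0` for EVERY point `Q ∈ W(L)`,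
  `L` an arbitrary field over `ZMod r`.
* `frobenius_relation_of_generic` : the same with an arbitrary algebra endomorphism `F` of `L` with
  `F x = x ^ r` and the relation written out.

Method: if `x(Q)` is transcendental over `ZMod r`, apply the substitution embedding `σ_Q : K → L`
(`SubstEmb17.substHom`), which sends `P₀` to `Q` and commutes with Frobenius.  If `x(Q)` is algebraic,
`Q` comes from the algebraic closure `k'` of `ZMod r` in `L`; embed `k'` into an algebraic closure `K̄`
of `K`; there `P₀ + Q` has a transcendental `x`-coordinate, so the relation holds for `P₀ + Q` and for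
`P₀`, hence for `Q`.
-/
import Mathlib
import Fermat.Agent.ES.Q58.IotaDescent23
import Fermat.Agent.ES.Q58.SubstEmb17

set_option autoImplicit false

open WeierstrassCurve WeierstrassCurve.Affine Polynomial
open Fermat.Agent.ES.Q58.IotaDescent23 Fermat.Agent.ES.Q58.SubstEmb17

namespace Fermat.Agent.FrobRel.Specialize32

/-! ### The relation operator -/

section Psi

variable {k : Type*} [Field k] (W : Affine k)
variable {M : Type*} [Field M] [Algebra k M] [DecidableEq M]
variable {M' : Type*} [Field M'] [Algebra k M'] [DecidableEq M']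

/-- the relation operator `F² - a F + b` on `W(M)`, for an algebra endomorphism `F` of `M`. -/
noncomputable def psi (a b : ℤ) (F : M →ₐ[k] M) (Q : (W⁄M).Point) : (W⁄M).Point :=
  Point.map (W' := W) F (Point.map (W' := W) F Q) - a • Point.map (W' := W) F Q + b • Q

theorem psi_add (a b : ℤ) (F : M →ₐ[k] M) (P Q : (W⁄M).Point) :
    psi W a b F (P + Q) = psi W a b F P + psi W a b F Q := by
  unfold psi
  rw [map_add, map_add, smul_add, smul_add]
  abel

theorem psi_zero (a b : ℤ) (F : M →ₐ[k] M) : psi W a b F (0 : (W⁄M).Point) = 0 := by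
  unfold psi
  rw [map_zero, map_zero, smul_zero, smul_zero, sub_zero, add_zero]

/-- naturality of the relation operator. -/
theorem map_psi (a b : ℤ) (τ : M →ₐ[k] M') (F : M →ₐ[k] M) (F' : M' →ₐ[k] M')
    (hcomm : τ.comp F = F'.comp τ) (Q : (W⁄M).Point) :
    Point.map (W' := W) τ (psi W a b F Q) = psi W a b F' (Point.map (W' := W) τ Q) := by
  have h1 : ∀ R : (W⁄M).Point,
      Point.map (W' := W) τ (Point.map (W' := W) F R) =
        Point.map (W' := W) F' (Point.map (W' := W) τ R) := by
    intro R
    rw [Point.map_map, Point.map_map, hcomm]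
  unfold psi
  rw [map_add, map_sub, map_zsmul, map_zsmul, h1, h1]

end Psi

/-! ### Frobenius over `ZMod r` -/

section Frob

variable {r : ℕ} [Fact r.Prime]

/-- the `r`-power Frobenius of a field over `ZMod r`, as an algebra endomorphism. -/
noncomputable def frobAlg (M : Type*) [Field M] [Algebra (ZMod r) M] : M →ₐ[ZMod r] M :=
  haveI : CharP M r := charP_of_injective_algebraMap (algebraMap (ZMod r) M).injective r
  { frobenius M r with
    commutes' := fun c => by
      show (algebraMap (ZMod r) M c) ^ r = algebraMap (ZMod r) M c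
      rw [← map_pow, ZMod.pow_card] }

theorem frobAlg_apply (M : Type*) [Field M] [Algebra (ZMod r) M] (x : M) :
    frobAlg (r := r) M x = x ^ r := rfl

theorem eq_frobAlg {M : Type*} [Field M] [Algebra (ZMod r) M] (F : M →ₐ[ZMod r] M)
    (hF : ∀ x, F x = x ^ r) : F = frobAlg M :=
  AlgHom.ext fun x => by rw [hF, frobAlg_apply]

/-- Frobenius commutes with every algebra homomorphism. -/
theorem comp_frobAlg {M M' : Type*} [Field M] [Algebra (ZMod r) M] [Field M']
    [Algebra (ZMod r) M'] (τ : M →ₐ[ZMod r] M') :
    τ.comp (frobAlg M) = (frobAlg M').comp τ :=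
  AlgHom.ext fun x => by
    rw [AlgHom.comp_apply, AlgHom.comp_apply, frobAlg_apply, frobAlg_apply, map_pow]

end Frob

/-! ### The generic point in an extension of the function field -/

section Generic

variable {k : Type*} [Field k] (W : Affine k) [DecidableEq W.FunctionField]
variable {L : Type*} [Field L] [Algebra k L] [DecidableEq L]

/-- the image of the generic point under an embedding of the function field is not an algebraic
point. -/
theorem map_genericPoint_not_mem_algPoints (hΔ : W.Δ ≠ 0) (ι : W.FunctionField →ₐ[k] L) :
    Point.map (W' := W) ι (genericPoint W hΔ) ∉ algPoints W L := by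
  rw [Fermat.Agent.ES.Q58.IotaDescent23.genericPoint, Point.map_some, some_mem_algPoints_iff]
  intro h
  exact transcendental_xK W ((isAlgebraic_algHom_iff ι ι.injective).mp h)

/-- translates of the generic point by algebraic points have transcendental `x`-coordinate, in any
extension of the function field. -/
theorem exists_transcendental_of_map_genericPoint_add (hΔ : W.Δ ≠ 0)
    (ι : W.FunctionField →ₐ[k] L) {T : (W⁄L).Point} (hT : T ∈ algPoints W L) :
    ∃ (u v : L) (h : (W⁄L).Nonsingular u v), Transcendental k u ∧
      Point.map (W' := W) ι (genericPoint W hΔ) + T = Point.some u v h := by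
  have hP := map_genericPoint_not_mem_algPoints W hΔ ι
  rcases hsum : Point.map (W' := W) ι (genericPoint W hΔ) + T with _ | ⟨u, v, h⟩
  · exfalso
    apply hP
    have : Point.map (W' := W) ι (genericPoint W hΔ) = -T := by
      rw [eq_neg_iff_add_eq_zero]
      exact hsum
    rw [this]
    exact neg_mem hT
  · refine ⟨u, v, h, ?_, rfl⟩
    intro hu
    apply hP
    have h1 : Point.some u v h ∈ algPoints W L := (some_mem_algPoints_iff W h).mpr hu
    have : Point.map (W' := W) ι (genericPoint W hΔ) = Point.some u v h - T := by
      rw [← hsum, add_sub_cancel_right]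
    rw [this]
    exact sub_mem h1 hT

end Generic

/-! ### The specialisation theorem -/

section Main

variable {r : ℕ} [Fact r.Prime] (W : Affine (ZMod r)) [DecidableEq W.FunctionField]

/-- the relation at a point with transcendental `x`-coordinate. -/
theorem psi_some_eq_zero_of_transcendental (hΔ : W.Δ ≠ 0) (a b : ℤ)
    (hgen : psi W a b (frobAlg W.FunctionField) (genericPoint W hΔ) = 0)
    {L : Type*} [Field L] [Algebra (ZMod r) L] [DecidableEq L] {u v : L}
    (h : (W⁄L).Nonsingular u v) (hu : Transcendental (ZMod r) u) :
    psi W a b (frobAlg L) (Point.some u v h) = 0 := by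
  have key := map_psi W a b (substHom W h.1 hu) (frobAlg W.FunctionField) (frobAlg L)
    (comp_frobAlg _) (genericPoint W hΔ)
  rw [hgen, map_zero, map_substHom_genericPoint W hΔ h hu] at key
  exact key.symm

/-- the relation at an algebraic point of an algebraic closure of the function field. -/
theorem psi_eq_zero_of_mem_algPoints (hΔ : W.Δ ≠ 0) (a b : ℤ)
    (hgen : psi W a b (frobAlg W.FunctionField) (genericPoint W hΔ) = 0)
    {L : Type*} [Field L] [Algebra (ZMod r) L] [DecidableEq L]
    (ι : W.FunctionField →ₐ[ZMod r] L) {T : (W⁄L).Point} (hT : T ∈ algPoints W L) :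
    psi W a b (frobAlg L) T = 0 := by
  obtain ⟨u, v, h, hu, hsum⟩ := exists_transcendental_of_map_genericPoint_add W hΔ ι hT
  have h1 : psi W a b (frobAlg L) (Point.map (W' := W) ι (genericPoint W hΔ) + T) = 0 := by
    rw [hsum]
    exact psi_some_eq_zero_of_transcendental W hΔ a b hgen h hu
  have h2 : psi W a b (frobAlg L) (Point.map (W' := W) ι (genericPoint W hΔ)) = 0 := by
    rw [← map_psi W a b ι (frobAlg W.FunctionField) (frobAlg L) (comp_frobAlg _), hgen, map_zero]
  rw [psi_add, h2, zero_add] at h1
  exact h1

/-- **Specialisation**: the relation at the generic point implies the relation at every point over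
every field. -/
theorem relation_of_generic (hΔ : W.Δ ≠ 0) (a b : ℤ)
    (hgen : psi W a b (frobAlg W.FunctionField) (genericPoint W hΔ) = 0)
    {L : Type*} [Field L] [Algebra (ZMod r) L] [DecidableEq L] (Q : (W⁄L).Point) :
    psi W a b (frobAlg L) Q = 0 := by
  classical
  rcases Q with _ | ⟨u, v, h⟩
  · exact psi_zero W a b _
  by_cases hu : Transcendental (ZMod r) u
  · exact psi_some_eq_zero_of_transcendental W hΔ a b hgen h hu
  · -- the algebraic case
    have hu' : IsAlgebraic (ZMod r) u := by
      by_contra hcon
      exact hu hcon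
    have hmem : Point.some u v h ∈ algPoints W L := (some_mem_algPoints_iff W h).mpr hu'
    obtain ⟨Q₀, hQ₀⟩ := hmem
    -- an embedding of the algebraic closure of `ZMod r` in `L` into an algebraic closure of `K`
    let Kbar := AlgebraicClosure W.FunctionField
    let j : algebraicClosure (ZMod r) L →ₐ[ZMod r] Kbar := IsAlgClosed.lift
    let ι : W.FunctionField →ₐ[ZMod r] Kbar := IsScalarTower.toAlgHom (ZMod r) W.FunctionField Kbar
    have h3 : psi W a b (frobAlg Kbar) (Point.map (W' := W) j Q₀) = 0 :=
      psi_eq_zero_of_mem_algPoints W hΔ a b hgen ι (map_mem_algPoints W j Q₀)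
    rw [← map_psi W a b j (frobAlg (algebraicClosure (ZMod r) L)) (frobAlg Kbar)
      (comp_frobAlg _)] at h3
    have h4 : psi W a b (frobAlg (algebraicClosure (ZMod r) L)) Q₀ = 0 := by
      apply Point.map_injective (W' := W) j
      rw [h3, map_zero]
    have h5 := map_psi W a b (algebraicClosure (ZMod r) L).val
      (frobAlg (algebraicClosure (ZMod r) L)) (frobAlg L) (comp_frobAlg _) Q₀
    rw [h4, map_zero] at h5
    rw [← hQ₀]
    exact h5.symm

/-- **Specialisation, written out**, for an arbitrary Frobenius endomorphism `F` of `L`. -/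
theorem frobenius_relation_of_generic (hΔ : W.Δ ≠ 0) (a b : ℤ)
    (FK : W.FunctionField →ₐ[ZMod r] W.FunctionField) (hFK : ∀ z, FK z = z ^ r)
    (hgen : Point.map (W' := W) FK (Point.map (W' := W) FK (genericPoint W hΔ))
      - a • Point.map (W' := W) FK (genericPoint W hΔ) + b • genericPoint W hΔ = 0)
    {L : Type*} [Field L] [Algebra (ZMod r) L] [DecidableEq L]
    (F : L →ₐ[ZMod r] L) (hF : ∀ x, F x = x ^ r) (Q : (W⁄L).Point) :
    Point.map (W' := W) F (Point.map (W' := W) F Q) - a • Point.map (W' := W) F Q + b • Q = 0 := by
  have e1 := eq_frobAlg FK hFK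
  have e2 := eq_frobAlg F hF
  subst e1 e2
  exact relation_of_generic W hΔ a b hgen Q

end Main

end Fermat.Agent.FrobRel.Specialize32
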